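import Mathlib
import Fermat.Prelude.Def_FLTPrelim_Ramification

/-!
# S05: shared definitions

Elementary valuation-theoretic proof that the mod-`p` representation of the Frey curve is
unramified at odd primes `q ≠ p`.  This file only contains the (small) shared vocabulary.
-/

namespace Fermat.Agent.S05

open WeierstrassCurve

/-- `ord` is a rational-valued additive valuation on `K` whose valuation ring is `A`
(its value at `0` is junk). -/
structure IsOrd {K : Type*} [Field K] (A : ValuationSubring K) (ord : K → ℚ) : Prop where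
  mul : ∀ x y : K, x ≠ 0 → y ≠ 0 → ord (x * y) = ord x + ord y
  mem_iff : ∀ x : K, x ≠ 0 → (x ∈ A ↔ 0 ≤ ord x)

/-- The shape of the models we use: `Y² = X³ + a₂ X² + a₄ X`. -/
structure IsLeg {K : Type*} [CommRing K] (W : WeierstrassCurve K) : Prop where
  a₁ : W.a₁ = 0
  a₃ : W.a₃ = 0
  a₆ : W.a₆ = 0

/-- `σ` behaves like an element of the inertia group of `A`. -/
structure IsInertial {K : Type*} [Field K] (A : ValuationSubring K) (σ : K →+* K) : Prop where
  mem : ∀ x ∈ A, σ x ∈ A
  sub_mem : ∀ x ∈ A, σ x - x ∈ A.nonunits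

/-- `Φ` is the action of `σ` on the points of `W`. -/
def IsPointAction {K : Type*} [Field K] [DecidableEq K] (W : WeierstrassCurve K) (σ : K →+* K)
    (Φ : W.toAffine.Point →+ W.toAffine.Point) : Prop :=
  ∀ (x y : K) (h : W.toAffine.Nonsingular x y),
    ∃ h' : W.toAffine.Nonsingular (σ x) (σ y), Φ (.some x y h) = .some (σ x) (σ y) h'

/-- The model `Y² = X³ + (3r + a₂ + 1/4) X² + (3r² + 2(a₂ + 1/4) r + a₄) X` obtained from
`y² + xy = x³ + a₂ x² + a₄ x` by `Y = y + x/2`, `X = x - r`, for a root `r` of the cubic. -/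
def legOf (W : WeierstrassCurve ℚ) (r : ℚ) : WeierstrassCurve ℚ :=
  ⟨0, 3 * r + W.a₂ + 1 / 4, 0, 3 * r ^ 2 + 2 * (W.a₂ + 1 / 4) * r + W.a₄, 0⟩

theorem isLeg_legOf (W : WeierstrassCurve ℚ) (r : ℚ) : IsLeg (legOf W r) := ⟨rfl, rfl, rfl⟩

end Fermat.Agent.S05
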