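/-
S05 piece INERTIA: elements of the inertia group of a valuation subring `A` preserve `A` and act
trivially modulo the maximal ideal of `A`.
-/
import Fermat.Agent.S05.Defs

set_option autoImplicit false

namespace Fermat.Agent.S05.Inertia

open scoped Pointwise

variable {K L : Type*} [Field K] [Field L] [Algebra K L]

/-- The inertia group (as a subgroup of the full Galois group) lies in the decomposition
group. -/
theorem mem_decompositionSubgroup (A : ValuationSubring L) {σ : L ≃ₐ[K] L}
    (hσ : σ ∈ A.inertiaSubgroupIn K) : σ ∈ A.decompositionSubgroup K := by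
  obtain ⟨τ, -, rfl⟩ := hσ
  exact τ.2

/-- Elements of the decomposition group map `A` into `A`. -/
theorem apply_mem_of_mem_decompositionSubgroup (A : ValuationSubring L) {σ : L ≃ₐ[K] L}
    (hσ : σ ∈ A.decompositionSubgroup K) {x : L} (hx : x ∈ A) : σ x ∈ A := by
  have h1 : σ • A = A := MulAction.mem_stabilizer_iff.mp hσ
  have h2 : σ • x ∈ σ • A := ValuationSubring.smul_mem_pointwise_smul σ x A hx
  rw [h1] at h2
  exact h2

/-- Elements of the decomposition group preserve `A`. -/
theorem apply_mem_iff_of_mem_decompositionSubgroup (A : ValuationSubring L) {σ : L ≃ₐ[K] L}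
    (hσ : σ ∈ A.decompositionSubgroup K) (x : L) : σ x ∈ A ↔ x ∈ A := by
  refine ⟨fun h => ?_, apply_mem_of_mem_decompositionSubgroup A hσ⟩
  have h1 : σ⁻¹ ∈ A.decompositionSubgroup K := inv_mem hσ
  have h2 := apply_mem_of_mem_decompositionSubgroup A h1 h
  rwa [← AlgEquiv.mul_apply, inv_mul_cancel, AlgEquiv.one_apply] at h2

/-- Elements of the decomposition group preserve the units of `A`: `σ x` is a nonunit of `A`
iff `x` is. -/
theorem apply_mem_nonunits_iff_of_mem_decompositionSubgroup (A : ValuationSubring L)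
    {σ : L ≃ₐ[K] L} (hσ : σ ∈ A.decompositionSubgroup K) (x : L) :
    σ x ∈ A.nonunits ↔ x ∈ A.nonunits := by
  by_cases hx : x = 0
  · subst hx
    simp
  have hσx : σ x ≠ 0 := by simpa using hx
  have key : ∀ y : L, y ≠ 0 → (y ∈ A.nonunits ↔ y⁻¹ ∉ A) := by
    intro y hy
    have h := ValuationSubring.inv_mem_nonunits_iff (A := A) (x := y⁻¹)
    rw [inv_inv] at h
    rw [h]
    constructor
    · rintro (h0 | h0)
      · exact absurd (inv_eq_zero.mp h0) hy
      · exact h0
    · exact fun h0 => Or.inr h0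
  rw [key _ hσx, key _ hx, ← map_inv₀, apply_mem_iff_of_mem_decompositionSubgroup A hσ]

/-- Elements of the inertia group preserve `A`. -/
theorem apply_mem_iff (A : ValuationSubring L) {σ : L ≃ₐ[K] L}
    (hσ : σ ∈ A.inertiaSubgroupIn K) (x : L) : σ x ∈ A ↔ x ∈ A :=
  apply_mem_iff_of_mem_decompositionSubgroup A (mem_decompositionSubgroup A hσ) x

/-- Elements of the inertia group act trivially modulo the maximal ideal of `A`. -/
theorem sub_mem_nonunits (A : ValuationSubring L) {σ : L ≃ₐ[K] L}
    (hσ : σ ∈ A.inertiaSubgroupIn K) {x : L} (hx : x ∈ A) : σ x - x ∈ A.nonunits := by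
  obtain ⟨τ, hτ, rfl⟩ := hσ
  have h1 : MulSemiringAction.toRingAut (A.decompositionSubgroup K)
      (IsLocalRing.ResidueField A) τ = 1 := hτ
  have h2 : τ • (IsLocalRing.residue A ⟨x, hx⟩) = IsLocalRing.residue A ⟨x, hx⟩ := by
    have := congrArg (fun f : RingAut (IsLocalRing.ResidueField A) =>
      f (IsLocalRing.residue A ⟨x, hx⟩)) h1
    simpa using this
  rw [← IsLocalRing.ResidueField.residue_smul, ← sub_eq_zero, ← map_sub,
    IsLocalRing.residue_eq_zero_iff, ← A.coe_mem_nonunits_iff] at h2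
  exact h2

end Fermat.Agent.S05.Inertia

namespace Fermat.Agent.S05

open WeierstrassCurve WeierstrassCurve.Affine

/-! ## INERTIA : file Fermat/Agent/S05/Inertia.lean -/
theorem isInertial_of_mem {A : ValuationSubring (AlgebraicClosure ℚ)}
    {σ : AlgebraicClosure ℚ ≃ₐ[ℚ] AlgebraicClosure ℚ} (hσ : σ ∈ A.inertiaSubgroupIn ℚ) :
    σ ∈ A.decompositionSubgroup ℚ ∧
      IsInertial A ((σ : AlgebraicClosure ℚ ≃+* AlgebraicClosure ℚ) : AlgebraicClosure ℚ →+* AlgebraicClosure ℚ) :=
  ⟨Inertia.mem_decompositionSubgroup A hσ,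
    ⟨fun _ hx => (Inertia.apply_mem_iff A hσ _).mpr hx,
      fun _ hx => Inertia.sub_mem_nonunits A hσ hx⟩⟩

end Fermat.Agent.S05
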