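import Mathlib

/-!
# The kernel of reduction has no torsion prime to the residue characteristic (S05, piece CLAIMA)

Let `A` be a valuation subring of a field `K` and `W : Y² = x³ + a₂ x² + a₄ x` a Weierstrass curve
over `K` with `a₂, a₄ ∈ A`.  The points `(x, Y)` with `x ∉ A`, together with `0`, form a subgroup
`E₁` (the kernel of reduction), and for `P, Q ∈ E₁` the parameter `t = x / Y` satisfies
`t (P + Q) ≡ t P + t Q` modulo the cube of the larger of the two.  Consequently, a point killed by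
an integer `n` which is a unit of `A` has `x ∈ A`.

Everything is done by explicit algebra in the chart `t = x / Y`, `w = 1 / Y` (no completion, no
formal groups).
-/

set_option autoImplicit false

namespace Fermat.Agent.S05.ClaimA

open WeierstrassCurve WeierstrassCurve.Affine

section Algebra

variable {K : Type*} [Field K]

/-- The curve equation in the chart `t = x / Y`, `w = 1 / Y`. -/
theorem chart_eq {α β x Y : K} (hY : Y ≠ 0) (h : Y ^ 2 = x ^ 3 + α * x ^ 2 + β * x) :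
    1 / Y = (x / Y) ^ 3 + α * (x / Y) ^ 2 * (1 / Y) + β * (x / Y) * (1 / Y) ^ 2 := by
  field_simp
  linear_combination h

/-- The sum of the `t`-coordinates of the three intersection points of the curve with the line
`μ x + ν Y = 1`, in terms of the elementary symmetric functions of the `x`-coordinates. -/
theorem sum_identity {α β μ ν x1 x2 x3 : K} (hν : ν ≠ 0)
    (E1 : ν ^ 2 * (x1 + x2 + x3) = μ ^ 2 - α * ν ^ 2)
    (E2 : ν ^ 2 * (x1 * x2 + x1 * x3 + x2 * x3) = β * ν ^ 2 + 2 * μ)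
    (E3 : ν ^ 2 * (x1 * x2 * x3) = 1)
    (h1 : 1 - μ * x1 ≠ 0) (h2 : 1 - μ * x2 ≠ 0) (h3 : 1 - μ * x3 ≠ 0)
    (ha : 1 + α * μ + β * μ ^ 2 ≠ 0) :
    x1 / (1 - μ * x1) + x2 / (1 - μ * x2) + x3 / (1 - μ * x3) =
      -(α + 2 * β * μ) / (1 + α * μ + β * μ ^ 2) := by
  have key : (x1 * (1 - μ * x2) * (1 - μ * x3) + x2 * (1 - μ * x1) * (1 - μ * x3)
      + x3 * (1 - μ * x1) * (1 - μ * x2)) * (1 + α * μ + β * μ ^ 2)
      + (α + 2 * β * μ) * ((1 - μ * x1) * (1 - μ * x2) * (1 - μ * x3)) = 0 := by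
    apply mul_left_cancel₀ (pow_ne_zero 2 hν)
    linear_combination ((1 + α * μ + β * μ ^ 2) - μ * (α + 2 * β * μ)) * E1
      + (-2 * μ * (1 + α * μ + β * μ ^ 2) + μ ^ 2 * (α + 2 * β * μ)) * E2
      + (3 * μ ^ 2 * (1 + α * μ + β * μ ^ 2) - μ ^ 3 * (α + 2 * β * μ)) * E3
  rw [div_add_div _ _ h1 h2, div_add_div _ _ (mul_ne_zero h1 h2) h3,
    div_eq_div_iff (mul_ne_zero (mul_ne_zero h1 h2) h3) ha]
  linear_combination key

/-- Vieta's formulas for the intersection of the curve with the line `μ x + ν Y = 1`. -/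
theorem vieta {α β μ ν ℓ x1 Y1 x2 : K}
    (C1 : Y1 ^ 2 = x1 ^ 3 + α * x1 ^ 2 + β * x1)
    (L1 : ν * Y1 = 1 - μ * x1) (hℓ : ℓ * ν = -μ)
    (G12 : ν ^ 2 * (x1 ^ 2 + x1 * x2 + x2 ^ 2) + (α * ν ^ 2 - μ ^ 2) * (x1 + x2)
      + (β * ν ^ 2 + 2 * μ) = 0) :
    ν ^ 2 * (x1 + x2 + (ℓ ^ 2 - α - x1 - x2)) = μ ^ 2 - α * ν ^ 2 ∧
    ν ^ 2 * (x1 * x2 + x1 * (ℓ ^ 2 - α - x1 - x2) + x2 * (ℓ ^ 2 - α - x1 - x2))
      = β * ν ^ 2 + 2 * μ ∧
    ν ^ 2 * (x1 * x2 * (ℓ ^ 2 - α - x1 - x2)) = 1 := by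
  have E1 : ν ^ 2 * (x1 + x2 + (ℓ ^ 2 - α - x1 - x2)) = μ ^ 2 - α * ν ^ 2 := by
    linear_combination (ℓ * ν - μ) * hℓ
  have E2 : ν ^ 2 * (x1 * x2 + x1 * (ℓ ^ 2 - α - x1 - x2) + x2 * (ℓ ^ 2 - α - x1 - x2))
      = β * ν ^ 2 + 2 * μ := by
    linear_combination (-1 : K) * G12 + (x1 + x2) * (ℓ * ν - μ) * hℓ
  have G1 : (1 - μ * x1) ^ 2 = ν ^ 2 * (x1 ^ 3 + α * x1 ^ 2 + β * x1) := by
    linear_combination -(ν * Y1 + (1 - μ * x1)) * L1 + ν ^ 2 * C1
  refine ⟨E1, E2, ?_⟩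
  linear_combination (-x1 ^ 2) * E1 + x1 * E2 - G1

/-- Numerator of the chord/tangent slope in the chart `(t, w)`. -/
def muN (α β t1 t2 w1 : K) : K := t1 ^ 2 + t1 * t2 + t2 ^ 2 + α * (t1 + t2) * w1 + β * w1 ^ 2

/-- Denominator of the chord/tangent slope in the chart `(t, w)`. -/
def muD (α β t2 w1 w2 : K) : K := 1 - α * t2 ^ 2 - β * t2 * (w1 + w2)

/-- Both points lie on the line `μ x + ν Y = 1`. -/
theorem line_data {α β x1 Y1 x2 Y2 μ ν : K} (hY1 : Y1 ≠ 0) (hY2 : Y2 ≠ 0)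
    (C1 : Y1 ^ 2 = x1 ^ 3 + α * x1 ^ 2 + β * x1) (C2 : Y2 ^ 2 = x2 ^ 3 + α * x2 ^ 2 + β * x2)
    (hD : muD α β (x2 / Y2) (1 / Y1) (1 / Y2) ≠ 0)
    (hμ : μ = muN α β (x1 / Y1) (x2 / Y2) (1 / Y1) / muD α β (x2 / Y2) (1 / Y1) (1 / Y2))
    (hν : ν = 1 / Y1 - μ * (x1 / Y1)) :
    ν * Y1 = 1 - μ * x1 ∧ ν * Y2 = 1 - μ * x2 := by
  have L1 : ν * Y1 = 1 - μ * x1 := by
    rw [hν]; field_simp
  refine ⟨L1, ?_⟩
  have F1 := chart_eq hY1 C1
  have F2 := chart_eq hY2 C2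
  have hμD : μ * muD α β (x2 / Y2) (1 / Y1) (1 / Y2) = muN α β (x1 / Y1) (x2 / Y2) (1 / Y1) := by
    rw [hμ, div_mul_cancel₀ _ hD]
  have key : (1 / Y1 - 1 / Y2 - μ * (x1 / Y1 - x2 / Y2)) * muD α β (x2 / Y2) (1 / Y1) (1 / Y2)
      = 0 := by
    unfold muD muN at *
    linear_combination F1 - F2 - (x1 / Y1 - x2 / Y2) * hμD
  have h0 : 1 / Y1 - 1 / Y2 - μ * (x1 / Y1 - x2 / Y2) = 0 := by
    rcases mul_eq_zero.mp key with h | h
    · exact h
    · exact absurd h hD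
  have hν2 : ν = 1 / Y2 - μ * (x2 / Y2) := by
    rw [hν]; linear_combination h0
  rw [hν2]; field_simp

/-- The chord case. -/
theorem chord_data {α β x1 Y1 x2 Y2 μ ν : K} (hx : x1 ≠ x2)
    (C1 : Y1 ^ 2 = x1 ^ 3 + α * x1 ^ 2 + β * x1) (C2 : Y2 ^ 2 = x2 ^ 3 + α * x2 ^ 2 + β * x2)
    (L1 : ν * Y1 = 1 - μ * x1) (L2 : ν * Y2 = 1 - μ * x2) :
    ν ≠ 0 ∧ (Y1 - Y2) / (x1 - x2) * ν = -μ ∧
      ν ^ 2 * (x1 ^ 2 + x1 * x2 + x2 ^ 2) + (α * ν ^ 2 - μ ^ 2) * (x1 + x2)
        + (β * ν ^ 2 + 2 * μ) = 0 := by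
  have hx' : x1 - x2 ≠ 0 := sub_ne_zero.mpr hx
  have hν : ν ≠ 0 := by
    rintro rfl
    have h1 : μ * (x1 - x2) = 0 := by linear_combination L1 - L2
    rcases mul_eq_zero.mp h1 with h | h
    · rw [h] at L1; simp at L1
    · exact hx' h
  refine ⟨hν, ?_, ?_⟩
  · rw [div_mul_eq_mul_div, div_eq_iff hx']
    linear_combination L1 - L2
  · have G1 : (1 - μ * x1) ^ 2 = ν ^ 2 * (x1 ^ 3 + α * x1 ^ 2 + β * x1) := by
      linear_combination -(ν * Y1 + (1 - μ * x1)) * L1 + ν ^ 2 * C1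
    have G2 : (1 - μ * x2) ^ 2 = ν ^ 2 * (x2 ^ 3 + α * x2 ^ 2 + β * x2) := by
      linear_combination -(ν * Y2 + (1 - μ * x2)) * L2 + ν ^ 2 * C2
    apply mul_left_cancel₀ hx'
    linear_combination G2 - G1

/-- The tangent case. -/
theorem tangent_data {α β x Y μ ν : K} (h2 : (2 : K) ≠ 0) (hY : Y ≠ 0)
    (C : Y ^ 2 = x ^ 3 + α * x ^ 2 + β * x)
    (hD : muD α β (x / Y) (1 / Y) (1 / Y) ≠ 0)
    (hμ : μ = muN α β (x / Y) (x / Y) (1 / Y) / muD α β (x / Y) (1 / Y) (1 / Y))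
    (L : ν * Y = 1 - μ * x) :
    ν ≠ 0 ∧ (3 * x ^ 2 + 2 * α * x + β) / (2 * Y) * ν = -μ ∧
      ν ^ 2 * (x ^ 2 + x * x + x ^ 2) + (α * ν ^ 2 - μ ^ 2) * (x + x)
        + (β * ν ^ 2 + 2 * μ) = 0 := by
  have hμD : μ * muD α β (x / Y) (1 / Y) (1 / Y) = muN α β (x / Y) (x / Y) (1 / Y) := by
    rw [hμ, div_mul_cancel₀ _ hD]
  -- `μ * (Y² - α x² - 2 β x) = 3 x² + 2 α x + β`
  have hQ : μ * (Y ^ 2 - α * x ^ 2 - 2 * β * x) = 3 * x ^ 2 + 2 * α * x + β := by
    unfold muD muN at hμD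
    field_simp at hμD
    linear_combination hμD
  have h1 : (1 - μ * x) * (Y ^ 2 - α * x ^ 2 - 2 * β * x) = -2 * Y ^ 2 := by
    linear_combination -x * hQ + 3 * C
  have hμx : 1 - μ * x ≠ 0 := by
    intro h
    rw [h, zero_mul] at h1
    exact (mul_ne_zero (neg_ne_zero.mpr h2) (pow_ne_zero 2 hY)) h1.symm
  have hν : ν ≠ 0 := by
    rintro rfl
    rw [zero_mul] at L
    exact hμx L.symm
  have hsl : ν * (3 * x ^ 2 + 2 * α * x + β) = -2 * μ * Y := by
    have h3 : Y * (ν * (3 * x ^ 2 + 2 * α * x + β)) = Y * (-2 * μ * Y) := by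
      linear_combination (3 * x ^ 2 + 2 * α * x + β) * L + (1 - μ * x) * (-hQ) + μ * h1
    exact mul_left_cancel₀ hY h3
  refine ⟨hν, ?_, ?_⟩
  · rw [div_mul_eq_mul_div, div_eq_iff (mul_ne_zero h2 hY)]
    linear_combination hsl
  · linear_combination ν * hsl - 2 * μ * L

/-- The third intersection point of the line `μ x + ν Y = 1` with the curve. -/
theorem third_point {α β x1 Y1 x2 Y2 ℓ μ ν : K}
    (C1 : Y1 ^ 2 = x1 ^ 3 + α * x1 ^ 2 + β * x1)
    (L1 : ν * Y1 = 1 - μ * x1) (L2 : ν * Y2 = 1 - μ * x2) (hν : ν ≠ 0) (hℓ : ℓ * ν = -μ)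
    (G12 : ν ^ 2 * (x1 ^ 2 + x1 * x2 + x2 ^ 2) + (α * ν ^ 2 - μ ^ 2) * (x1 + x2)
      + (β * ν ^ 2 + 2 * μ) = 0)
    (ha : 1 + α * μ + β * μ ^ 2 ≠ 0) (hY1 : Y1 ≠ 0) (hY2 : Y2 ≠ 0) :
    ν * (ℓ * ((ℓ ^ 2 - α - x1 - x2) - x1) + Y1) = 1 - μ * (ℓ ^ 2 - α - x1 - x2) ∧
    (ℓ * ((ℓ ^ 2 - α - x1 - x2) - x1) + Y1 ≠ 0 →
      (ℓ ^ 2 - α - x1 - x2) / (-(ℓ * ((ℓ ^ 2 - α - x1 - x2) - x1) + Y1)) - x1 / Y1 - x2 / Y2
        = ν * (α + 2 * β * μ) / (1 + α * μ + β * μ ^ 2)) := by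
  obtain ⟨E1, E2, E3⟩ := vieta C1 L1 hℓ G12
  set x3 := ℓ ^ 2 - α - x1 - x2 with hx3
  have L3 : ν * (ℓ * (x3 - x1) + Y1) = 1 - μ * x3 := by
    linear_combination (x3 - x1) * hℓ + L1
  refine ⟨L3, fun hY3 => ?_⟩
  have d1 : 1 - μ * x1 ≠ 0 := by rw [← L1]; exact mul_ne_zero hν hY1
  have d2 : 1 - μ * x2 ≠ 0 := by rw [← L2]; exact mul_ne_zero hν hY2
  have d3 : 1 - μ * x3 ≠ 0 := by rw [← L3]; exact mul_ne_zero hν hY3
  have hs := sum_identity hν E1 E2 E3 d1 d2 d3 ha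
  have e1 : x1 / Y1 = ν * (x1 / (1 - μ * x1)) := by
    rw [← L1]; field_simp
  have e2 : x2 / Y2 = ν * (x2 / (1 - μ * x2)) := by
    rw [← L2]; field_simp
  have e3 : x3 / (-(ℓ * (x3 - x1) + Y1)) = -(ν * (x3 / (1 - μ * x3))) := by
    rw [← L3]; field_simp
  rw [e1, e2, e3]
  linear_combination (-ν) * hs

end Algebra

section Val

variable {K : Type*} [Field K] (A : ValuationSubring K)

theorem val_chart {α β x Y : K} (hα : α ∈ A) (hβ : β ∈ A) (hx : x ∉ A)
    (C : Y ^ 2 = x ^ 3 + α * x ^ 2 + β * x) :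
    Y ≠ 0 ∧ A.valuation (x / Y) < 1 ∧ x / Y ≠ 0 ∧
      A.valuation (1 / Y) = A.valuation (x / Y) ^ 3 := by
  have hvα : A.valuation α ≤ 1 := (A.valuation_le_one_iff α).mpr hα
  have hvβ : A.valuation β ≤ 1 := (A.valuation_le_one_iff β).mpr hβ
  have hvx : 1 < A.valuation x := not_le.mp (fun h => hx ((A.valuation_le_one_iff x).mp h))
  have hx0 : x ≠ 0 := by rintro rfl; exact hx A.zero_mem
  have hvx0 : A.valuation x ≠ 0 := (A.valuation.ne_zero_iff).mpr hx0
  have hY2 : A.valuation Y ^ 2 = A.valuation x ^ 3 := by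
    rw [← map_pow, C, add_assoc]
    have h1 : A.valuation (α * x ^ 2 + β * x) < A.valuation (x ^ 3) := by
      apply A.valuation.map_add_lt
      · rw [map_mul, map_pow, map_pow]
        calc A.valuation α * A.valuation x ^ 2 ≤ A.valuation x ^ 2 :=
              mul_le_of_le_one_left' hvα
          _ < A.valuation x ^ 3 := pow_lt_pow_right₀ hvx (by norm_num)
      · rw [map_mul, map_pow]
        calc A.valuation β * A.valuation x ≤ A.valuation x := mul_le_of_le_one_left' hvβ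
          _ = A.valuation x ^ 1 := (pow_one _).symm
          _ < A.valuation x ^ 3 := pow_lt_pow_right₀ hvx (by norm_num)
    rw [A.valuation.map_add_eq_of_lt_left h1, map_pow]
  have hY0 : Y ≠ 0 := by
    rintro rfl
    rw [map_zero, zero_pow (by norm_num)] at hY2
    exact pow_ne_zero 3 hvx0 hY2.symm
  have hvY0 : A.valuation Y ≠ 0 := (A.valuation.ne_zero_iff).mpr hY0
  have ht2 : A.valuation (x / Y) ^ 2 * A.valuation x = 1 := by
    rw [map_div₀, div_pow, hY2, div_mul_eq_mul_div, ← pow_succ, div_self (pow_ne_zero 3 hvx0)]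
  refine ⟨hY0, ?_, div_ne_zero hx0 hY0, ?_⟩
  · by_contra h
    have h' : 1 ≤ A.valuation (x / Y) ^ 2 := one_le_pow_of_one_le' (not_lt.mp h) 2
    have : 1 < A.valuation (x / Y) ^ 2 * A.valuation x :=
      lt_of_lt_of_le hvx (le_mul_of_one_le_left' h')
    rw [ht2] at this
    exact lt_irrefl _ this
  · rw [map_div₀, map_div₀, map_one, div_pow, ← hY2, pow_succ (A.valuation Y) 2, ← div_div,
      div_self (pow_ne_zero 2 hvY0)]

theorem key {α β x1 Y1 x2 Y2 ℓ : K} (hα : α ∈ A) (hβ : β ∈ A) (hx1 : x1 ∉ A) (hx2 : x2 ∉ A)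
    (C1 : Y1 ^ 2 = x1 ^ 3 + α * x1 ^ 2 + β * x1) (C2 : Y2 ^ 2 = x2 ^ 3 + α * x2 ^ 2 + β * x2)
    (hℓ : (x1 ≠ x2 ∧ ℓ = (Y1 - Y2) / (x1 - x2)) ∨
      (x1 = x2 ∧ Y1 = Y2 ∧ (2 : K) ≠ 0 ∧ ℓ = (3 * x1 ^ 2 + 2 * α * x1 + β) / (2 * Y1)))
    (C3 : (ℓ * ((ℓ ^ 2 - α - x1 - x2) - x1) + Y1) ^ 2 = (ℓ ^ 2 - α - x1 - x2) ^ 3
      + α * (ℓ ^ 2 - α - x1 - x2) ^ 2 + β * (ℓ ^ 2 - α - x1 - x2))
    {r : A.ValueGroup} (h1 : A.valuation (x1 / Y1) ≤ r) (h2 : A.valuation (x2 / Y2) ≤ r)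
    (hr : r < 1) :
    (ℓ ^ 2 - α - x1 - x2) ∉ A ∧
      A.valuation ((ℓ ^ 2 - α - x1 - x2) / (-(ℓ * ((ℓ ^ 2 - α - x1 - x2) - x1) + Y1))
        - x1 / Y1 - x2 / Y2) ≤ r ^ 3 := by
  have hvα : A.valuation α ≤ 1 := (A.valuation_le_one_iff α).mpr hα
  have hvβ : A.valuation β ≤ 1 := (A.valuation_le_one_iff β).mpr hβ
  have hr1 : r ≤ 1 := hr.le
  obtain ⟨hY1, ht1, -, hw1⟩ := val_chart A hα hβ hx1 C1
  obtain ⟨hY2, ht2, -, hw2⟩ := val_chart A hα hβ hx2 C2
  set t1 := x1 / Y1 with ht1def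
  set t2 := x2 / Y2 with ht2def
  set w1 := 1 / Y1 with hw1def
  set w2 := 1 / Y2 with hw2def
  have hw1r : A.valuation w1 ≤ r ^ 3 := by rw [hw1]; exact pow_le_pow_left' h1 3
  have hw2r : A.valuation w2 ≤ r ^ 3 := by rw [hw2]; exact pow_le_pow_left' h2 3
  have hr3 : r ^ 3 ≤ r ^ 2 := by
    calc r ^ 3 = r ^ 2 * r := pow_succ r 2
      _ ≤ r ^ 2 * 1 := mul_le_mul' le_rfl hr1
      _ = r ^ 2 := mul_one _
  have hr2 : r ^ 2 < 1 := by
    calc r ^ 2 = r * r := sq r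
      _ ≤ r * 1 := mul_le_mul' le_rfl hr1
      _ = r := mul_one _
      _ < 1 := hr
  have hr31 : r ^ 3 < 1 := lt_of_le_of_lt hr3 hr2
  -- the slope in the chart
  have hDv : A.valuation (α * t2 ^ 2 + β * t2 * (w1 + w2)) < 1 := by
    apply A.valuation.map_add_lt
    · rw [map_mul, map_pow]
      calc A.valuation α * A.valuation t2 ^ 2 ≤ A.valuation t2 ^ 2 := mul_le_of_le_one_left' hvα
        _ ≤ r ^ 2 := pow_le_pow_left' h2 2
        _ < 1 := hr2
    · rw [map_mul, map_mul]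
      calc A.valuation β * A.valuation t2 * A.valuation (w1 + w2)
          ≤ 1 * 1 * r ^ 3 := mul_le_mul' (mul_le_mul' hvβ ht2.le)
            (A.valuation.map_add_le hw1r hw2r)
        _ = r ^ 3 := by rw [one_mul, one_mul]
        _ < 1 := hr31
  have hD1 : A.valuation (muD α β t2 w1 w2) = 1 := by
    have : muD α β t2 w1 w2 = 1 - (α * t2 ^ 2 + β * t2 * (w1 + w2)) := by unfold muD; ring
    rw [this]
    exact A.valuation.map_one_sub_of_lt hDv
  have hD : muD α β t2 w1 w2 ≠ 0 := by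
    intro h; rw [h, map_zero] at hD1; exact zero_ne_one hD1
  have hN : A.valuation (muN α β t1 t2 w1) ≤ r ^ 2 := by
    unfold muN
    refine A.valuation.map_add_le (A.valuation.map_add_le (A.valuation.map_add_le
      (A.valuation.map_add_le ?_ ?_) ?_) ?_) ?_
    · rw [map_pow]; exact pow_le_pow_left' h1 2
    · rw [map_mul, sq]; exact mul_le_mul' h1 h2
    · rw [map_pow]; exact pow_le_pow_left' h2 2
    · rw [map_mul, map_mul]
      calc A.valuation α * A.valuation (t1 + t2) * A.valuation w1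
          ≤ 1 * 1 * r ^ 3 := mul_le_mul' (mul_le_mul' hvα
            (A.valuation.map_add_le ht1.le ht2.le)) hw1r
        _ = r ^ 3 := by rw [one_mul, one_mul]
        _ ≤ r ^ 2 := hr3
    · rw [map_mul, map_pow]
      calc A.valuation β * A.valuation w1 ^ 2 ≤ 1 * (1 * r ^ 3) := by
            rw [sq]
            exact mul_le_mul' hvβ (mul_le_mul' (le_trans hw1r hr31.le) hw1r)
        _ = r ^ 3 := by rw [one_mul, one_mul]
        _ ≤ r ^ 2 := hr3
  obtain ⟨μ, hμ⟩ : ∃ μ, μ = muN α β t1 t2 w1 / muD α β t2 w1 w2 := ⟨_, rfl⟩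
  obtain ⟨ν, hν⟩ : ∃ ν, ν = w1 - μ * t1 := ⟨_, rfl⟩
  have hμv : A.valuation μ ≤ r ^ 2 := by
    rw [hμ, map_div₀, hD1, div_one]; exact hN
  have hνv : A.valuation ν ≤ r ^ 3 := by
    rw [hν]
    refine A.valuation.map_sub_le hw1r ?_
    rw [map_mul, pow_succ]
    exact mul_le_mul' hμv h1
  obtain ⟨L1, L2⟩ := line_data hY1 hY2 C1 C2 hD hμ hν
  -- chord / tangent
  have hdata : ν ≠ 0 ∧ ℓ * ν = -μ ∧
      ν ^ 2 * (x1 ^ 2 + x1 * x2 + x2 ^ 2) + (α * ν ^ 2 - μ ^ 2) * (x1 + x2)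
        + (β * ν ^ 2 + 2 * μ) = 0 := by
    rcases hℓ with ⟨hx, rfl⟩ | ⟨rfl, rfl, h2', rfl⟩
    · exact chord_data hx C1 C2 L1 L2
    · exact tangent_data h2' hY1 C1 hD hμ L1
  obtain ⟨hν0, hℓν, G12⟩ := hdata
  have hav : A.valuation (α * μ + β * μ ^ 2) < 1 := by
    apply A.valuation.map_add_lt
    · rw [map_mul]
      calc A.valuation α * A.valuation μ ≤ 1 * r ^ 2 := mul_le_mul' hvα hμv
        _ = r ^ 2 := one_mul _
        _ < 1 := hr2
    · rw [map_mul, map_pow]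
      calc A.valuation β * A.valuation μ ^ 2 ≤ 1 * (1 * r ^ 2) := by
            rw [sq]
            exact mul_le_mul' hvβ (mul_le_mul' (le_trans hμv hr2.le) hμv)
        _ = r ^ 2 := by rw [one_mul, one_mul]
        _ < 1 := hr2
  have ha1 : A.valuation (1 + α * μ + β * μ ^ 2) = 1 := by
    rw [add_assoc]; exact A.valuation.map_one_add_of_lt hav
  have ha : 1 + α * μ + β * μ ^ 2 ≠ 0 := by
    intro h; rw [h, map_zero] at ha1; exact zero_ne_one ha1
  obtain ⟨L3, hsum⟩ := third_point C1 L1 L2 hν0 hℓν G12 ha hY1 hY2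
  set x3 := ℓ ^ 2 - α - x1 - x2 with hx3
  set Y3 := ℓ * (x3 - x1) + Y1 with hY3
  have hx3A : x3 ∉ A := by
    intro hmem
    have hvx3 : A.valuation x3 ≤ 1 := (A.valuation_le_one_iff x3).mpr hmem
    have hvY3 : A.valuation Y3 ≤ 1 := by
      by_contra hlt
      have h1' : 1 < A.valuation Y3 ^ 2 := one_lt_pow' (not_le.mp hlt) (by norm_num)
      have h2' : A.valuation (Y3 ^ 2) ≤ 1 := by
        rw [C3]
        refine A.valuation.map_add_le (A.valuation.map_add_le ?_ ?_) ?_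
        · rw [map_pow]; exact pow_le_one' hvx3 3
        · rw [map_mul, map_pow]; exact mul_le_one' hvα (pow_le_one' hvx3 2)
        · rw [map_mul]; exact mul_le_one' hvβ hvx3
      rw [map_pow] at h2'
      exact lt_irrefl _ (lt_of_lt_of_le h1' h2')
    have h1' : (1 : K) = μ * x3 + ν * Y3 := by linear_combination -L3
    have : A.valuation (1 : K) < 1 := by
      rw [h1']
      apply A.valuation.map_add_lt
      · rw [map_mul]
        calc A.valuation μ * A.valuation x3 ≤ r ^ 2 * 1 := mul_le_mul' hμv hvx3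
          _ = r ^ 2 := mul_one _
          _ < 1 := hr2
      · rw [map_mul]
        calc A.valuation ν * A.valuation Y3 ≤ r ^ 3 * 1 := mul_le_mul' hνv hvY3
          _ = r ^ 3 := mul_one _
          _ < 1 := hr31
    rw [map_one] at this
    exact lt_irrefl _ this
  refine ⟨hx3A, ?_⟩
  obtain ⟨hY3ne, -, -, -⟩ := val_chart A hα hβ hx3A C3
  rw [hsum hY3ne, map_div₀, ha1, div_one, map_mul]
  calc A.valuation ν * A.valuation (α + 2 * β * μ) ≤ r ^ 3 * 1 := by
        refine mul_le_mul' hνv (A.valuation.map_add_le hvα ?_)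
        rw [map_mul, map_mul]
        have h2v : A.valuation (2 : K) ≤ 1 := by
          have : (2 : K) ∈ A := by
            have h := A.add_mem _ _ A.one_mem A.one_mem
            rwa [one_add_one_eq_two] at h
          exact (A.valuation_le_one_iff 2).mpr this
        exact mul_le_one' (mul_le_one' h2v hvβ) (le_trans hμv hr2.le)
    _ = r ^ 3 := mul_one _

end Val

section Points

variable {K : Type*} [Field K] (A : ValuationSubring K) (W : WeierstrassCurve K)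

/-- The parameter `t = x / Y` of a point (`0` at the origin). -/
def tCoord : W.toAffine.Point → K
  | .zero => 0
  | .some x y _ => x / y

/-- The kernel of reduction: the origin, and the affine points with `x ∉ A`. -/
def InE1 : W.toAffine.Point → Prop
  | .zero => True
  | .some x _ _ => x ∉ A

@[simp] theorem tCoord_zero : tCoord W (0 : W.toAffine.Point) = 0 := rfl

@[simp] theorem tCoord_some {x y : K} (h : W.toAffine.Nonsingular x y) :
    tCoord W (Point.some x y h) = x / y := rfl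

@[simp] theorem inE1_zero : InE1 A W (0 : W.toAffine.Point) := trivial

@[simp] theorem inE1_some {x y : K} (h : W.toAffine.Nonsingular x y) :
    InE1 A W (Point.some x y h) ↔ x ∉ A := Iff.rfl

theorem inE1_neg {P : W.toAffine.Point} (hP : InE1 A W P) : InE1 A W (-P) := by
  cases P with
  | zero => exact trivial
  | some x y h => exact hP

theorem eqn_of_nonsingular (h1 : W.a₁ = 0) (h3 : W.a₃ = 0) (h6 : W.a₆ = 0) {x y : K}
    (h : W.toAffine.Nonsingular x y) : y ^ 2 = x ^ 3 + W.a₂ * x ^ 2 + W.a₄ * x := by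
  have := (W.toAffine.equation_iff x y).mp h.1
  rw [h1, h3, h6] at this
  linear_combination this

variable [DecidableEq K]

/-- The basic estimate: `E₁` is closed under addition, and `t` is additive modulo cubes. -/
theorem add_estimate (h1 : W.a₁ = 0) (h3 : W.a₃ = 0) (h6 : W.a₆ = 0) (h2 : W.a₂ ∈ A)
    (h4 : W.a₄ ∈ A) {P Q : W.toAffine.Point} (hP : InE1 A W P) (hQ : InE1 A W Q)
    {r : A.ValueGroup} (hr : r < 1) (hPr : A.valuation (tCoord W P) ≤ r)
    (hQr : A.valuation (tCoord W Q) ≤ r) :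
    InE1 A W (P + Q) ∧ A.valuation (tCoord W (P + Q) - tCoord W P - tCoord W Q) ≤ r ^ 3 := by
  cases P with
  | zero =>
    have e : (Point.zero : W.toAffine.Point) + Q = Q := zero_add Q
    rw [e]
    refine ⟨hQ, ?_⟩
    have : tCoord W Q - tCoord W (Point.zero : W.toAffine.Point) - tCoord W Q = 0 := by
      show tCoord W Q - 0 - tCoord W Q = 0
      ring
    rw [this, map_zero]
    exact zero_le
  | some x1 y1 hn1 =>
    cases Q with
    | zero =>
      have e : Point.some x1 y1 hn1 + (Point.zero : W.toAffine.Point) = Point.some x1 y1 hn1 :=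
        add_zero _
      rw [e]
      refine ⟨hP, ?_⟩
      have : tCoord W (Point.some x1 y1 hn1) - tCoord W (Point.some x1 y1 hn1)
          - tCoord W (Point.zero : W.toAffine.Point) = 0 := by
        show x1 / y1 - x1 / y1 - 0 = 0
        ring
      rw [this, map_zero]
      exact zero_le
    | some x2 y2 hn2 =>
      have C1 := eqn_of_nonsingular W h1 h3 h6 hn1
      have C2 := eqn_of_nonsingular W h1 h3 h6 hn2
      have hneg : ∀ x y : K, W.toAffine.negY x y = -y := by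
        intro x y; simp [Affine.negY, h1, h3]
      by_cases hxy : x1 = x2 ∧ y1 = W.toAffine.negY x2 y2
      · obtain ⟨rfl, hy⟩ := hxy
        rw [Point.add_of_Y_eq rfl hy]
        refine ⟨trivial, ?_⟩
        rw [hneg] at hy
        simp only [tCoord_zero, tCoord_some, hy]
        have : (0 : K) - x1 / -y2 - x1 / y2 = 0 := by
          rw [div_neg]; ring
        rw [this, map_zero]
        exact zero_le
      · rw [Point.add_some hxy]
        have hℓ : (x1 ≠ x2 ∧ W.toAffine.slope x1 x2 y1 y2 = (y1 - y2) / (x1 - x2)) ∨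
            (x1 = x2 ∧ y1 = y2 ∧ (2 : K) ≠ 0 ∧ W.toAffine.slope x1 x2 y1 y2
              = (3 * x1 ^ 2 + 2 * W.a₂ * x1 + W.a₄) / (2 * y1)) := by
          by_cases hx : x1 = x2
          · right
            have hy : y1 ≠ W.toAffine.negY x2 y2 := fun h => hxy ⟨hx, h⟩
            have hyy : y1 = y2 := Affine.Y_eq_of_Y_ne hn1.1 hn2.1 hx hy
            have h2y : y1 ≠ -y1 := by
              rw [hneg, ← hyy] at hy; exact hy
            have h20 : (2 : K) ≠ 0 := by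
              intro h
              apply h2y
              have : y1 + y1 = 0 := by rw [← two_mul, h, zero_mul]
              exact eq_neg_of_add_eq_zero_left this
            refine ⟨hx, hyy, h20, ?_⟩
            rw [Affine.slope_of_Y_ne hx hy, hneg, h1]
            congr 1
            · ring
            · ring
          · left
            exact ⟨hx, Affine.slope_of_X_ne hx⟩
        have C3' := (Affine.nonsingular_negAdd hn1 hn2 hxy).1
        have C3 := (W.toAffine.equation_iff _ _).mp C3'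
        simp only [Affine.negAddY, Affine.addX, h1, h3, h6, zero_mul, add_zero] at C3
        have hk := key A h2 h4 hP hQ C1 C2 hℓ (by linear_combination C3) hPr hQr hr
        refine ⟨?_, ?_⟩
        · simp only [inE1_some, Affine.addX, h1, zero_mul, add_zero]
          exact hk.1
        · simp only [tCoord_some, Affine.addY, Affine.negAddY, Affine.addX, hneg, h1, zero_mul,
            add_zero]
          exact hk.2

/-- `t (n P) ≡ n t(P)` modulo `t(P)³`, for `P` in the kernel of reduction. -/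
theorem nsmul_estimate (h1 : W.a₁ = 0) (h3 : W.a₃ = 0) (h6 : W.a₆ = 0) (h2 : W.a₂ ∈ A)
    (h4 : W.a₄ ∈ A) {P : W.toAffine.Point} (hP : InE1 A W P)
    (hr : A.valuation (tCoord W P) < 1) (n : ℕ) :
    InE1 A W (n • P) ∧
      A.valuation (tCoord W (n • P) - n * tCoord W P) ≤ A.valuation (tCoord W P) ^ 3 := by
  set r := A.valuation (tCoord W P) with hrdef
  have hr1 : r ≤ 1 := hr.le
  have hr3 : r ^ 3 ≤ r := by
    calc r ^ 3 = r * r ^ 2 := pow_succ' r 2
      _ ≤ r * 1 := mul_le_mul' le_rfl (pow_le_one' hr1 2)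
      _ = r := mul_one _
  induction n with
  | zero =>
    refine ⟨by simp, ?_⟩
    simp
  | succ n ih =>
    obtain ⟨ihE, ihv⟩ := ih
    have hnv : A.valuation ((n : K) * tCoord W P) ≤ r := by
      rw [map_mul]
      have : A.valuation (n : K) ≤ 1 := (A.valuation_le_one_iff _).mpr (natCast_mem A n)
      exact mul_le_of_le_one_left' this
    have hnP : A.valuation (tCoord W (n • P)) ≤ r := by
      have : tCoord W (n • P) = (tCoord W (n • P) - n * tCoord W P) + n * tCoord W P := by ring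
      rw [this]
      exact A.valuation.map_add_le (le_trans ihv hr3) hnv
    obtain ⟨hE, hv⟩ := add_estimate A W h1 h3 h6 h2 h4 ihE hP hr hnP le_rfl
    rw [succ_nsmul]
    refine ⟨hE, ?_⟩
    have : tCoord W (n • P + P) - ((n + 1 : ℕ) : K) * tCoord W P
        = (tCoord W (n • P + P) - tCoord W (n • P) - tCoord W P)
          + (tCoord W (n • P) - n * tCoord W P) := by
      push_cast; ring
    rw [this]
    exact A.valuation.map_add_le hv ihv

/-- Points of the kernel of reduction have `t`-parameter in the maximal ideal. -/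
theorem val_tCoord_lt_one (h1 : W.a₁ = 0) (h3 : W.a₃ = 0) (h6 : W.a₆ = 0) (h2 : W.a₂ ∈ A)
    (h4 : W.a₄ ∈ A) {P : W.toAffine.Point} (hP : InE1 A W P) :
    A.valuation (tCoord W P) < 1 := by
  cases P with
  | zero =>
    show A.valuation (0 : K) < 1
    rw [map_zero]
    exact zero_lt_one
  | some x y h =>
    exact (val_chart A h2 h4 hP (eqn_of_nonsingular W h1 h3 h6 h)).2.1

/-- The kernel of reduction is closed under addition. -/
theorem inE1_add (h1 : W.a₁ = 0) (h3 : W.a₃ = 0) (h6 : W.a₆ = 0) (h2 : W.a₂ ∈ A)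
    (h4 : W.a₄ ∈ A) {P Q : W.toAffine.Point} (hP : InE1 A W P) (hQ : InE1 A W Q) :
    InE1 A W (P + Q) :=
  (add_estimate A W h1 h3 h6 h2 h4 hP hQ
    (max_lt (val_tCoord_lt_one A W h1 h3 h6 h2 h4 hP) (val_tCoord_lt_one A W h1 h3 h6 h2 h4 hQ))
    (le_max_left _ _) (le_max_right _ _)).1

/-- The kernel of reduction is closed under multiplication by integers. -/
theorem inE1_nsmul (h1 : W.a₁ = 0) (h3 : W.a₃ = 0) (h6 : W.a₆ = 0) (h2 : W.a₂ ∈ A)
    (h4 : W.a₄ ∈ A) {P : W.toAffine.Point} (hP : InE1 A W P) (n : ℕ) : InE1 A W (n • P) :=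
  (nsmul_estimate A W h1 h3 h6 h2 h4 hP (val_tCoord_lt_one A W h1 h3 h6 h2 h4 hP) n).1

/-- **Claim (A)**: a point killed by an integer which is a unit of `A` has integral
`x`-coordinate. -/
theorem x_mem_of_nsmul_eq_zero (h1 : W.a₁ = 0) (h3 : W.a₃ = 0) (h6 : W.a₆ = 0) (h2 : W.a₂ ∈ A)
    (h4 : W.a₄ ∈ A) (n : ℕ) (hn0 : (n : K) ≠ 0) (hn : (n : K)⁻¹ ∈ A) {x y : K}
    (h : W.toAffine.Nonsingular x y) (hP : n • (Point.some x y h : W.toAffine.Point) = 0) :
    x ∈ A := by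
  by_contra hx
  have C := eqn_of_nonsingular W h1 h3 h6 h
  obtain ⟨hY, ht, ht0, -⟩ := val_chart A h2 h4 hx C
  have hE : InE1 A W (Point.some x y h) := hx
  obtain ⟨-, hv⟩ := nsmul_estimate A W h1 h3 h6 h2 h4 hE (by simpa using ht) n
  rw [hP] at hv
  simp only [tCoord_zero, tCoord_some, zero_sub, Valuation.map_neg, map_mul] at hv
  have hnv : A.valuation (n : K) = 1 := by
    have h1' : A.valuation (n : K) ≤ 1 := (A.valuation_le_one_iff _).mpr (natCast_mem A n)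
    have h2' : A.valuation ((n : K)⁻¹) ≤ 1 := (A.valuation_le_one_iff _).mpr hn
    rw [map_inv₀] at h2'
    have hne : A.valuation (n : K) ≠ 0 := (A.valuation.ne_zero_iff).mpr hn0
    have h3' : 1 ≤ A.valuation (n : K) := by
      by_contra hlt
      have : 1 < (A.valuation (n : K))⁻¹ := (one_lt_inv₀ (zero_lt_iff.mpr hne)).mpr (not_le.mp hlt)
      exact lt_irrefl _ (lt_of_lt_of_le this h2')
    exact le_antisymm h1' h3'
  rw [hnv, one_mul] at hv
  -- `r ≤ r ^ 3` with `0 < r < 1` is absurd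
  set r := A.valuation (x / y) with hrdef
  have hr0 : r ≠ 0 := (A.valuation.ne_zero_iff).mpr ht0
  have hr2 : r ^ 2 < 1 := by
    calc r ^ 2 = r * r := sq r
      _ ≤ r * 1 := mul_le_mul' le_rfl ht.le
      _ = r := mul_one _
      _ < 1 := ht
  have : r ^ 3 < r := by
    calc r ^ 3 = r * r ^ 2 := pow_succ' r 2
      _ < r * 1 := mul_lt_mul_of_pos_left hr2 (zero_lt_iff.mpr hr0)
      _ = r := mul_one _
  exact lt_irrefl _ (lt_of_le_of_lt hv this)

end Points

end Fermat.Agent.S05.ClaimA
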