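import Mathlib
import Fermat.Agent.S05.Defs

/-!
# S05, piece XFORM: `x`-coordinate formulas on curves `Y² = x³ + a₂ x² + a₄ x`

`W` is a Weierstrass curve over a field `K` with `a₁ = a₃ = a₆ = 0` (`IsLeg W`); points are
Mathlib's affine points `W.toAffine.Point`.

* `equation_iff` : the equation `y² = x³ + a₂ x² + a₄ x`;
* `add_some_line`, `add_some_eq_zero` : the sum of two affine points via the chord/tangent line;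
* `two_nsmul_some` : `x(2P) · 4 y² = (x² - a₄)²` for `y ≠ 0`; `two_nsmul_some_eq_zero`;
* `add_sub_some` : for `x₁ ≠ x₂`, `P + Q` and `P - Q` are affine, with the chord formulas for
  their `x`-coordinates and the product formula `x(P+Q) x(P-Q) (x₁-x₂)² = (x₁x₂ - a₄)²`;
* `add_sub_some_sum` : the companion sum formula.
-/

set_option autoImplicit false

namespace Fermat.Agent.S05

open WeierstrassCurve WeierstrassCurve.Affine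

section XForm

variable {K : Type*} [Field K] [DecidableEq K] [CharZero K] {W : WeierstrassCurve K}

omit [DecidableEq K] [CharZero K] in
theorem negY_eq_neg (hW : IsLeg W) (x y : K) : W.toAffine.negY x y = -y := by
  rw [negY, hW.a₁, hW.a₃]; ring

omit [DecidableEq K] [CharZero K] in
theorem equation_iff (hW : IsLeg W) (x y : K) :
    W.toAffine.Equation x y ↔ y ^ 2 = x ^ 3 + W.a₂ * x ^ 2 + W.a₄ * x := by
  rw [Affine.equation_iff, hW.a₁, hW.a₃, hW.a₆]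
  constructor
  · intro h; linear_combination h
  · intro h; linear_combination h

omit [DecidableEq K] [CharZero K] in
theorem eq_of_nonsingular (hW : IsLeg W) {x y : K} (h : W.toAffine.Nonsingular x y) :
    y ^ 2 = x ^ 3 + W.a₂ * x ^ 2 + W.a₄ * x :=
  (equation_iff hW x y).mp h.1

omit [DecidableEq K] [CharZero K] in
theorem neg_some (hW : IsLeg W) {x y : K} (h : W.toAffine.Nonsingular x y) :
    ∃ h' : W.toAffine.Nonsingular x (-y), -(Point.some x y h) = Point.some x (-y) h' := by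
  have e : W.toAffine.negY x y = -y := negY_eq_neg hW x y
  have h' : W.toAffine.Nonsingular x (-y) := by
    rw [← e]; exact (nonsingular_neg ..).mpr h
  refine ⟨h', ?_⟩
  rw [Point.neg_some]
  congr 1

omit [DecidableEq K] in
/-- two points with the same `x` are equal or opposite -/
theorem eq_or_eq_neg_of_x_eq (hW : IsLeg W) {x y₁ y₂ : K} (h₁ : W.toAffine.Nonsingular x y₁)
    (h₂ : W.toAffine.Nonsingular x y₂) : y₁ = y₂ ∨ y₁ = -y₂ := by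
  have e₁ := eq_of_nonsingular hW h₁
  have e₂ := eq_of_nonsingular hW h₂
  have : (y₁ - y₂) * (y₁ + y₂) = 0 := by linear_combination e₁ - e₂
  rcases mul_eq_zero.mp this with h | h
  · left; exact sub_eq_zero.mp h
  · right; exact eq_neg_of_add_eq_zero_left h

theorem add_some_eq_zero (hW : IsLeg W) {x₁ y₁ x₂ y₂ : K} (h₁ : W.toAffine.Nonsingular x₁ y₁)
    (h₂ : W.toAffine.Nonsingular x₂ y₂) (he : x₁ = x₂ ∧ y₁ = -y₂) :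
    Point.some x₁ y₁ h₁ + Point.some x₂ y₂ h₂ = 0 := by
  apply Point.add_of_Y_eq he.1
  rw [negY_eq_neg hW]
  exact he.2

/-- description of the sum by the chord / tangent line -/
theorem add_some_line (hW : IsLeg W) {x₁ y₁ x₂ y₂ : K} (h₁ : W.toAffine.Nonsingular x₁ y₁)
    (h₂ : W.toAffine.Nonsingular x₂ y₂) (hne : ¬(x₁ = x₂ ∧ y₁ = -y₂)) :
    ∃ (ℓ x₃ y₃ : K) (h₃ : W.toAffine.Nonsingular x₃ y₃),
      Point.some x₁ y₁ h₁ + Point.some x₂ y₂ h₂ = Point.some x₃ y₃ h₃ ∧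
      x₃ = ℓ ^ 2 - W.a₂ - x₁ - x₂ ∧ y₃ = -(ℓ * (x₃ - x₁) + y₁) ∧
      ℓ * (x₁ - x₂) = y₁ - y₂ ∧
      (x₁ = x₂ → ℓ * (2 * y₁) = 3 * x₁ ^ 2 + 2 * W.a₂ * x₁ + W.a₄) := by
  have hXY : ¬(x₁ = x₂ ∧ y₁ = W.toAffine.negY x₂ y₂) := by
    rw [negY_eq_neg hW]; exact hne
  have hadd := Point.add_some (h₁ := h₁) (h₂ := h₂) hXY
  refine ⟨W.toAffine.slope x₁ x₂ y₁ y₂, _, _, _, hadd, ?_, ?_, ?_, ?_⟩
  · rw [addX, hW.a₁]; ring
  · rw [addY, negAddY, negY_eq_neg hW]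
  · by_cases hx : x₁ = x₂
    · subst hx
      rcases eq_or_eq_neg_of_x_eq hW h₁ h₂ with hy | hy
      · rw [hy]; ring
      · exact absurd ⟨rfl, hy⟩ hne
    · rw [slope_of_X_ne hx]
      exact div_mul_cancel₀ _ (sub_ne_zero.mpr hx)
  · intro hx
    subst hx
    have hy : y₁ = y₂ := by
      rcases eq_or_eq_neg_of_x_eq hW h₁ h₂ with hy | hy
      · exact hy
      · exact absurd ⟨rfl, hy⟩ hne
    subst hy
    have hyne : y₁ ≠ W.toAffine.negY x₁ y₁ := by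
      rw [negY_eq_neg hW]
      intro e
      exact hne ⟨rfl, e⟩
    have hd : y₁ - W.toAffine.negY x₁ y₁ ≠ 0 := sub_ne_zero.mpr hyne
    rw [slope_of_Y_ne rfl hyne]
    have e2 : y₁ - W.toAffine.negY x₁ y₁ = 2 * y₁ := by rw [negY_eq_neg hW]; ring
    rw [e2] at hd ⊢
    rw [div_mul_cancel₀ _ hd, hW.a₁]
    ring

theorem two_nsmul_some_eq_zero (hW : IsLeg W) {x y : K} (h : W.toAffine.Nonsingular x y)
    (hy : y = 0) : (2 : ℕ) • Point.some x y h = 0 := by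
  rw [two_nsmul]
  apply add_some_eq_zero hW h h
  exact ⟨rfl, by rw [hy, neg_zero]⟩

/-- duplication formula for the `x`-coordinate -/
theorem two_nsmul_some (hW : IsLeg W) {x y : K} (h : W.toAffine.Nonsingular x y) (hy : y ≠ 0) :
    ∃ (x' y' : K) (h' : W.toAffine.Nonsingular x' y'),
      (2 : ℕ) • Point.some x y h = Point.some x' y' h' ∧
        x' * (4 * y ^ 2) = (x ^ 2 - W.a₄) ^ 2 := by
  have hne : ¬(x = x ∧ y = -y) := by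
    rintro ⟨-, e⟩
    have : (2 : K) * y = 0 := by linear_combination e
    rcases mul_eq_zero.mp this with h' | h'
    · exact two_ne_zero h'
    · exact hy h'
  obtain ⟨ℓ, x₃, y₃, h₃, hadd, hx₃, -, -, hℓ⟩ := add_some_line hW h h hne
  refine ⟨x₃, y₃, h₃, by rw [two_nsmul, hadd], ?_⟩
  have hℓ' := hℓ rfl
  have heq := eq_of_nonsingular hW h
  rw [hx₃]
  have e : (ℓ ^ 2 - W.a₂ - x - x) * (4 * y ^ 2) =
      (ℓ * (2 * y)) ^ 2 - 4 * y ^ 2 * (W.a₂ + 2 * x) := by ring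
  rw [e, hℓ']
  linear_combination (-4 * W.a₂ - 8 * x) * heq

omit [CharZero K] in
/-- Auxiliary: chord formulas, product and sum formula for `P + Q`, `P - Q` when
`x(P) ≠ x(Q)`. -/
theorem add_sub_some_aux (hW : IsLeg W) {x₁ y₁ x₂ y₂ : K} (h₁ : W.toAffine.Nonsingular x₁ y₁)
    (h₂ : W.toAffine.Nonsingular x₂ y₂) (hx : x₁ ≠ x₂) :
    ∃ (x₃ y₃ : K) (h₃ : W.toAffine.Nonsingular x₃ y₃) (x₄ y₄ : K)
      (h₄ : W.toAffine.Nonsingular x₄ y₄),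
      Point.some x₁ y₁ h₁ + Point.some x₂ y₂ h₂ = Point.some x₃ y₃ h₃ ∧
      Point.some x₁ y₁ h₁ - Point.some x₂ y₂ h₂ = Point.some x₄ y₄ h₄ ∧
      x₃ * x₄ * (x₁ - x₂) ^ 2 = (x₁ * x₂ - W.a₄) ^ 2 ∧
      x₃ = ((y₁ - y₂) / (x₁ - x₂)) ^ 2 - W.a₂ - x₁ - x₂ ∧
      x₄ = ((y₁ + y₂) / (x₁ - x₂)) ^ 2 - W.a₂ - x₁ - x₂ ∧
      (x₃ + x₄) * (x₁ - x₂) ^ 2 =
        2 * ((x₁ + x₂) * (x₁ * x₂ + W.a₄) + 2 * W.a₂ * x₁ * x₂) := by
  obtain ⟨h₂', hneg⟩ := neg_some hW h₂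
  have hd : x₁ - x₂ ≠ 0 := sub_ne_zero.mpr hx
  have e₁ := eq_of_nonsingular hW h₁
  have e₂ := eq_of_nonsingular hW h₂
  have hadd := Point.add_of_X_ne (h₁ := h₁) (h₂ := h₂) hx
  have hsub := Point.add_of_X_ne (h₁ := h₁) (h₂ := h₂') hx
  rw [← hneg, ← sub_eq_add_neg] at hsub
  have hs₁ : W.toAffine.slope x₁ x₂ y₁ y₂ = (y₁ - y₂) / (x₁ - x₂) := slope_of_X_ne hx
  have hs₂ : W.toAffine.slope x₁ x₂ y₁ (-y₂) = (y₁ + y₂) / (x₁ - x₂) := by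
    rw [slope_of_X_ne hx, sub_neg_eq_add]
  have hx₃ : W.toAffine.addX x₁ x₂ (W.toAffine.slope x₁ x₂ y₁ y₂) =
      ((y₁ - y₂) / (x₁ - x₂)) ^ 2 - W.a₂ - x₁ - x₂ := by
    rw [hs₁, addX, hW.a₁]; ring
  have hx₄ : W.toAffine.addX x₁ x₂ (W.toAffine.slope x₁ x₂ y₁ (-y₂)) =
      ((y₁ + y₂) / (x₁ - x₂)) ^ 2 - W.a₂ - x₁ - x₂ := by
    rw [hs₂, addX, hW.a₁]; ring
  refine ⟨_, _, _, _, _, _, hadd, hsub, ?_, hx₃, hx₄, ?_⟩
  · rw [hx₃, hx₄]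
    have hℓ : (y₁ - y₂) / (x₁ - x₂) * (x₁ - x₂) = y₁ - y₂ := div_mul_cancel₀ _ hd
    have hm : (y₁ + y₂) / (x₁ - x₂) * (x₁ - x₂) = y₁ + y₂ := div_mul_cancel₀ _ hd
    generalize (y₁ - y₂) / (x₁ - x₂) = ℓ at hℓ
    generalize (y₁ + y₂) / (x₁ - x₂) = m at hm
    have eA : (ℓ ^ 2 - W.a₂ - x₁ - x₂) * (x₁ - x₂) ^ 2 =
        (y₁ - y₂) ^ 2 - (W.a₂ + x₁ + x₂) * (x₁ - x₂) ^ 2 := by
      rw [← hℓ]; ring
    have eB : (m ^ 2 - W.a₂ - x₁ - x₂) * (x₁ - x₂) ^ 2 =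
        (y₁ + y₂) ^ 2 - (W.a₂ + x₁ + x₂) * (x₁ - x₂) ^ 2 := by
      rw [← hm]; ring
    have hd2 : (x₁ - x₂) ^ 2 ≠ 0 := pow_ne_zero 2 hd
    apply mul_right_cancel₀ hd2
    have : (ℓ ^ 2 - W.a₂ - x₁ - x₂) * (m ^ 2 - W.a₂ - x₁ - x₂) * (x₁ - x₂) ^ 2 * (x₁ - x₂) ^ 2 =
        ((ℓ ^ 2 - W.a₂ - x₁ - x₂) * (x₁ - x₂) ^ 2) * ((m ^ 2 - W.a₂ - x₁ - x₂) * (x₁ - x₂) ^ 2) := by
      ring
    rw [this, eA, eB]
    linear_combination (y₁ ^ 2 + (x₁ ^ 3 + W.a₂ * x₁ ^ 2 + W.a₄ * x₁) - 2 * y₂ ^ 2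
        - 2 * (W.a₂ + x₁ + x₂) * (x₁ - x₂) ^ 2) * e₁
      + (y₂ ^ 2 + (x₂ ^ 3 + W.a₂ * x₂ ^ 2 + W.a₄ * x₂) - 2 * (x₁ ^ 3 + W.a₂ * x₁ ^ 2 + W.a₄ * x₁)
        - 2 * (W.a₂ + x₁ + x₂) * (x₁ - x₂) ^ 2) * e₂
  · rw [hx₃, hx₄]
    have hℓ : (y₁ - y₂) / (x₁ - x₂) * (x₁ - x₂) = y₁ - y₂ := div_mul_cancel₀ _ hd
    have hm : (y₁ + y₂) / (x₁ - x₂) * (x₁ - x₂) = y₁ + y₂ := div_mul_cancel₀ _ hd
    generalize (y₁ - y₂) / (x₁ - x₂) = ℓ at hℓ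
    generalize (y₁ + y₂) / (x₁ - x₂) = m at hm
    have e : (ℓ ^ 2 - W.a₂ - x₁ - x₂ + (m ^ 2 - W.a₂ - x₁ - x₂)) * (x₁ - x₂) ^ 2 =
        (ℓ * (x₁ - x₂)) ^ 2 + (m * (x₁ - x₂)) ^ 2 - 2 * (W.a₂ + x₁ + x₂) * (x₁ - x₂) ^ 2 := by
      ring
    rw [e, hℓ, hm]
    linear_combination 2 * e₁ + 2 * e₂

/-- `x(P+Q) x(P-Q) = (x_P x_Q - a₄)² / (x_P - x_Q)²` and the chord formula for `x(P-Q)` -/
theorem add_sub_some (hW : IsLeg W) {x₁ y₁ x₂ y₂ : K} (h₁ : W.toAffine.Nonsingular x₁ y₁)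
    (h₂ : W.toAffine.Nonsingular x₂ y₂) (hx : x₁ ≠ x₂) :
    ∃ (x₃ y₃ : K) (h₃ : W.toAffine.Nonsingular x₃ y₃) (x₄ y₄ : K)
      (h₄ : W.toAffine.Nonsingular x₄ y₄),
      Point.some x₁ y₁ h₁ + Point.some x₂ y₂ h₂ = Point.some x₃ y₃ h₃ ∧
      Point.some x₁ y₁ h₁ - Point.some x₂ y₂ h₂ = Point.some x₄ y₄ h₄ ∧
      x₃ * x₄ * (x₁ - x₂) ^ 2 = (x₁ * x₂ - W.a₄) ^ 2 ∧
      x₃ = ((y₁ - y₂) / (x₁ - x₂)) ^ 2 - W.a₂ - x₁ - x₂ ∧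
      x₄ = ((y₁ + y₂) / (x₁ - x₂)) ^ 2 - W.a₂ - x₁ - x₂ := by
  obtain ⟨x₃, y₃, h₃, x₄, y₄, h₄, ha, hs, hp, e₃, e₄, -⟩ := add_sub_some_aux hW h₁ h₂ hx
  exact ⟨x₃, y₃, h₃, x₄, y₄, h₄, ha, hs, hp, e₃, e₄⟩

end XForm

end Fermat.Agent.S05
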