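import Fermat.Agent.S05.Defs
import Fermat.Agent.S05.XForm

/-!
# S05, piece GM2: torsion points fixed by inertia

* `fixed_of_nonsingular_reduction` (G): a `p`-torsion point with nonsingular reduction is fixed
  by inertia.
* `fixed_of_ord_eq` (M2): a `p`-torsion point reducing to the node whose `x`-coordinate has the
  valuation of a `σ`-fixed element is fixed by inertia.
-/

set_option autoImplicit false

namespace Fermat.Agent.S05

open WeierstrassCurve WeierstrassCurve.Affine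

namespace Fixed

section Val

variable {K : Type*} [Field K] {A : ValuationSubring K} {ord : K → ℚ}

lemma ord_one (h : IsOrd A ord) : ord 1 = 0 := by
  have h1 := h.mul 1 1 one_ne_zero one_ne_zero
  rw [mul_one] at h1
  linarith

lemma ord_inv (h : IsOrd A ord) {x : K} (hx : x ≠ 0) : ord x⁻¹ = -ord x := by
  have h1 := h.mul x x⁻¹ hx (inv_ne_zero hx)
  rw [mul_inv_cancel₀ hx, ord_one h] at h1
  linarith

lemma val_le_iff (h : IsOrd A ord) {x y : K} (hx : x ≠ 0) (hy : y ≠ 0) :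
    A.valuation x ≤ A.valuation y ↔ ord y ≤ ord x := by
  have hvy : A.valuation y ≠ 0 := (Valuation.ne_zero_iff _).mpr hy
  have h1 : A.valuation x ≤ A.valuation y ↔ A.valuation (x * y⁻¹) ≤ 1 := by
    rw [map_mul, map_inv₀, ← div_eq_mul_inv, div_le_one₀ (zero_lt_iff.mpr hvy)]
  rw [h1, A.valuation_le_one_iff, h.mem_iff _ (mul_ne_zero hx (inv_ne_zero hy)),
    h.mul x y⁻¹ hx (inv_ne_zero hy), ord_inv h hy]
  constructor <;> intro h2 <;> linarith

lemma val_lt_iff (h : IsOrd A ord) {x y : K} (hx : x ≠ 0) (hy : y ≠ 0) :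
    A.valuation x < A.valuation y ↔ ord x > ord y := by
  rw [← not_le, val_le_iff h hy hx, not_le]

lemma val_eq_one (h : IsOrd A ord) {x : K} (hx : x ≠ 0) (h0 : ord x = 0) :
    A.valuation x = 1 := by
  apply le_antisymm
  · rw [← map_one A.valuation, val_le_iff h hx one_ne_zero, ord_one h, h0]
  · rw [← map_one A.valuation, val_le_iff h one_ne_zero hx, ord_one h, h0]

lemma val_lt_one (h : IsOrd A ord) {x : K} (hx : x ≠ 0) (h0 : 0 < ord x) :
    A.valuation x < 1 := by
  rw [← map_one A.valuation, val_lt_iff h hx one_ne_zero, ord_one h]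
  exact h0

lemma val_eq_of_ord_eq (h : IsOrd A ord) {x y : K} (hx : x ≠ 0) (hy : y ≠ 0)
    (he : ord x = ord y) : A.valuation x = A.valuation y :=
  le_antisymm ((val_le_iff h hx hy).mpr he.ge) ((val_le_iff h hy hx).mpr he.le)

lemma val_le_one_of_sq {x : K} (hx : A.valuation (x ^ 2) ≤ 1) : A.valuation x ≤ 1 := by
  rw [map_pow] at hx
  exact (pow_le_one_iff_of_nonneg zero_le two_ne_zero).mp hx

lemma val_lt_one_of_sq {x : K} (hx : A.valuation (x ^ 2) < 1) : A.valuation x < 1 := by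
  rw [map_pow] at hx
  exact (pow_lt_one_iff_of_nonneg zero_le two_ne_zero).mp hx

end Val

end Fixed

section GM2

variable {K : Type*} [Field K] [DecidableEq K] [CharZero K] {W : WeierstrassCurve K}

open Fixed

set_option linter.unusedVariables false in
/-- (G): a `p`-torsion point with nonsingular reduction is fixed by inertia. -/
theorem fixed_of_nonsingular_reduction (A : ValuationSubring K) (ord : K → ℚ) (hord : IsOrd A ord)
    (hW : IsLeg W) (ha₂ : W.a₂ ∈ A) (ha₄ : W.a₄ ∈ A) (h2 : ord (2 : K) = 0)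
    (σ : K →+* K) (hσ : IsInertial A σ) (Φ : W.toAffine.Point →+ W.toAffine.Point)
    (hΦ : IsPointAction W σ Φ) {p : ℕ} (hp : p.Prime) (hp2 : p ≠ 2) (hpord : ord (p : K) = 0)
    (hA : ∀ (x y : K) (h : W.toAffine.Nonsingular x y), p • Point.some x y h = 0 → x ∈ A)
    {x y : K} (h : W.toAffine.Nonsingular x y) (hP : p • Point.some x y h = 0)
    (hns : ¬(x ^ 3 + W.a₂ * x ^ 2 + W.a₄ * x ∈ A.nonunits ∧
      3 * x ^ 2 + 2 * W.a₂ * x + W.a₄ ∈ A.nonunits)) :
    Φ (Point.some x y h) = Point.some x y h := by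
  set v := A.valuation with hv
  have hv2 : v (2 : K) = 1 := val_eq_one hord two_ne_zero h2
  have hxA : x ∈ A := hA x y h hP
  have hvx : v x ≤ 1 := (A.valuation_le_one_iff x).mpr hxA
  have hva₂ : v W.a₂ ≤ 1 := (A.valuation_le_one_iff _).mpr ha₂
  have hva₄ : v W.a₄ ≤ 1 := (A.valuation_le_one_iff _).mpr ha₄
  have heq : y ^ 2 = x ^ 3 + W.a₂ * x ^ 2 + W.a₄ * x := (equation_iff hW x y).mp h.1
  have hfA : x ^ 3 + W.a₂ * x ^ 2 + W.a₄ * x ∈ A :=
    A.add_mem _ _ (A.add_mem _ _ (pow_mem hxA 3) (A.mul_mem _ _ ha₂ (pow_mem hxA 2)))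
      (A.mul_mem _ _ ha₄ hxA)
  have hvy : v y ≤ 1 := by
    apply val_le_one_of_sq
    rw [heq]
    exact (A.valuation_le_one_iff _).mpr hfA
  have hyA : y ∈ A := (A.valuation_le_one_iff y).mp hvy
  obtain ⟨h', hΦP⟩ := hΦ x y h
  rw [hΦP]
  -- it suffices to show that `y` is a non-unit leads to a contradiction
  have hcontra : v y < 1 → False := by
    intro hy1
    have hy0 : y ≠ 0 := by
      intro hy0
      have h2P := two_nsmul_some_eq_zero hW h hy0
      obtain ⟨k, hk⟩ := hp.odd_of_ne_two hp2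
      have h3 : p • Point.some x y h = Point.some x y h := by
        rw [hk, add_smul, mul_comm, mul_smul, h2P, smul_zero, zero_add, one_smul]
      rw [hP] at h3
      exact Point.some_ne_zero _ h3.symm
    obtain ⟨x', y', h'', h2P, hx'⟩ := two_nsmul_some hW h hy0
    have hx'A : x' ∈ A := by
      apply hA x' y' h''
      rw [← h2P, smul_comm, hP, smul_zero]
    have hvx' : v x' ≤ 1 := (A.valuation_le_one_iff x').mpr hx'A
    have hvy2 : v (y ^ 2) < 1 := by
      rw [map_pow]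
      exact pow_lt_one₀ zero_le hy1 two_ne_zero
    have h4 : v ((x ^ 2 - W.a₄) ^ 2) < 1 := by
      rw [← hx', map_mul, map_mul]
      have h41 : v (4 : K) ≤ 1 := by
        have : (4 : K) = ((4 : ℤ) : K) := by norm_num
        rw [this]
        exact (A.valuation_le_one_iff _).mpr (intCast_mem A 4)
      calc v x' * (v 4 * v (y ^ 2)) ≤ 1 * (1 * v (y ^ 2)) := by gcongr
        _ = v (y ^ 2) := by rw [one_mul, one_mul]
        _ < 1 := hvy2
    have hf : x ^ 3 + W.a₂ * x ^ 2 + W.a₄ * x ∈ A.nonunits := by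
      rw [A.mem_nonunits_iff, ← heq]
      exact hvy2
    have hf' : 3 * x ^ 2 + 2 * W.a₂ * x + W.a₄ ∈ A.nonunits := by
      rw [A.mem_nonunits_iff]
      apply val_lt_one_of_sq
      have hid : (3 * x ^ 2 + 2 * W.a₂ * x + W.a₄) ^ 2 =
          (x ^ 2 - W.a₄) ^ 2 + (8 * x + 4 * W.a₂) * (x ^ 3 + W.a₂ * x ^ 2 + W.a₄ * x) := by
        ring
      rw [hid]
      apply Valuation.map_add_lt _ h4
      rw [map_mul]
      have h5 : v (8 * x + 4 * W.a₂) ≤ 1 := by
        rw [A.valuation_le_one_iff]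
        have h8 : (8 : K) ∈ A := by
          have : (8 : K) = ((8 : ℤ) : K) := by norm_num
          rw [this]
          exact intCast_mem A 8
        have h44 : (4 : K) ∈ A := by
          have : (4 : K) = ((4 : ℤ) : K) := by norm_num
          rw [this]
          exact intCast_mem A 4
        exact A.add_mem _ _ (A.mul_mem _ _ h8 hxA) (A.mul_mem _ _ h44 ha₂)
      rw [← heq]
      calc v (8 * x + 4 * W.a₂) * v (y ^ 2) ≤ 1 * v (y ^ 2) := by gcongr
        _ = v (y ^ 2) := one_mul _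
        _ < 1 := hvy2
    exact hns ⟨hf, hf'⟩
  have hsub : v (σ y - y) < 1 := A.mem_nonunits_iff.mp (hσ.sub_mem y hyA)
  have h2y : v (2 * y) < 1 → v y < 1 := by
    intro h
    rwa [map_mul, hv2, one_mul] at h
  by_cases hσx : σ x = x
  · -- same `x`-coordinate
    have h'' : W.toAffine.Nonsingular x (σ y) := hσx ▸ h'
    rcases eq_or_eq_neg_of_x_eq hW h'' h with hy | hy
    · simp only [Point.some.injEq]
      exact ⟨hσx, hy⟩
    · exfalso
      apply hcontra
      apply h2y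
      have h6 : 2 * y = -(σ y - y) := by rw [hy]; ring
      rw [h6, Valuation.map_neg]
      exact hsub
  · exfalso
    apply hcontra
    obtain ⟨x₃, y₃, h₃, x₄, y₄, h₄, -, hsubP, -, -, hx₄⟩ := add_sub_some hW h' h hσx
    have hx₄A : x₄ ∈ A := by
      apply hA x₄ y₄ h₄
      rw [← hsubP, smul_sub, ← hΦP, ← map_nsmul, hP, map_zero, sub_zero]
    have hσxA : σ x ∈ A := hσ.mem x hxA
    have hℓ2 : ((σ y + y) / (σ x - x)) ^ 2 ∈ A := by
      have h7 : ((σ y + y) / (σ x - x)) ^ 2 = x₄ + W.a₂ + σ x + x := by rw [hx₄]; ring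
      rw [h7]
      exact A.add_mem _ _ (A.add_mem _ _ (A.add_mem _ _ hx₄A ha₂) hσxA) hxA
    have hℓ : v ((σ y + y) / (σ x - x)) ≤ 1 :=
      val_le_one_of_sq ((A.valuation_le_one_iff _).mpr hℓ2)
    have hsubx : v (σ x - x) < 1 := A.mem_nonunits_iff.mp (hσ.sub_mem x hxA)
    have hne : σ x - x ≠ 0 := sub_ne_zero.mpr hσx
    have h8 : v (σ y + y) < 1 := by
      have h9 : σ y + y = (σ y + y) / (σ x - x) * (σ x - x) := by
        field_simp
      rw [h9, map_mul]
      calc v ((σ y + y) / (σ x - x)) * v (σ x - x) ≤ 1 * v (σ x - x) := by gcongr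
        _ = v (σ x - x) := one_mul _
        _ < 1 := hsubx
    apply h2y
    have h10 : 2 * y = (σ y + y) - (σ y - y) := by ring
    rw [h10]
    exact Valuation.map_sub_lt _ h8 hsub

set_option linter.unusedVariables false in
/-- (M2): a `p`-torsion point reducing to the node whose `x` has the valuation of a
`σ`-fixed element is fixed by inertia. -/
theorem fixed_of_ord_eq (A : ValuationSubring K) (ord : K → ℚ) (hord : IsOrd A ord)
    (hW : IsLeg W) (ha₂0 : W.a₂ ≠ 0) (ha₂ : ord W.a₂ = 0) (ha₄0 : W.a₄ ≠ 0) (h2 : ord (2 : K) = 0)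
    (σ : K →+* K) (hσ : IsInertial A σ) (Φ : W.toAffine.Point →+ W.toAffine.Point)
    (hΦ : IsPointAction W σ Φ) {p : ℕ} (hp : p.Prime) (hp2 : p ≠ 2) (hpord : ord (p : K) = 0)
    (hA : ∀ (x y : K) (h : W.toAffine.Nonsingular x y), p • Point.some x y h = 0 → x ∈ A)
    {x y : K} (h : W.toAffine.Nonsingular x y) (hP : p • Point.some x y h = 0)
    (hx0 : x ≠ 0) (hpos : 0 < ord x) (hlt : ord x < ord W.a₄)
    {π : K} (hπ0 : π ≠ 0) (hσπ : σ π = π) (hxπ : ord x = ord π) :
    Φ (Point.some x y h) = Point.some x y h := by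
  set v := A.valuation with hv
  have hv2 : v (2 : K) = 1 := val_eq_one hord two_ne_zero h2
  have hva₂ : v W.a₂ = 1 := val_eq_one hord ha₂0 ha₂
  have hvxπ : v x = v π := val_eq_of_ord_eq hord hx0 hπ0 hxπ
  have hvx1 : v x < 1 := val_lt_one hord hx0 hpos
  have hvπ1 : v π < 1 := hvxπ ▸ hvx1
  have hvπ0 : v π ≠ 0 := (Valuation.ne_zero_iff _).mpr hπ0
  have hva₄ : v W.a₄ < v π := by
    rw [← hvxπ, val_lt_iff hord ha₄0 hx0]
    exact hlt
  have heq : y ^ 2 = x ^ 3 + W.a₂ * x ^ 2 + W.a₄ * x := (equation_iff hW x y).mp h.1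
  -- rescaled coordinates
  set ξ := x / π with hξ
  set η := y / π with hη
  have hxξ : x = π * ξ := by rw [hξ]; field_simp
  have hyη : y = π * η := by rw [hη]; field_simp
  have hvξ : v ξ = 1 := by
    rw [hξ, map_div₀, hvxπ, div_self hvπ0]
  have heq' : η ^ 2 = W.a₂ * ξ ^ 2 + (π * ξ ^ 3 + W.a₄ / π * ξ) := by
    rw [hη, hξ]
    field_simp
    rw [heq]
    ring
  have hsmall : v (π * ξ ^ 3 + W.a₄ / π * ξ) < 1 := by
    apply Valuation.map_add_lt
    · rw [map_mul, map_pow, hvξ, one_pow, mul_one]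
      exact hvπ1
    · rw [map_mul, map_div₀, hvξ, mul_one, div_lt_one₀ (zero_lt_iff.mpr hvπ0)]
      exact hva₄
  have hvη : v η = 1 := by
    have h1 : v (η ^ 2) = 1 := by
      rw [heq']
      have h2 : v (W.a₂ * ξ ^ 2) = 1 := by
        rw [map_mul, map_pow, hva₂, hvξ, one_pow, one_mul]
      rw [Valuation.map_add_eq_of_lt_left _ (by rw [h2]; exact hsmall), h2]
    rw [map_pow] at h1
    exact (pow_eq_one_iff_of_nonneg zero_le two_ne_zero).mp h1
  have hξA : ξ ∈ A := (A.valuation_le_one_iff ξ).mp hvξ.le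
  have hηA : η ∈ A := (A.valuation_le_one_iff η).mp hvη.le
  have hsubξ : v (σ ξ - ξ) < 1 := A.mem_nonunits_iff.mp (hσ.sub_mem ξ hξA)
  have hsubη : v (σ η - η) < 1 := A.mem_nonunits_iff.mp (hσ.sub_mem η hηA)
  have hσx : σ x = π * σ ξ := by rw [hxξ, map_mul, hσπ]
  have hσy : σ y = π * σ η := by rw [hyη, map_mul, hσπ]
  have hv2η : v (2 * η) = 1 := by rw [map_mul, hv2, hvη, one_mul]
  obtain ⟨h', hΦP⟩ := hΦ x y h
  rw [hΦP]
  by_cases hσxx : σ x = x
  · have h'' : W.toAffine.Nonsingular x (σ y) := hσxx ▸ h'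
    rcases eq_or_eq_neg_of_x_eq hW h'' h with hy | hy
    · simp only [Point.some.injEq]
      exact ⟨hσxx, hy⟩
    · exfalso
      have h3 : σ η = -η := by
        have h4 : π * σ η = π * (-η) := by rw [← hσy, hy, hyη]; ring
        exact mul_left_cancel₀ hπ0 h4
      have h5 : 2 * η = -(σ η - η) := by rw [h3]; ring
      rw [h5, Valuation.map_neg] at hv2η
      rw [hv2η] at hsubη
      exact lt_irrefl _ hsubη
  · exfalso
    obtain ⟨x₃, y₃, h₃, x₄, y₄, h₄, -, hsubP, -, -, hx₄⟩ := add_sub_some hW h' h hσxx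
    have hx₄A : x₄ ∈ A := by
      apply hA x₄ y₄ h₄
      rw [← hsubP, smul_sub, ← hΦP, ← map_nsmul, hP, map_zero, sub_zero]
    have hxA : x ∈ A := (A.valuation_le_one_iff x).mp hvx1.le
    have hσxA : σ x ∈ A := hσ.mem x hxA
    have hne : σ ξ - ξ ≠ 0 := by
      intro h0
      apply hσxx
      rw [hσx, sub_eq_zero.mp h0, ← hxξ]
    have hℓ : (σ y + y) / (σ x - x) = (σ η + η) / (σ ξ - ξ) := by
      rw [hσy, hσx, hyη, hxξ]
      field_simp
    have hnum : v (σ η + η) = 1 := by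
      have h6 : σ η + η = 2 * η + (σ η - η) := by ring
      rw [h6, Valuation.map_add_eq_of_lt_left _ (by rw [hv2η]; exact hsubη), hv2η]
    have hℓv : 1 < v ((σ η + η) / (σ ξ - ξ)) := by
      rw [map_div₀, hnum, one_lt_div₀ (zero_lt_iff.mpr ((Valuation.ne_zero_iff _).mpr hne))]
      exact hsubξ
    have hℓ2 : ((σ y + y) / (σ x - x)) ^ 2 ∈ A := by
      have h7 : ((σ y + y) / (σ x - x)) ^ 2 = x₄ + W.a₂ + σ x + x := by rw [hx₄]; ring
      rw [h7]
      have ha₂A : W.a₂ ∈ A := (A.valuation_le_one_iff _).mp hva₂.le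
      exact A.add_mem _ _ (A.add_mem _ _ (A.add_mem _ _ hx₄A ha₂A) hσxA) hxA
    have hℓle : v ((σ y + y) / (σ x - x)) ≤ 1 :=
      val_le_one_of_sq ((A.valuation_le_one_iff _).mpr hℓ2)
    rw [hℓ] at hℓle
    exact absurd hℓle (not_le.mpr hℓv)

end GM2

end Fermat.Agent.S05
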