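/-
S05 piece ORDLIB: formal consequences of `IsOrd A ord`.
-/
import Fermat.Agent.S05.Defs

set_option autoImplicit false

namespace Fermat.Agent.S05

open WeierstrassCurve WeierstrassCurve.Affine

/-! ## ORDLIB : file Fermat/Agent/S05/OrdLib.lean -/
section OrdLib
variable {K : Type*} [Field K] {A : ValuationSubring K} {ord : K → ℚ}

theorem IsOrd.one (h : IsOrd A ord) : ord 1 = 0 := by
  have := h.mul 1 1 one_ne_zero one_ne_zero
  rw [mul_one] at this
  linarith

theorem IsOrd.inv (h : IsOrd A ord) {x : K} (hx : x ≠ 0) : ord x⁻¹ = -ord x := by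
  have := h.mul x x⁻¹ hx (inv_ne_zero hx)
  rw [mul_inv_cancel₀ hx, h.one] at this
  linarith

theorem IsOrd.div (h : IsOrd A ord) {x y : K} (hx : x ≠ 0) (hy : y ≠ 0) :
    ord (x / y) = ord x - ord y := by
  rw [div_eq_mul_inv, h.mul x y⁻¹ hx (inv_ne_zero hy), h.inv hy]
  ring

theorem IsOrd.pow (h : IsOrd A ord) {x : K} (hx : x ≠ 0) (n : ℕ) : ord (x ^ n) = n * ord x := by
  induction n with
  | zero => simp [h.one]
  | succ n ih =>
    rw [pow_succ, h.mul _ _ (pow_ne_zero n hx) hx, ih]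
    push_cast
    ring

theorem IsOrd.neg (h : IsOrd A ord) (x : K) : ord (-x) = ord x := by
  by_cases hx : x = 0
  · rw [hx, neg_zero]
  have h1 : (-1 : K) ≠ 0 := neg_ne_zero.mpr one_ne_zero
  have h2 : ord (-1 : K) = 0 := by
    have := h.mul (-1) (-1) h1 h1
    rw [neg_mul_neg, mul_one, h.one] at this
    linarith
  have h3 : -x = -1 * x := by ring
  rw [h3, h.mul _ _ h1 hx, h2, zero_add]

theorem IsOrd.add_ge (h : IsOrd A ord) {x y : K} (hx : x ≠ 0) (hy : y ≠ 0) (hxy : x + y ≠ 0) :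
    min (ord x) (ord y) ≤ ord (x + y) := by
  have key : ∀ {a b : K}, a ≠ 0 → b ≠ 0 → a + b ≠ 0 → ord a ≤ ord b → ord a ≤ ord (a + b) := by
    intro a b ha hb hab hle
    have h1 : b / a ∈ A := by
      rw [h.mem_iff _ (div_ne_zero hb ha), h.div hb ha]
      linarith
    have h2 : 1 + b / a ∈ A := A.add_mem _ _ A.one_mem h1
    have h3 : 1 + b / a = (a + b) / a := by
      field_simp
    rw [h3, h.mem_iff _ (div_ne_zero hab ha), h.div hab ha] at h2
    linarith
  rcases le_total (ord x) (ord y) with hle | hle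
  · rw [min_eq_left hle]
    exact key hx hy hxy hle
  · rw [min_eq_right hle, add_comm]
    exact key hy hx (by rwa [add_comm]) hle

theorem IsOrd.add_eq_of_lt (h : IsOrd A ord) {x y : K} (hx : x ≠ 0) (hy : y ≠ 0)
    (hlt : ord x < ord y) : x + y ≠ 0 ∧ ord (x + y) = ord x := by
  have hxy : x + y ≠ 0 := by
    intro h0
    have : y = -x := by linear_combination h0
    rw [this, h.neg] at hlt
    exact lt_irrefl _ hlt
  refine ⟨hxy, le_antisymm ?_ ?_⟩
  · by_contra hcon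
    rw [not_le] at hcon
    have h1 : x = (x + y) + (-y) := by ring
    have h2 := h.add_ge hxy (neg_ne_zero.mpr hy) (by rw [← h1]; exact hx)
    rw [← h1, h.neg] at h2
    have h3 : ord x < min (ord (x + y)) (ord y) := lt_min hcon hlt
    exact absurd h2 (not_le.mpr h3)
  · have := h.add_ge hx hy hxy
    rwa [min_eq_left hlt.le] at this

theorem IsOrd.sub_ge (h : IsOrd A ord) {x y : K} (hx : x ≠ 0) (hy : y ≠ 0) (hxy : x - y ≠ 0) :
    min (ord x) (ord y) ≤ ord (x - y) := by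
  have := h.add_ge hx (neg_ne_zero.mpr hy) (by rwa [← sub_eq_add_neg])
  rwa [h.neg, ← sub_eq_add_neg] at this

theorem IsOrd.sub_eq_of_lt (h : IsOrd A ord) {x y : K} (hx : x ≠ 0) (hy : y ≠ 0)
    (hlt : ord x < ord y) : x - y ≠ 0 ∧ ord (x - y) = ord x := by
  have := h.add_eq_of_lt hx (neg_ne_zero.mpr hy) (by rwa [h.neg])
  rwa [← sub_eq_add_neg] at this

theorem IsOrd.sub_eq_of_gt (h : IsOrd A ord) {x y : K} (hx : x ≠ 0) (hy : y ≠ 0)
    (hlt : ord y < ord x) : x - y ≠ 0 ∧ ord (x - y) = ord y := by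
  have h1 := h.sub_eq_of_lt hy hx hlt
  have h2 : x - y = -(y - x) := by ring
  refine ⟨?_, ?_⟩
  · rw [h2]
    exact neg_ne_zero.mpr h1.1
  · rw [h2, h.neg]
    exact h1.2

theorem IsOrd.mem_nonunits_iff (h : IsOrd A ord) {x : K} (hx : x ≠ 0) :
    x ∈ A.nonunits ↔ 0 < ord x := by
  have hv : A.valuation x ≠ 0 := (Valuation.ne_zero_iff _).mpr hx
  have h1 : x⁻¹ ∈ A ↔ 0 ≤ ord x⁻¹ := h.mem_iff _ (inv_ne_zero hx)
  rw [h.inv hx, ← A.valuation_le_one_iff, map_inv₀, inv_le_one₀ (zero_lt_iff.mpr hv)] at h1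
  rw [A.mem_nonunits_iff, ← not_le, h1]
  constructor
  · intro h2
    by_contra h3
    exact h2 (by linarith)
  · intro h2 h3
    linarith

theorem IsOrd.natCast_nonneg (h : IsOrd A ord) {n : ℕ} (hn : (n : K) ≠ 0) :
    0 ≤ ord (n : K) :=
  (h.mem_iff _ hn).mp (natCast_mem A n)

theorem IsOrd.intCast_nonneg (h : IsOrd A ord) {n : ℤ} (hn : (n : K) ≠ 0) :
    0 ≤ ord (n : K) :=
  (h.mem_iff _ hn).mp (intCast_mem A n)

/-- an element whose square is integral is integral -/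
theorem IsOrd.nonneg_of_sq (h : IsOrd A ord) {x : K} (hx : x ≠ 0) (hsq : 0 ≤ ord (x ^ 2)) :
    0 ≤ ord x := by
  rw [h.pow hx 2] at hsq
  push_cast at hsq
  linarith

end OrdLib

end Fermat.Agent.S05
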