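import Mathlib
import Fermat.Agent.S05.Defs
import Fermat.Agent.S05.OrdLib
import Fermat.Agent.S05.XForm

/-!
# S05, piece M1: valuations of the `x`-coordinates of the multiples of a torsion point
reducing to the node

`W : Y² = x³ + a₂ x² + a₄ x` with `ord a₂ = 0 < κ := ord a₄`.  For a `p`-torsion point
`P = (x, y)` with `0 < i := ord x < κ`, the `x`-coordinate of `j • P` has valuation
`|e j|`, where `e j` is the representative of `j * i` modulo `2κ` in `(-κ, κ]`, as long as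
no `e l` (`l ≤ j`) is `0` or `κ`.  The recursion stops at the first such `l`.
-/

namespace Fermat.Agent.S05

open WeierstrassCurve WeierstrassCurve.Affine

namespace Recursion

/-! ### the sequence `e` -/

/-- the representative of `j * i` modulo `2κ` in `(-κ, κ]` (for `0 < i < κ`). -/
def eSeq (i κ : ℚ) : ℕ → ℚ
  | 0 => 0
  | j + 1 => if eSeq i κ j + i ≤ κ then eSeq i κ j + i else eSeq i κ j + i - 2 * κ

theorem eSeq_zero (i κ : ℚ) : eSeq i κ 0 = 0 := rfl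

theorem eSeq_succ_cases (i κ : ℚ) (j : ℕ) :
    (eSeq i κ (j + 1) = eSeq i κ j + i ∧ eSeq i κ j + i ≤ κ) ∨
      (eSeq i κ (j + 1) = eSeq i κ j + i - 2 * κ ∧ κ < eSeq i κ j + i) := by
  by_cases h : eSeq i κ j + i ≤ κ
  · left
    refine ⟨?_, h⟩
    rw [eSeq, if_pos h]
  · right
    refine ⟨?_, not_le.mp h⟩
    rw [eSeq, if_neg h]

theorem eSeq_bounds {i κ : ℚ} (hi : 0 < i) (hiκ : i < κ) (j : ℕ) :
    -κ < eSeq i κ j ∧ eSeq i κ j ≤ κ := by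
  induction j with
  | zero => rw [eSeq_zero]; constructor <;> linarith
  | succ j ih =>
    rcases eSeq_succ_cases i κ j with ⟨h1, h2⟩ | ⟨h1, h2⟩ <;> rw [h1] <;> constructor <;>
      linarith [ih.1, ih.2]

theorem eSeq_eq (i κ : ℚ) (j : ℕ) : ∃ m : ℕ, eSeq i κ j = j * i - 2 * m * κ := by
  induction j with
  | zero => exact ⟨0, by rw [eSeq_zero]; push_cast; ring⟩
  | succ j ih =>
    obtain ⟨m, hm⟩ := ih
    rcases eSeq_succ_cases i κ j with ⟨h1, _⟩ | ⟨h1, _⟩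
    · exact ⟨m, by rw [h1, hm]; push_cast; ring⟩
    · exact ⟨m + 1, by rw [h1, hm]; push_cast; ring⟩

theorem eSeq_one {i κ : ℚ} (hiκ : i < κ) : eSeq i κ 1 = i := by
  rcases eSeq_succ_cases i κ 0 with ⟨h1, h2⟩ | ⟨h1, h2⟩
  · rw [h1, eSeq_zero, zero_add]
  · rw [eSeq_zero] at h2; linarith

/-! ### pure arithmetic of three consecutive terms `a, b, c` -/

theorem arith_gen {i κ a b c : ℚ} (hi : 0 < i) (hiκ : i < κ)
    (ha : -κ < a ∧ a ≤ κ) (hb : -κ < b ∧ b ≤ κ)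
    (hab : (b = a + i ∧ a + i ≤ κ) ∨ (b = a + i - 2 * κ ∧ κ < a + i))
    (hbc : (c = b + i ∧ b + i ≤ κ) ∨ (c = b + i - 2 * κ ∧ κ < b + i))
    (ha0 : a ≠ 0) (haκ : a ≠ κ) (hb0 : b ≠ 0) (hc0 : c ≠ 0) (hcκ : c ≠ κ) :
    |b| ≠ i ∧ |b| + i ≠ κ ∧ 2 * min (|b| + i) κ - 2 * min |b| i - |a| = |c| := by
  rcases lt_or_gt_of_ne hb0 with hbneg | hbpos
  · -- b < 0
    rw [abs_of_neg hbneg]
    have hc : c = b + i := by
      rcases hbc with ⟨h1, _⟩ | ⟨_, h2⟩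
      · exact h1
      · linarith
    refine ⟨fun h => hc0 (by linarith), fun h => ?_, ?_⟩
    · rcases hab with ⟨h1, _⟩ | ⟨h1, _⟩
      · linarith [ha.1]
      · exact haκ (by linarith)
    · rcases hab with ⟨h1, h2⟩ | ⟨h1, h2⟩
      · have ha' : a < 0 := by linarith
        rw [abs_of_neg ha', hc]
        rcases abs_cases (b + i) with ⟨e1, e2⟩ | ⟨e1, e2⟩ <;>
          rcases min_cases (-b + i) κ with ⟨e3, e4⟩ | ⟨e3, e4⟩ <;>
          rcases min_cases (-b) i with ⟨e5, e6⟩ | ⟨e5, e6⟩ <;>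
          rw [e1, e3, e5] <;> linarith [ha.1, ha.2, hb.1, hb.2]
      · have ha' : 0 < a := by linarith [hb.1]
        rw [abs_of_pos ha', hc]
        rcases abs_cases (b + i) with ⟨e1, e2⟩ | ⟨e1, e2⟩ <;>
          rcases min_cases (-b + i) κ with ⟨e3, e4⟩ | ⟨e3, e4⟩ <;>
          rcases min_cases (-b) i with ⟨e5, e6⟩ | ⟨e5, e6⟩ <;>
          rw [e1, e3, e5] <;> linarith [ha.1, ha.2, hb.1, hb.2]
  · -- 0 < b
    rw [abs_of_pos hbpos]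
    have hba : a = b - i := by
      rcases hab with ⟨h1, _⟩ | ⟨h1, h2⟩
      · linarith
      · linarith [ha.2]
    refine ⟨fun h => ha0 (by linarith), fun h => ?_, ?_⟩
    · rcases hbc with ⟨h1, _⟩ | ⟨_, h2⟩
      · exact hcκ (by linarith)
      · linarith
    · rw [hba]
      rcases hbc with ⟨h1, h2⟩ | ⟨h1, h2⟩
      · have hc' : 0 < c := by linarith
        rw [abs_of_pos hc', h1]
        rcases abs_cases (b - i) with ⟨e1, e2⟩ | ⟨e1, e2⟩ <;>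
          rcases min_cases (b + i) κ with ⟨e3, e4⟩ | ⟨e3, e4⟩ <;>
          rcases min_cases b i with ⟨e5, e6⟩ | ⟨e5, e6⟩ <;>
          rw [e1, e3, e5] <;> linarith [ha.1, ha.2, hb.1, hb.2]
      · have hc' : c < 0 := by linarith [hb.2]
        rw [abs_of_neg hc', h1]
        rcases abs_cases (b - i) with ⟨e1, e2⟩ | ⟨e1, e2⟩ <;>
          rcases min_cases (b + i) κ with ⟨e3, e4⟩ | ⟨e3, e4⟩ <;>
          rcases min_cases b i with ⟨e5, e6⟩ | ⟨e5, e6⟩ <;>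
          rw [e1, e3, e5] <;> linarith [ha.1, ha.2, hb.1, hb.2]

theorem arith_zero {i κ a b : ℚ} (hi : 0 < i) (hiκ : i < κ)
    (ha : -κ < a ∧ a ≤ κ) (hb : -κ < b ∧ b ≤ κ)
    (hab : (b = a + i ∧ a + i ≤ κ) ∨ (b = a + i - 2 * κ ∧ κ < a + i))
    (hbc : ((0 : ℚ) = b + i ∧ b + i ≤ κ) ∨ ((0 : ℚ) = b + i - 2 * κ ∧ κ < b + i))
    (haκ : a ≠ κ) :
    |b| = i ∧ 2 * i ≠ κ ∧ 2 * min (2 * i) κ - 2 * i - |a| = 0 := by
  have hb' : b = -i := by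
    rcases hbc with ⟨h1, _⟩ | ⟨h1, _⟩
    · linarith
    · linarith [hb.2]
  have hbneg : b < 0 := by linarith
  rw [abs_of_neg hbneg]
  refine ⟨by linarith, ?_, ?_⟩
  · intro h
    rcases hab with ⟨h1, _⟩ | ⟨h1, _⟩
    · linarith [ha.1]
    · exact haκ (by linarith)
  · rcases hab with ⟨h1, _⟩ | ⟨h1, _⟩
    · have ha' : a < 0 := by linarith
      rw [abs_of_neg ha', min_eq_left (by linarith [ha.1])]
      linarith
    · have ha' : 0 < a := by linarith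
      rw [abs_of_pos ha', min_eq_right (by linarith [ha.2])]
      linarith

theorem arith_kappa {i κ a b : ℚ} (hi : 0 < i) (hiκ : i < κ)
    (ha : -κ < a ∧ a ≤ κ) (hb : -κ < b ∧ b ≤ κ)
    (hab : (b = a + i ∧ a + i ≤ κ) ∨ (b = a + i - 2 * κ ∧ κ < a + i))
    (hbc : (κ = b + i ∧ b + i ≤ κ) ∨ (κ = b + i - 2 * κ ∧ κ < b + i))
    (ha0 : a ≠ 0) :
    |b| ≠ i ∧ |b| + i = κ ∧ 2 * κ - 2 * min |b| i - |a| = κ := by
  have hb' : b = κ - i := by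
    rcases hbc with ⟨h1, _⟩ | ⟨h1, _⟩
    · linarith
    · linarith [hb.2]
  have hbpos : 0 < b := by linarith
  have ha' : a = κ - 2 * i := by
    rcases hab with ⟨h1, _⟩ | ⟨h1, _⟩
    · linarith
    · linarith [ha.2]
  rw [abs_of_pos hbpos]
  refine ⟨fun h => ha0 (by linarith), by linarith, ?_⟩
  rcases abs_cases a with ⟨e1, e2⟩ | ⟨e1, e2⟩ <;>
    rcases min_cases b i with ⟨e5, e6⟩ | ⟨e5, e6⟩ <;>
    rw [e1, e5] <;> linarith

/-! ### valuation helpers -/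

section ordHelpers
variable {K : Type*} [Field K] {A : ValuationSubring K} {ord : K → ℚ}

theorem ord_sub_of_ne (hord : IsOrd A ord) {a b : K} (ha : a ≠ 0) (hb : b ≠ 0)
    (hne : ord a ≠ ord b) : a - b ≠ 0 ∧ ord (a - b) = min (ord a) (ord b) := by
  rcases lt_or_gt_of_ne hne with h | h
  · rw [min_eq_left h.le]
    exact hord.sub_eq_of_lt ha hb h
  · rw [min_eq_right h.le]
    exact hord.sub_eq_of_gt ha hb h

theorem ord_of_mul_eq (hord : IsOrd A ord) {a b c : K} (h : a * b = c) (hc : c ≠ 0) :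
    a ≠ 0 ∧ b ≠ 0 ∧ ord a + ord b = ord c := by
  have ha : a ≠ 0 := by
    rintro rfl
    exact hc (by rw [← h, zero_mul])
  have hb : b ≠ 0 := by
    rintro rfl
    exact hc (by rw [← h, mul_zero])
  exact ⟨ha, hb, by rw [← h, hord.mul a b ha hb]⟩

theorem ord_sq (hord : IsOrd A ord) {a : K} (ha : a ≠ 0) : ord (a ^ 2) = 2 * ord a := by
  rw [hord.pow ha 2]
  norm_num

theorem ord_four [CharZero K] (hord : IsOrd A ord) (h2 : ord (2 : K) = 0) :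
    (4 : K) ≠ 0 ∧ ord (4 : K) = 0 := by
  have h20 : (2 : K) ≠ 0 := two_ne_zero
  have e : (4 : K) = 2 * 2 := by norm_num
  refine ⟨by rw [e]; exact mul_ne_zero h20 h20, ?_⟩
  rw [e, hord.mul _ _ h20 h20, h2, add_zero]

end ordHelpers

/-! ### group theory -/

theorem dvd_of_nsmul_eq_zero {G : Type*} [AddGroup G] {P : G} {p : ℕ} (hp : p.Prime)
    (hP : p • P = 0) (hP0 : P ≠ 0) {m : ℕ} (hm : m • P = 0) : p ∣ m := by
  have h1 : addOrderOf P ∣ p := addOrderOf_dvd_of_nsmul_eq_zero hP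
  have h2 : addOrderOf P ∣ m := addOrderOf_dvd_of_nsmul_eq_zero hm
  rcases (Nat.dvd_prime hp).mp h1 with h | h
  · exact absurd (AddMonoid.addOrderOf_eq_one_iff.mp h) hP0
  · rwa [h] at h2

/-! ### the curve -/

section curve
variable {K : Type*} [Field K] [DecidableEq K] [CharZero K] {W : WeierstrassCurve K}
  {A : ValuationSubring K} {ord : K → ℚ}

omit [DecidableEq K] [CharZero K] in
/-- `ord y² = 2 ord x` for `0 < ord x < ord a₄`. -/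
theorem y_sq_of_mid (hord : IsOrd A ord) (hW : IsLeg W) (ha₂0 : W.a₂ ≠ 0) (ha₂ : ord W.a₂ = 0)
    (ha₄0 : W.a₄ ≠ 0) {x y : K} (h : W.toAffine.Nonsingular x y) (hx0 : x ≠ 0)
    (hpos : 0 < ord x) (hlt : ord x < ord W.a₄) : y ≠ 0 ∧ ord (y ^ 2) = 2 * ord x := by
  have e := eq_of_nonsingular hW h
  have h1 : W.a₂ * x ≠ 0 := mul_ne_zero ha₂0 hx0
  have h1o : ord (W.a₂ * x) = ord x := by rw [hord.mul _ _ ha₂0 hx0, ha₂, zero_add]
  have h2 : x ^ 2 ≠ 0 := pow_ne_zero 2 hx0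
  have h2o : ord (x ^ 2) = 2 * ord x := ord_sq hord hx0
  obtain ⟨h3, h3o⟩ := hord.add_eq_of_lt h1 h2 (by rw [h1o, h2o]; linarith)
  obtain ⟨h4, h4o⟩ := hord.add_eq_of_lt h3 ha₄0 (by rw [h3o, h1o]; exact hlt)
  have e' : y ^ 2 = x * (W.a₂ * x + x ^ 2 + W.a₄) := by rw [e]; ring
  have hy2 : y ^ 2 ≠ 0 := by rw [e']; exact mul_ne_zero hx0 h4
  refine ⟨fun hy => hy2 (by rw [hy]; ring), ?_⟩
  rw [e', hord.mul _ _ hx0 h4, h4o, h3o, h1o]
  ring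

omit [DecidableEq K] [CharZero K] in
/-- `ord y² ≥ ord x + ord a₄` for `ord x ≥ ord a₄ > 0`, `y ≠ 0`. -/
theorem y_sq_of_far (hord : IsOrd A ord) (hW : IsLeg W) (ha₂0 : W.a₂ ≠ 0) (ha₂ : ord W.a₂ = 0)
    (ha₄0 : W.a₄ ≠ 0) (ha₄ : 0 < ord W.a₄) {x y : K} (h : W.toAffine.Nonsingular x y)
    (hx0 : x ≠ 0) (hy : y ≠ 0) (hge : ord W.a₄ ≤ ord x) :
    ord x + ord W.a₄ ≤ ord (y ^ 2) := by
  have e := eq_of_nonsingular hW h
  have e' : y ^ 2 = x * (x * (W.a₂ + x) + W.a₄) := by rw [e]; ring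
  have hy2 : y ^ 2 ≠ 0 := pow_ne_zero 2 hy
  obtain ⟨-, hc, hsum⟩ := ord_of_mul_eq hord e'.symm hy2
  obtain ⟨h1, h1o⟩ := hord.add_eq_of_lt ha₂0 hx0 (by rw [ha₂]; linarith)
  have h2 : x * (W.a₂ + x) ≠ 0 := mul_ne_zero hx0 h1
  have h2o : ord (x * (W.a₂ + x)) = ord x := by rw [hord.mul _ _ hx0 h1, h1o, ha₂, add_zero]
  have h3 := hord.add_ge h2 ha₄0 hc
  rw [h2o, min_eq_right hge] at h3
  linarith

/-- product formula, with `Q - P` identified -/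
theorem add_core (hW : IsLeg W) {x₁ y₁ x₂ y₂ x₄ y₄ : K} (h₁ : W.toAffine.Nonsingular x₁ y₁)
    (h₂ : W.toAffine.Nonsingular x₂ y₂) (h₄ : W.toAffine.Nonsingular x₄ y₄)
    (hsub : Point.some x₁ y₁ h₁ - Point.some x₂ y₂ h₂ = Point.some x₄ y₄ h₄) (hx : x₁ ≠ x₂) :
    ∃ (x₃ y₃ : K) (h₃ : W.toAffine.Nonsingular x₃ y₃),
      Point.some x₁ y₁ h₁ + Point.some x₂ y₂ h₂ = Point.some x₃ y₃ h₃ ∧
      x₃ * (x₄ * (x₁ - x₂) ^ 2) = (x₁ * x₂ - W.a₄) ^ 2 := by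
  obtain ⟨x₃, y₃, h₃, x₄', y₄', h₄', e₃, e₄, eq, -, -⟩ := add_sub_some hW h₁ h₂ hx
  have e := e₄.symm.trans hsub
  rw [Point.some.injEq] at e
  obtain ⟨e1, -⟩ := e
  subst e1
  exact ⟨x₃, y₃, h₃, e₃, by rw [← eq]; ring⟩

/-- generic step of the recursion -/
theorem add_gen (hord : IsOrd A ord) (hW : IsLeg W) (ha₄0 : W.a₄ ≠ 0)
    {x₁ y₁ x₂ y₂ x₄ y₄ : K} (h₁ : W.toAffine.Nonsingular x₁ y₁)
    (h₂ : W.toAffine.Nonsingular x₂ y₂) (h₄ : W.toAffine.Nonsingular x₄ y₄)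
    (hsub : Point.some x₁ y₁ h₁ - Point.some x₂ y₂ h₂ = Point.some x₄ y₄ h₄)
    (hx₁ : x₁ ≠ 0) (hx₂ : x₂ ≠ 0) (hx₄ : x₄ ≠ 0)
    (hne : ord x₁ ≠ ord x₂) (hneκ : ord x₁ + ord x₂ ≠ ord W.a₄) :
    ∃ (x₃ y₃ : K) (h₃ : W.toAffine.Nonsingular x₃ y₃),
      Point.some x₁ y₁ h₁ + Point.some x₂ y₂ h₂ = Point.some x₃ y₃ h₃ ∧ x₃ ≠ 0 ∧
      ord x₃ = 2 * min (ord x₁ + ord x₂) (ord W.a₄) - 2 * min (ord x₁) (ord x₂) - ord x₄ := by
  obtain ⟨hd, hdo⟩ := ord_sub_of_ne hord hx₁ hx₂ hne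
  have hx : x₁ ≠ x₂ := fun h => hd (sub_eq_zero.mpr h)
  obtain ⟨x₃, y₃, h₃, e₃, eq⟩ := add_core hW h₁ h₂ h₄ hsub hx
  have hm : x₁ * x₂ ≠ 0 := mul_ne_zero hx₁ hx₂
  obtain ⟨hn, hno⟩ := ord_sub_of_ne hord hm ha₄0 (by rw [hord.mul _ _ hx₁ hx₂]; exact hneκ)
  rw [hord.mul _ _ hx₁ hx₂] at hno
  have hn2 : (x₁ * x₂ - W.a₄) ^ 2 ≠ 0 := pow_ne_zero 2 hn
  obtain ⟨hx₃, -, hsum⟩ := ord_of_mul_eq hord eq hn2
  have hd2 : (x₁ - x₂) ^ 2 ≠ 0 := pow_ne_zero 2 hd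
  rw [hord.mul _ _ hx₄ hd2, ord_sq hord hd, ord_sq hord hn, hdo, hno] at hsum
  exact ⟨x₃, y₃, h₃, e₃, hx₃, by linarith⟩

/-- step of the recursion when `ord x₁ = ord x₂` -/
theorem add_eqord (hord : IsOrd A ord) (hW : IsLeg W) (ha₄0 : W.a₄ ≠ 0)
    {x₁ y₁ x₂ y₂ x₄ y₄ : K} (h₁ : W.toAffine.Nonsingular x₁ y₁)
    (h₂ : W.toAffine.Nonsingular x₂ y₂) (h₄ : W.toAffine.Nonsingular x₄ y₄)
    (hsub : Point.some x₁ y₁ h₁ - Point.some x₂ y₂ h₂ = Point.some x₄ y₄ h₄)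
    (hx₁ : x₁ ≠ 0) (hx₂ : x₂ ≠ 0) (hx₄ : x₄ ≠ 0)
    (hx : x₁ ≠ x₂) (heq : ord x₁ = ord x₂) (hneκ : 2 * ord x₂ ≠ ord W.a₄) :
    ∃ (x₃ y₃ : K) (h₃ : W.toAffine.Nonsingular x₃ y₃),
      Point.some x₁ y₁ h₁ + Point.some x₂ y₂ h₂ = Point.some x₃ y₃ h₃ ∧ x₃ ≠ 0 ∧
      ord x₃ ≤ 2 * min (2 * ord x₂) (ord W.a₄) - 2 * ord x₂ - ord x₄ := by
  have hd : x₁ - x₂ ≠ 0 := sub_ne_zero.mpr hx
  have hdo := hord.sub_ge hx₁ hx₂ hd
  rw [heq, min_self] at hdo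
  obtain ⟨x₃, y₃, h₃, e₃, eq⟩ := add_core hW h₁ h₂ h₄ hsub hx
  have hm : x₁ * x₂ ≠ 0 := mul_ne_zero hx₁ hx₂
  have hmo : ord (x₁ * x₂) = 2 * ord x₂ := by rw [hord.mul _ _ hx₁ hx₂, heq]; ring
  obtain ⟨hn, hno⟩ := ord_sub_of_ne hord hm ha₄0 (by rw [hmo]; exact hneκ)
  rw [hmo] at hno
  have hn2 : (x₁ * x₂ - W.a₄) ^ 2 ≠ 0 := pow_ne_zero 2 hn
  obtain ⟨hx₃, -, hsum⟩ := ord_of_mul_eq hord eq hn2
  have hd2 : (x₁ - x₂) ^ 2 ≠ 0 := pow_ne_zero 2 hd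
  rw [hord.mul _ _ hx₄ hd2, ord_sq hord hd, ord_sq hord hn, hno] at hsum
  exact ⟨x₃, y₃, h₃, e₃, hx₃, by linarith⟩

/-- step of the recursion when `ord x₁ + ord x₂ = ord a₄` -/
theorem add_kappa (hord : IsOrd A ord) (hW : IsLeg W) (ha₄0 : W.a₄ ≠ 0)
    {x₁ y₁ x₂ y₂ x₄ y₄ : K} (h₁ : W.toAffine.Nonsingular x₁ y₁)
    (h₂ : W.toAffine.Nonsingular x₂ y₂) (h₄ : W.toAffine.Nonsingular x₄ y₄)
    (hsub : Point.some x₁ y₁ h₁ - Point.some x₂ y₂ h₂ = Point.some x₄ y₄ h₄)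
    (hx₁ : x₁ ≠ 0) (hx₂ : x₂ ≠ 0) (hx₄ : x₄ ≠ 0)
    (hne : ord x₁ ≠ ord x₂) (heqκ : ord x₁ + ord x₂ = ord W.a₄) :
    ∃ (x₃ y₃ : K) (h₃ : W.toAffine.Nonsingular x₃ y₃),
      Point.some x₁ y₁ h₁ + Point.some x₂ y₂ h₂ = Point.some x₃ y₃ h₃ ∧
      (x₃ = 0 ∨ 2 * ord W.a₄ - 2 * min (ord x₁) (ord x₂) - ord x₄ ≤ ord x₃) := by
  obtain ⟨hd, hdo⟩ := ord_sub_of_ne hord hx₁ hx₂ hne
  have hx : x₁ ≠ x₂ := fun h => hd (sub_eq_zero.mpr h)
  obtain ⟨x₃, y₃, h₃, e₃, eq⟩ := add_core hW h₁ h₂ h₄ hsub hx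
  refine ⟨x₃, y₃, h₃, e₃, ?_⟩
  by_cases hx₃ : x₃ = 0
  · left; exact hx₃
  right
  have hd2 : (x₁ - x₂) ^ 2 ≠ 0 := pow_ne_zero 2 hd
  have hn2 : (x₁ * x₂ - W.a₄) ^ 2 ≠ 0 := by
    rw [← eq]; exact mul_ne_zero hx₃ (mul_ne_zero hx₄ hd2)
  have hn : x₁ * x₂ - W.a₄ ≠ 0 := fun h => hn2 (by rw [h]; ring)
  have hm : x₁ * x₂ ≠ 0 := mul_ne_zero hx₁ hx₂
  have hno := hord.sub_ge hm ha₄0 hn
  rw [hord.mul _ _ hx₁ hx₂, heqκ, min_self] at hno
  obtain ⟨-, -, hsum⟩ := ord_of_mul_eq hord eq hn2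
  rw [hord.mul _ _ hx₄ hd2, ord_sq hord hd, ord_sq hord hn, hdo] at hsum
  linarith

/-- generic duplication -/
theorem dup_gen (hord : IsOrd A ord) (hW : IsLeg W) (ha₂0 : W.a₂ ≠ 0) (ha₂ : ord W.a₂ = 0)
    (ha₄0 : W.a₄ ≠ 0) (h2 : ord (2 : K) = 0) {x y : K} (h : W.toAffine.Nonsingular x y)
    (hx0 : x ≠ 0) (hpos : 0 < ord x) (hlt : ord x < ord W.a₄)
    (hneκ : 2 * ord x ≠ ord W.a₄) :
    ∃ (x' y' : K) (h' : W.toAffine.Nonsingular x' y'),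
      (2 : ℕ) • Point.some x y h = Point.some x' y' h' ∧ x' ≠ 0 ∧
      ord x' = 2 * min (2 * ord x) (ord W.a₄) - 2 * ord x := by
  obtain ⟨hy, hyo⟩ := y_sq_of_mid hord hW ha₂0 ha₂ ha₄0 h hx0 hpos hlt
  obtain ⟨x', y', h', e2, eq⟩ := two_nsmul_some hW h hy
  have hx2 : x ^ 2 ≠ 0 := pow_ne_zero 2 hx0
  obtain ⟨hn, hno⟩ := ord_sub_of_ne hord hx2 ha₄0 (by rw [ord_sq hord hx0]; exact hneκ)
  rw [ord_sq hord hx0] at hno
  have hn2 : (x ^ 2 - W.a₄) ^ 2 ≠ 0 := pow_ne_zero 2 hn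
  obtain ⟨hx'0, -, hsum⟩ := ord_of_mul_eq hord eq hn2
  obtain ⟨h40, h4o⟩ := ord_four hord h2
  have hy2 : y ^ 2 ≠ 0 := pow_ne_zero 2 hy
  rw [hord.mul _ _ h40 hy2, h4o, zero_add, hyo, ord_sq hord hn, hno] at hsum
  exact ⟨x', y', h', e2, hx'0, by linarith⟩

/-- duplication when `2 ord x = ord a₄` -/
theorem dup_kappa (hord : IsOrd A ord) (hW : IsLeg W) (ha₂0 : W.a₂ ≠ 0) (ha₂ : ord W.a₂ = 0)
    (ha₄0 : W.a₄ ≠ 0) (h2 : ord (2 : K) = 0) {x y : K} (h : W.toAffine.Nonsingular x y)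
    (hx0 : x ≠ 0) (hpos : 0 < ord x) (hlt : ord x < ord W.a₄)
    (heqκ : 2 * ord x = ord W.a₄) :
    ∃ (x' y' : K) (h' : W.toAffine.Nonsingular x' y'),
      (2 : ℕ) • Point.some x y h = Point.some x' y' h' ∧ (x' = 0 ∨ ord W.a₄ ≤ ord x') := by
  obtain ⟨hy, hyo⟩ := y_sq_of_mid hord hW ha₂0 ha₂ ha₄0 h hx0 hpos hlt
  obtain ⟨x', y', h', e2, eq⟩ := two_nsmul_some hW h hy
  refine ⟨x', y', h', e2, ?_⟩
  by_cases hx' : x' = 0
  · left; exact hx'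
  right
  obtain ⟨h40, h4o⟩ := ord_four hord h2
  have hy2 : y ^ 2 ≠ 0 := pow_ne_zero 2 hy
  have hn2 : (x ^ 2 - W.a₄) ^ 2 ≠ 0 := by
    rw [← eq]; exact mul_ne_zero hx' (mul_ne_zero h40 hy2)
  have hn : x ^ 2 - W.a₄ ≠ 0 := fun h => hn2 (by rw [h]; ring)
  have hx2 : x ^ 2 ≠ 0 := pow_ne_zero 2 hx0
  have hno := hord.sub_ge hx2 ha₄0 hn
  rw [ord_sq hord hx0, heqκ, min_self] at hno
  obtain ⟨-, -, hsum⟩ := ord_of_mul_eq hord eq hn2
  rw [hord.mul _ _ h40 hy2, h4o, zero_add, hyo, ord_sq hord hn] at hsum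
  linarith

end curve

end Recursion

/-! ## M1 -/
section M1
variable {K : Type*} [Field K] [DecidableEq K] [CharZero K] {W : WeierstrassCurve K}

/-- points very close to the 2-torsion point `(0,0)`: their double has unit `x`. -/
theorem node_torsion_far (A : ValuationSubring K) (ord : K → ℚ) (hord : IsOrd A ord)
    (hW : IsLeg W) (ha₂0 : W.a₂ ≠ 0) (ha₂ : ord W.a₂ = 0) (ha₄0 : W.a₄ ≠ 0) (ha₄ : 0 < ord W.a₄)
    (h2 : ord (2 : K) = 0)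
    {p : ℕ} (hp : p.Prime) (hp2 : p ≠ 2) (hpord : ord (p : K) = 0)
    (hA : ∀ (x y : K) (h : W.toAffine.Nonsingular x y), p • Point.some x y h = 0 → x ∈ A)
    {x y : K} (h : W.toAffine.Nonsingular x y) (hP : p • Point.some x y h = 0)
    (hx : x = 0 ∨ ord W.a₄ ≤ ord x) :
    ∃ (x' y' : K) (h' : W.toAffine.Nonsingular x' y'),
      (2 : ℕ) • Point.some x y h = Point.some x' y' h' ∧ x' ≠ 0 ∧ ord x' = 0 := by
  have _ := hpord
  have hP0 : Point.some x y h ≠ 0 := Point.some_ne_zero h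
  have hy : y ≠ 0 := by
    intro hy
    have h2P := two_nsmul_some_eq_zero hW h hy
    have hdvd := Recursion.dvd_of_nsmul_eq_zero hp hP hP0 h2P
    exact hp2 ((Nat.prime_dvd_prime_iff_eq hp Nat.prime_two).mp hdvd)
  have e := eq_of_nonsingular hW h
  have hx0 : x ≠ 0 := by
    rintro rfl
    apply hy
    have : y ^ 2 = 0 := by rw [e]; ring
    exact pow_eq_zero_iff two_ne_zero |>.mp this
  have hge : ord W.a₄ ≤ ord x := hx.resolve_left hx0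
  obtain ⟨x', y', h', e2, eq⟩ := two_nsmul_some hW h hy
  have hx2 : x ^ 2 ≠ 0 := pow_ne_zero 2 hx0
  have hx2o : ord (x ^ 2) = 2 * ord x := Recursion.ord_sq hord hx0
  obtain ⟨hn, hno⟩ := hord.sub_eq_of_gt hx2 ha₄0 (by rw [hx2o]; linarith)
  have hn2 : (x ^ 2 - W.a₄) ^ 2 ≠ 0 := pow_ne_zero 2 hn
  have hn2o : ord ((x ^ 2 - W.a₄) ^ 2) = 2 * ord W.a₄ := by
    rw [Recursion.ord_sq hord hn, hno]
  obtain ⟨hx'0, -, hsum⟩ := Recursion.ord_of_mul_eq hord eq hn2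
  obtain ⟨h40, h4o⟩ := Recursion.ord_four hord h2
  have hy2 : y ^ 2 ≠ 0 := pow_ne_zero 2 hy
  have h4y : ord (4 * y ^ 2) = ord (y ^ 2) := by rw [hord.mul _ _ h40 hy2, h4o, zero_add]
  have hyge := Recursion.y_sq_of_far hord hW ha₂0 ha₂ ha₄0 ha₄ h hx0 hy hge
  have hmem : x' ∈ A := hA x' y' h' (by rw [← e2, nsmul_left_comm, hP, nsmul_zero])
  have hnn : 0 ≤ ord x' := (hord.mem_iff _ hx'0).mp hmem
  refine ⟨x', y', h', e2, hx'0, ?_⟩
  rw [hn2o, h4y] at hsum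
  linarith

namespace Recursion

/-- a multiple of `P` very close to `(0,0)` gives a multiple with unit `x`. -/
theorem far_finish (A : ValuationSubring K) (ord : K → ℚ) (hord : IsOrd A ord)
    (hW : IsLeg W) (ha₂0 : W.a₂ ≠ 0) (ha₂ : ord W.a₂ = 0) (ha₄0 : W.a₄ ≠ 0) (ha₄ : 0 < ord W.a₄)
    (h2 : ord (2 : K) = 0)
    {p : ℕ} (hp : p.Prime) (hp2 : p ≠ 2) (hpord : ord (p : K) = 0)
    (hA : ∀ (x y : K) (h : W.toAffine.Nonsingular x y), p • Point.some x y h = 0 → x ∈ A)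
    {x y : K} (h : W.toAffine.Nonsingular x y) (hP : p • Point.some x y h = 0)
    {n : ℕ} (hn : 0 < n) (hnp : n ≤ p) {x₃ y₃ : K} (h₃ : W.toAffine.Nonsingular x₃ y₃)
    (e₃ : n • Point.some x y h = Point.some x₃ y₃ h₃) (hx₃ : x₃ = 0 ∨ ord W.a₄ ≤ ord x₃) :
    ∃ m : ℕ, ¬ p ∣ m ∧ ∃ (x' y' : K) (h' : W.toAffine.Nonsingular x' y'),
        m • Point.some x y h = Point.some x' y' h' ∧ x' ≠ 0 ∧ ord x' = 0 := by
  have hnp' : n < p := by
    rcases Nat.eq_or_lt_of_le hnp with h' | h'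
    · rw [h', hP] at e₃
      exact absurd e₃.symm (Point.some_ne_zero h₃)
    · exact h'
  have hP₃ : p • Point.some x₃ y₃ h₃ = 0 := by rw [← e₃, nsmul_left_comm, hP, nsmul_zero]
  obtain ⟨x', y', h', e', hx', ho'⟩ :=
    node_torsion_far A ord hord hW ha₂0 ha₂ ha₄0 ha₄ h2 hp hp2 hpord hA h₃ hP₃ hx₃
  refine ⟨2 * n, ?_, x', y', h', by rw [mul_nsmul', e₃, e'], hx', ho'⟩
  intro hdvd
  rcases (hp.dvd_mul).mp hdvd with h | h
  · exact hp2 ((Nat.prime_dvd_prime_iff_eq hp Nat.prime_two).mp h)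
  · exact Nat.not_dvd_of_pos_of_lt hn hnp' h

/-- the induction hypothesis of the recursion -/
def St (ord : K → ℚ) {x y : K} (h : W.toAffine.Nonsingular x y) (j : ℕ) : Prop :=
  (∀ l, 1 ≤ l → l ≤ j →
      eSeq (ord x) (ord W.a₄) l ≠ 0 ∧ eSeq (ord x) (ord W.a₄) l ≠ ord W.a₄) ∧
    (∀ l, 1 ≤ l → l ≤ j → ∃ (x' y' : K) (h' : W.toAffine.Nonsingular x' y'),
      l • Point.some x y h = Point.some x' y' h' ∧ x' ≠ 0 ∧
        ord x' = |eSeq (ord x) (ord W.a₄) l|)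

omit [CharZero K] in
theorem St_succ {ord : K → ℚ} {x y : K} {h : W.toAffine.Nonsingular x y} {j : ℕ}
    (hS : St ord h j)
    (h1 : eSeq (ord x) (ord W.a₄) (j + 1) ≠ 0 ∧ eSeq (ord x) (ord W.a₄) (j + 1) ≠ ord W.a₄)
    (h2 : ∃ (x' y' : K) (h' : W.toAffine.Nonsingular x' y'),
      (j + 1) • Point.some x y h = Point.some x' y' h' ∧ x' ≠ 0 ∧
        ord x' = |eSeq (ord x) (ord W.a₄) (j + 1)|) : St ord h (j + 1) := by
  obtain ⟨hS1, hS2⟩ := hS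
  refine ⟨fun l hl hlj => ?_, fun l hl hlj => ?_⟩
  · rcases Nat.lt_or_ge l (j + 1) with hlt | hge
    · exact hS1 l hl (Nat.lt_succ_iff.mp hlt)
    · obtain rfl : l = j + 1 := le_antisymm hlj hge
      exact h1
  · rcases Nat.lt_or_ge l (j + 1) with hlt | hge
    · exact hS2 l hl (Nat.lt_succ_iff.mp hlt)
    · obtain rfl : l = j + 1 := le_antisymm hlj hge
      exact h2

/-- the first step `1 → 2` of the recursion -/
theorem step_one (A : ValuationSubring K) (ord : K → ℚ) (hord : IsOrd A ord)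
    (hW : IsLeg W) (ha₂0 : W.a₂ ≠ 0) (ha₂ : ord W.a₂ = 0) (ha₄0 : W.a₄ ≠ 0) (h2 : ord (2 : K) = 0)
    {p : ℕ} (hp : p.Prime) (hp2 : p ≠ 2) (hpord : ord (p : K) = 0)
    (hA : ∀ (x y : K) (h : W.toAffine.Nonsingular x y), p • Point.some x y h = 0 → x ∈ A)
    {x y : K} (h : W.toAffine.Nonsingular x y) (hP : p • Point.some x y h = 0)
    (hx0 : x ≠ 0) (hpos : 0 < ord x) (hlt : ord x < ord W.a₄)
    (hjp : 1 + 1 ≤ p) (hS : St ord h 1) :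
    (∃ m : ℕ, ¬ p ∣ m ∧ ∃ (x' y' : K) (h' : W.toAffine.Nonsingular x' y'),
        m • Point.some x y h = Point.some x' y' h' ∧ x' ≠ 0 ∧ ord x' = 0) ∨
      St ord h (1 + 1) := by
  have hκpos : 0 < ord W.a₄ := lt_trans hpos hlt
  have hsucc := eSeq_succ_cases (ord x) (ord W.a₄) 1
  rw [eSeq_one hlt] at hsucc
  by_cases hk : 2 * ord x = ord W.a₄
  · left
    obtain ⟨x', y', h', e', hx'⟩ := dup_kappa hord hW ha₂0 ha₂ ha₄0 h2 h hx0 hpos hlt hk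
    exact far_finish A ord hord hW ha₂0 ha₂ ha₄0 hκpos h2 hp hp2 hpord hA h hP
      (by norm_num) hjp h' e' hx'
  · right
    obtain ⟨x', y', h', e', hx', ho'⟩ := dup_gen hord hW ha₂0 ha₂ ha₄0 h2 h hx0 hpos hlt hk
    apply St_succ hS
    · rcases hsucc with ⟨h1, h2⟩ | ⟨h1, h2⟩
      · rw [h1]
        exact ⟨by linarith, fun h => hk (by linarith)⟩
      · rw [h1]
        exact ⟨by linarith, by linarith⟩
    · refine ⟨x', y', h', e', hx', ?_⟩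
      rw [ho']
      rcases hsucc with ⟨h1, h2⟩ | ⟨h1, h2⟩
      · rw [h1, abs_of_pos (by linarith), min_eq_left (by linarith)]
        ring
      · rw [h1, abs_of_neg (by linarith), min_eq_right (by linarith)]
        ring

/-- the step `k + 1 → k + 2` of the recursion -/
theorem step_succ (A : ValuationSubring K) (ord : K → ℚ) (hord : IsOrd A ord)
    (hW : IsLeg W) (ha₂0 : W.a₂ ≠ 0) (ha₂ : ord W.a₂ = 0) (ha₄0 : W.a₄ ≠ 0) (h2 : ord (2 : K) = 0)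
    {p : ℕ} (hp : p.Prime) (hp2 : p ≠ 2) (hpord : ord (p : K) = 0)
    (hA : ∀ (x y : K) (h : W.toAffine.Nonsingular x y), p • Point.some x y h = 0 → x ∈ A)
    {x y : K} (h : W.toAffine.Nonsingular x y) (hP : p • Point.some x y h = 0)
    (hx0 : x ≠ 0) (hpos : 0 < ord x) (hlt : ord x < ord W.a₄)
    {k : ℕ} (hk1 : 1 ≤ k) (hjp : k + 1 + 1 ≤ p) (hS : St ord h (k + 1)) :
    ((∃ m : ℕ, ¬ p ∣ m ∧ ∃ (x' y' : K) (h' : W.toAffine.Nonsingular x' y'),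
        m • Point.some x y h = Point.some x' y' h' ∧ x' ≠ 0 ∧ ord x' = 0) ∨
      (∃ m : ℕ, (p : ℚ) * ord x = 2 * m * ord W.a₄)) ∨
      St ord h (k + 1 + 1) := by
  have hκpos : 0 < ord W.a₄ := lt_trans hpos hlt
  obtain ⟨xj, yj, hj', ej, hxj0, hxjo⟩ := hS.2 (k + 1) (by omega) le_rfl
  obtain ⟨xk, yk, hk', ek, hxk0, hxko⟩ := hS.2 k hk1 (by omega)
  have hsub : Point.some xj yj hj' - Point.some x y h = Point.some xk yk hk' := by
    rw [← ej, ← ek, succ_nsmul, add_sub_cancel_right]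
  have hbk := eSeq_bounds hpos hlt k
  have hbj := eSeq_bounds hpos hlt (k + 1)
  have hsucck := eSeq_succ_cases (ord x) (ord W.a₄) k
  have hsucc := eSeq_succ_cases (ord x) (ord W.a₄) (k + 1)
  obtain ⟨hk0, hkκ⟩ := hS.1 k hk1 (by omega)
  obtain ⟨hj0, hjκ⟩ := hS.1 (k + 1) (by omega) le_rfl
  by_cases hz : eSeq (ord x) (ord W.a₄) (k + 1 + 1) = 0
  · -- the recursion reaches `0`
    left
    obtain ⟨m, hm⟩ := eSeq_eq (ord x) (ord W.a₄) (k + 1 + 1)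
    rw [hz] at hm hsucc
    obtain ⟨z1, z2, z3⟩ := arith_zero hpos hlt hbk hbj hsucck hsucc hkκ
    rcases Nat.eq_or_lt_of_le hjp with hjp' | hjp'
    · right
      refine ⟨m, ?_⟩
      rw [← hjp']
      linarith
    · left
      have hnd : ¬ p ∣ (k + 1 + 1) := Nat.not_dvd_of_pos_of_lt (by omega) hjp'
      have hP0 : Point.some x y h ≠ 0 := Point.some_ne_zero h
      have hne0 : (k + 1 + 1) • Point.some x y h ≠ 0 := fun h0 =>
        hnd (dvd_of_nsmul_eq_zero hp hP hP0 h0)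
      have hx : xj ≠ x := by
        intro hxx
        subst hxx
        rcases eq_or_eq_neg_of_x_eq hW hj' h with hy | hy
        · subst hy
          have hk0' : k • Point.some xj yj h = 0 := by
            have e1 := ej
            rw [succ_nsmul] at e1
            exact add_eq_right.mp e1
          rw [ek] at hk0'
          exact Point.some_ne_zero hk' hk0'
        · subst hy
          apply hne0
          rw [succ_nsmul, ej]
          exact add_some_eq_zero hW hj' h ⟨rfl, rfl⟩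
      obtain ⟨x₃, y₃, h₃, e₃, hx₃, ho₃⟩ := add_eqord hord hW ha₄0 hj' h hk' hsub hxj0 hx0 hxk0 hx
        (by rw [hxjo]; exact z1) z2
      have e₃' : (k + 1 + 1) • Point.some x y h = Point.some x₃ y₃ h₃ := by
        rw [succ_nsmul, ej, e₃]
      have hmem : x₃ ∈ A := hA x₃ y₃ h₃ (by rw [← e₃', nsmul_left_comm, hP, nsmul_zero])
      have hnn : 0 ≤ ord x₃ := (hord.mem_iff _ hx₃).mp hmem
      refine ⟨k + 1 + 1, hnd, x₃, y₃, h₃, e₃', hx₃, ?_⟩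
      rw [hxko] at ho₃
      linarith
  by_cases hκ : eSeq (ord x) (ord W.a₄) (k + 1 + 1) = ord W.a₄
  · -- the recursion reaches `κ`
    left; left
    rw [hκ] at hsucc
    obtain ⟨k1, k2, k3⟩ := arith_kappa hpos hlt hbk hbj hsucck hsucc hk0
    obtain ⟨x₃, y₃, h₃, e₃, hx₃⟩ := add_kappa hord hW ha₄0 hj' h hk' hsub hxj0 hx0 hxk0
      (by rw [hxjo]; exact k1) (by rw [hxjo]; exact k2)
    have e₃' : (k + 1 + 1) • Point.some x y h = Point.some x₃ y₃ h₃ := by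
      rw [succ_nsmul, ej, e₃]
    have hx₃' : x₃ = 0 ∨ ord W.a₄ ≤ ord x₃ := by
      rcases hx₃ with h0 | hge
      · left; exact h0
      · right
        rw [hxjo, hxko] at hge
        linarith
    exact far_finish A ord hord hW ha₂0 ha₂ ha₄0 hκpos h2 hp hp2 hpord hA h hP
      (by omega) hjp h₃ e₃' hx₃'
  · -- generic step
    right
    obtain ⟨g1, g2, g3⟩ := arith_gen hpos hlt hbk hbj hsucck hsucc hk0 hkκ hj0 hz hκ
    obtain ⟨x₃, y₃, h₃, e₃, hx₃, ho₃⟩ := add_gen hord hW ha₄0 hj' h hk' hsub hxj0 hx0 hxk0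
      (by rw [hxjo]; exact g1) (by rw [hxjo]; exact g2)
    apply St_succ hS ⟨hz, hκ⟩
    refine ⟨x₃, y₃, h₃, ?_, hx₃, ?_⟩
    · rw [succ_nsmul, ej, e₃]
    · rw [ho₃, hxjo, hxko]
      exact g3

end Recursion

/-- (M1): valuations of the `x`-coordinates of the multiples of a `p`-torsion point reducing
to the node. -/
theorem node_torsion_dichotomy (A : ValuationSubring K) (ord : K → ℚ) (hord : IsOrd A ord)
    (hW : IsLeg W) (ha₂0 : W.a₂ ≠ 0) (ha₂ : ord W.a₂ = 0) (ha₄0 : W.a₄ ≠ 0) (h2 : ord (2 : K) = 0)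
    {p : ℕ} (hp : p.Prime) (hp2 : p ≠ 2) (hpord : ord (p : K) = 0)
    (hA : ∀ (x y : K) (h : W.toAffine.Nonsingular x y), p • Point.some x y h = 0 → x ∈ A)
    {x y : K} (h : W.toAffine.Nonsingular x y) (hP : p • Point.some x y h = 0)
    (hx0 : x ≠ 0) (hpos : 0 < ord x) (hlt : ord x < ord W.a₄) :
    (∃ m : ℕ, ¬ p ∣ m ∧ ∃ (x' y' : K) (h' : W.toAffine.Nonsingular x' y'),
        m • Point.some x y h = Point.some x' y' h' ∧ x' ≠ 0 ∧ ord x' = 0) ∨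
      (∃ m : ℕ, (p : ℚ) * ord x = 2 * m * ord W.a₄) := by
  have key : ∀ j : ℕ, 1 ≤ j → j ≤ p →
      ((∃ m : ℕ, ¬ p ∣ m ∧ ∃ (x' y' : K) (h' : W.toAffine.Nonsingular x' y'),
        m • Point.some x y h = Point.some x' y' h' ∧ x' ≠ 0 ∧ ord x' = 0) ∨
      (∃ m : ℕ, (p : ℚ) * ord x = 2 * m * ord W.a₄)) ∨ Recursion.St ord h j := by
    intro j hj
    induction j, hj using Nat.le_induction with
    | base =>
      intro _
      right
      have e1 : Recursion.eSeq (ord x) (ord W.a₄) 1 = ord x := Recursion.eSeq_one hlt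
      refine ⟨fun l hl hl1 => ?_, fun l hl hl1 => ?_⟩
      · obtain rfl : l = 1 := le_antisymm hl1 hl
        rw [e1]
        exact ⟨hpos.ne', hlt.ne⟩
      · obtain rfl : l = 1 := le_antisymm hl1 hl
        exact ⟨x, y, h, one_nsmul _, hx0, by rw [e1, abs_of_pos hpos]⟩
    | succ j hj ih =>
      intro hjp
      rcases ih (by omega) with hc | hS
      · left; exact hc
      · rcases Nat.eq_or_lt_of_le hj with hj1 | hj2
        · subst hj1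
          rcases Recursion.step_one A ord hord hW ha₂0 ha₂ ha₄0 h2 hp hp2 hpord hA h hP hx0
            hpos hlt hjp hS with hc | hS'
          · left; left; exact hc
          · right; exact hS'
        · obtain ⟨k, rfl⟩ : ∃ k, j = k + 1 := ⟨j - 1, by omega⟩
          exact Recursion.step_succ A ord hord hW ha₂0 ha₂ ha₄0 h2 hp hp2 hpord hA h hP hx0
            hpos hlt (by omega) hjp hS
  rcases key p hp.one_le le_rfl with hc | hS
  · exact hc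
  · obtain ⟨x', y', h', e, -⟩ := hS.2 p hp.one_le le_rfl
    rw [hP] at e
    exact absurd e.symm (Point.some_ne_zero h')

end M1

end Fermat.Agent.S05
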