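import Fermat.Agent.S05.Defs
import Fermat.Agent.S05.OrdLib
import Fermat.Agent.S05.ClaimA
import Fermat.Agent.S05.Fixed
import Fermat.Agent.S05.Recursion

/-!
# S05, local statement

For a model `Y² = X³ + a₂ X² + a₄ X` with good or multiplicative (nodal, with
`ord a₄ = p * ord π₀` for a `σ`-fixed `π₀`) reduction at a valuation subring `A`, every
`p`-torsion point is fixed by an inertial `σ`.
-/

namespace Fermat.Agent.S05.Local

open WeierstrassCurve WeierstrassCurve.Affine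

section nonunits

variable {K : Type*} [Field K] (A : ValuationSubring K)

theorem nu_mul_left {x y : K} (hx : x ∈ A) (hy : y ∈ A.nonunits) : x * y ∈ A.nonunits := by
  rw [ValuationSubring.mem_nonunits_iff] at hy ⊢
  rw [map_mul]
  have hx' := (A.valuation_le_one_iff x).mpr hx
  exact lt_of_le_of_lt (mul_le_of_le_one_left' hx') hy

theorem nu_of_mul {x y : K} (hx : x ∈ A) (hxu : x ∉ A.nonunits) (hxy : x * y ∈ A.nonunits) :
    y ∈ A.nonunits := by
  rw [ValuationSubring.mem_nonunits_iff] at hxu hxy ⊢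
  have hx' := (A.valuation_le_one_iff x).mpr hx
  have h1 : A.valuation x = 1 := le_antisymm hx' (not_lt.mp hxu)
  rwa [map_mul, h1, one_mul] at hxy

/-- good reduction: the reduced cubic has no singular point -/
theorem hns_good {a₂ a₄ x : K} (ha₂ : a₂ ∈ A) (ha₄u : a₄ ∉ A.nonunits)
    (hdisc : a₂ ^ 2 - 4 * a₄ ∉ A.nonunits) (hx : x ∈ A) :
    ¬(x ^ 3 + a₂ * x ^ 2 + a₄ * x ∈ A.nonunits ∧ 3 * x ^ 2 + 2 * a₂ * x + a₄ ∈ A.nonunits) := by
  rintro ⟨hf, hf'⟩
  have h2A : (2 : K) ∈ A := ofNat_mem A 2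
  have h3A : (3 : K) ∈ A := ofNat_mem A 3
  have h4A : (4 : K) ∈ A := ofNat_mem A 4
  by_cases hxu : x ∈ A.nonunits
  · apply ha₄u
    have h3 : (3 * x + 2 * a₂) * x ∈ A.nonunits :=
      nu_mul_left A (add_mem (mul_mem h3A hx) (mul_mem h2A ha₂)) hxu
    have : a₄ = (3 * x ^ 2 + 2 * a₂ * x + a₄) - (3 * x + 2 * a₂) * x := by ring
    rw [this]
    exact sub_mem hf' h3
  · have hg : x ^ 2 + a₂ * x + a₄ ∈ A.nonunits :=
      nu_of_mul A hx hxu (by convert hf using 1; ring)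
    have h2 : 2 * x + a₂ ∈ A.nonunits := nu_of_mul A hx hxu (by
      have : x * (2 * x + a₂) = (3 * x ^ 2 + 2 * a₂ * x + a₄) - (x ^ 2 + a₂ * x + a₄) := by ring
      rw [this]
      exact sub_mem hf' hg)
    apply hdisc
    have : a₂ ^ 2 - 4 * a₄ = (2 * x + a₂) * (2 * x + a₂) - 4 * (x ^ 2 + a₂ * x + a₄) := by ring
    rw [this]
    exact sub_mem (mul_mem h2 h2) (nu_mul_left A h4A hg)

/-- nodal reduction: points with unit `x` reduce to nonsingular points -/
theorem hns_node {a₂ a₄ x : K} (ha₄ : a₄ ∈ A.nonunits) (hx : x ∈ A) (hxu : x ∉ A.nonunits) :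
    ¬(x ^ 3 + a₂ * x ^ 2 + a₄ * x ∈ A.nonunits ∧ 3 * x ^ 2 + 2 * a₂ * x + a₄ ∈ A.nonunits) := by
  rintro ⟨hf, hf'⟩
  have hg : x ^ 2 + a₂ * x + a₄ ∈ A.nonunits :=
    nu_of_mul A hx hxu (by convert hf using 1; ring)
  have h1 : x + a₂ ∈ A.nonunits := nu_of_mul A hx hxu (by
    have : x * (x + a₂) = (x ^ 2 + a₂ * x + a₄) - a₄ := by ring
    rw [this]
    exact sub_mem hg ha₄)
  have h2 : 2 * x + a₂ ∈ A.nonunits := nu_of_mul A hx hxu (by
    have : x * (2 * x + a₂) = (3 * x ^ 2 + 2 * a₂ * x + a₄) - (x ^ 2 + a₂ * x + a₄) := by ring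
    rw [this]
    exact sub_mem hf' hg)
  apply hxu
  have : x = (2 * x + a₂) - (x + a₂) := by ring
  rw [this]
  exact sub_mem h2 h1

end nonunits

/-- If a multiple `m • P` (`p ∤ m`) of a `p`-torsion point is fixed, so is `P`. -/
theorem fixed_of_nsmul_fixed {G : Type*} [AddCommGroup G] (Φ : G →+ G) {p m : ℕ} (hp : p.Prime)
    (hm : ¬ p ∣ m) {P : G} (hP : p • P = 0) (hQ : Φ (m • P) = m • P) : Φ P = P := by
  have hcop : Nat.Coprime m p := ((Nat.Prime.coprime_iff_not_dvd hp).mpr hm).symm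
  obtain ⟨m', -, hm'⟩ := Nat.exists_mul_mod_eq_one_of_coprime hcop hp.one_lt
  have key : m' • (m • P) = P := by
    have h1 : m * m' = p * (m * m' / p) + 1 := by
      have := Nat.div_add_mod (m * m') p
      omega
    rw [← mul_nsmul, h1, add_nsmul, mul_nsmul, hP, nsmul_zero, zero_add, one_nsmul]
  calc Φ P = Φ (m' • (m • P)) := by rw [key]
    _ = m' • Φ (m • P) := map_nsmul _ _ _
    _ = m' • (m • P) := by rw [hQ]
    _ = P := key

variable {K : Type*} [Field K] [DecidableEq K] [CharZero K] {W : WeierstrassCurve K}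

/-- **Local statement.**  Every `p`-torsion point of a model `Y² = X³ + a₂ X² + a₄ X` with good
reduction, or with nodal reduction and `ord a₄ = p * ord π₀` for a `σ`-fixed `π₀`, is fixed by
an inertial `σ`. -/
theorem local_fixed (A : ValuationSubring K) (ord : K → ℚ) (hord : IsOrd A ord)
    (hW : IsLeg W) (h2 : ord (2 : K) = 0)
    (σ : K →+* K) (hσ : IsInertial A σ) (Φ : W.toAffine.Point →+ W.toAffine.Point)
    (hΦ : IsPointAction W σ Φ) {p : ℕ} (hp : p.Prime) (hp2 : p ≠ 2) (hpord : ord (p : K) = 0)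
    (ha₄0 : W.a₄ ≠ 0) (hdisc0 : W.a₂ ^ 2 - 4 * W.a₄ ≠ 0)
    (hcase : (W.a₂ ∈ A ∧ ord W.a₄ = 0 ∧ ord (W.a₂ ^ 2 - 4 * W.a₄) = 0) ∨
      (W.a₂ ≠ 0 ∧ ord W.a₂ = 0 ∧ 0 < ord W.a₄ ∧
        ∃ π₀ : K, π₀ ≠ 0 ∧ σ π₀ = π₀ ∧ ord W.a₄ = p * ord π₀))
    (P : W.toAffine.Point) (hP : p • P = 0) : Φ P = P := by
  have hp0 : (p : K) ≠ 0 := Nat.cast_ne_zero.mpr hp.ne_zero
  have ha₂A : W.a₂ ∈ A := by
    rcases hcase with ⟨ha₂, -, -⟩ | ⟨ha₂0, ha₂, -, -⟩
    · exact ha₂
    · rw [hord.mem_iff _ ha₂0, ha₂]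
  have ha₄A : W.a₄ ∈ A := by
    rcases hcase with ⟨-, ha₄, -⟩ | ⟨-, -, ha₄, -⟩
    · rw [hord.mem_iff _ ha₄0, ha₄]
    · rw [hord.mem_iff _ ha₄0]
      exact ha₄.le
  have hpinv : (p : K)⁻¹ ∈ A := by
    rw [hord.mem_iff _ (inv_ne_zero hp0), hord.inv hp0, hpord, neg_zero]
  have hA : ∀ (x y : K) (h : W.toAffine.Nonsingular x y), p • Point.some x y h = 0 → x ∈ A :=
    fun x y h hP' =>
      ClaimA.x_mem_of_nsmul_eq_zero A W hW.a₁ hW.a₃ hW.a₆ ha₂A ha₄A p hp0 hpinv h hP'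
  cases P with
  | zero => exact map_zero Φ
  | some x y h =>
    have hxA : x ∈ A := hA x y h hP
    rcases hcase with ⟨ha₂, ha₄, hdisc⟩ | ⟨ha₂0, ha₂, ha₄pos, π₀, hπ₀, hσπ₀, hκ⟩
    · -- good reduction
      refine fixed_of_nonsingular_reduction A ord hord hW ha₂ ha₄A h2 σ hσ Φ hΦ hp hp2 hpord hA
        h hP ?_
      refine hns_good A ha₂ ?_ ?_ hxA
      · rw [hord.mem_nonunits_iff ha₄0, ha₄]
        exact lt_irrefl _
      · rw [hord.mem_nonunits_iff hdisc0, hdisc]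
        exact lt_irrefl _
    · -- nodal reduction
      have ha₄m : W.a₄ ∈ A.nonunits := (hord.mem_nonunits_iff ha₄0).mpr ha₄pos
      -- points with unit `x` are fixed
      have hG : ∀ (x' y' : K) (h' : W.toAffine.Nonsingular x' y'),
          p • Point.some x' y' h' = 0 → x' ≠ 0 → ord x' = 0 →
            Φ (Point.some x' y' h') = Point.some x' y' h' := by
        intro x' y' h' hP' hx'0 hx'
        refine fixed_of_nonsingular_reduction A ord hord hW ha₂A ha₄A h2 σ hσ Φ hΦ hp hp2 hpord hA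
          h' hP' ?_
        refine hns_node A ha₄m (hA x' y' h' hP') ?_
        rw [hord.mem_nonunits_iff hx'0, hx']
        exact lt_irrefl _
      have hmul : ∀ m : ℕ, p • (m • Point.some x y h) = 0 := by
        intro m
        rw [nsmul_left_comm, hP, nsmul_zero]
      have hfar : (x = 0 ∨ ord W.a₄ ≤ ord x) → Φ (Point.some x y h) = Point.some x y h := by
        intro hx
        obtain ⟨x', y', h', h2P, hx'0, hx'⟩ := node_torsion_far A ord hord hW ha₂0 ha₂ ha₄0 ha₄pos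
          h2 hp hp2 hpord hA h hP hx
        have hfix := hG x' y' h' (by rw [← h2P]; exact hmul 2) hx'0 hx'
        refine fixed_of_nsmul_fixed Φ hp (m := 2) ?_ hP (by rw [h2P]; exact hfix)
        exact fun hdvd => hp2 ((Nat.prime_dvd_prime_iff_eq hp Nat.prime_two).mp hdvd)
      by_cases hx0 : x = 0
      · exact hfar (Or.inl hx0)
      have hxnn : 0 ≤ ord x := (hord.mem_iff x hx0).mp hxA
      rcases hxnn.eq_or_lt with hx00 | hpos
      · exact hG x y h hP hx0 hx00.symm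
      by_cases hlt : ord x < ord W.a₄
      · rcases node_torsion_dichotomy A ord hord hW ha₂0 ha₂ ha₄0 h2 hp hp2 hpord hA h hP hx0 hpos
          hlt with ⟨m, hm, x', y', h', hmP, hx'0, hx'⟩ | ⟨m, hm⟩
        · have hfix := hG x' y' h' (by rw [← hmP]; exact hmul m) hx'0 hx'
          exact fixed_of_nsmul_fixed Φ hp hm hP (by rw [hmP]; exact hfix)
        · have hpQ : (p : ℚ) ≠ 0 := Nat.cast_ne_zero.mpr hp.ne_zero
          have hπ : ord x = ord (π₀ ^ (2 * m)) := by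
            rw [hord.pow hπ₀]
            have h1 : (p : ℚ) * ord x = p * (((2 * m : ℕ) : ℚ) * ord π₀) := by
              rw [hm, hκ]
              push_cast
              ring
            exact mul_left_cancel₀ hpQ h1
          exact fixed_of_ord_eq A ord hord hW ha₂0 ha₂ ha₄0 h2 σ hσ Φ hΦ hp hp2 hpord hA h hP hx0
            hpos hlt (pow_ne_zero _ hπ₀) (by rw [map_pow, hσπ₀]) hπ
      · exact hfar (Or.inr (not_lt.mp hlt))

end Fermat.Agent.S05.Local
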