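import Fermat.Agent.S05.Defs

/-!
# S05, piece MODEL

The change of model `(x, y) ↦ (x - r, y + x/2)` from `y² + xy = x³ + a₂ x² + a₄ x` to
`Y² = X³ + a₂' X² + a₄' X`, as a Galois-equivariant isomorphism of the groups of points.
-/

namespace Fermat.Agent.S05.Model

open WeierstrassCurve WeierstrassCurve.Affine

section General

variable {K : Type*} [Field K] [DecidableEq K] [CharZero K]

/-- The relation between the two models over a field. -/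
structure Rel (W₁ W₂ : Affine K) (ρ : K) : Prop where
  a₁ : W₁.a₁ = 1
  a₃ : W₁.a₃ = 0
  a₆ : W₁.a₆ = 0
  b₁ : W₂.a₁ = 0
  b₃ : W₂.a₃ = 0
  b₆ : W₂.a₆ = 0
  b₂ : W₂.a₂ = 3 * ρ + W₁.a₂ + 1 / 4
  b₄ : W₂.a₄ = 3 * ρ ^ 2 + 2 * (W₁.a₂ + 1 / 4) * ρ + W₁.a₄
  root : ρ ^ 3 + (W₁.a₂ + 1 / 4) * ρ ^ 2 + W₁.a₄ * ρ = 0

variable {W₁ W₂ : Affine K} {ρ : K}

omit [DecidableEq K] in
theorem Rel.equation_iff (h : Rel W₁ W₂ ρ) (x y : K) :
    W₂.Equation (x - ρ) (y + x / 2) ↔ W₁.Equation x y := by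
  rw [Affine.equation_iff, Affine.equation_iff, h.a₁, h.a₃, h.a₆, h.b₁, h.b₃, h.b₆, h.b₂, h.b₄]
  have hroot := h.root
  constructor
  · intro e
    linear_combination e - hroot
  · intro e
    linear_combination e + hroot

omit [DecidableEq K] in
theorem Rel.nonsingular_iff (h : Rel W₁ W₂ ρ) (x y : K) :
    W₂.Nonsingular (x - ρ) (y + x / 2) ↔ W₁.Nonsingular x y := by
  rw [Affine.nonsingular_iff', Affine.nonsingular_iff', h.equation_iff, h.a₁, h.a₃, h.b₁, h.b₃,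
    h.b₂, h.b₄]
  refine and_congr_right fun _ => ?_
  have e1 : 2 * (y + x / 2) + 0 * (x - ρ) + 0 = 2 * y + 1 * x + 0 := by ring
  have e2 : 0 * (y + x / 2) - (3 * (x - ρ) ^ 2 + 2 * (3 * ρ + W₁.a₂ + 1 / 4) * (x - ρ)
      + (3 * ρ ^ 2 + 2 * (W₁.a₂ + 1 / 4) * ρ + W₁.a₄))
      = (1 * y - (3 * x ^ 2 + 2 * W₁.a₂ * x + W₁.a₄)) - (2 * y + 1 * x + 0) / 2 := by ring
  rw [e1, e2]
  by_cases hY : 2 * y + 1 * x + 0 = 0
  · rw [hY, zero_div, sub_zero]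
  · constructor
    · intro _; exact Or.inr hY
    · intro _; exact Or.inr hY

omit [DecidableEq K] in
theorem Rel.negY (h : Rel W₁ W₂ ρ) (x y : K) :
    W₂.negY (x - ρ) (y + x / 2) = W₁.negY x y + x / 2 := by
  rw [Affine.negY, Affine.negY, h.a₁, h.a₃, h.b₁, h.b₃]
  ring

omit [DecidableEq K] in
theorem Rel.cond_iff (h : Rel W₁ W₂ ρ) (x₁ x₂ y₁ y₂ : K) :
    (x₁ - ρ = x₂ - ρ ∧ y₁ + x₁ / 2 = W₂.negY (x₂ - ρ) (y₂ + x₂ / 2)) ↔
      (x₁ = x₂ ∧ y₁ = W₁.negY x₂ y₂) := by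
  rw [h.negY]
  constructor
  · rintro ⟨hx, hy⟩
    have hx' : x₁ = x₂ := by linear_combination hx
    refine ⟨hx', ?_⟩
    rw [hx'] at hy
    linear_combination hy
  · rintro ⟨hx, hy⟩
    exact ⟨by rw [hx], by rw [hy, hx]⟩

theorem Rel.slope (h : Rel W₁ W₂ ρ) {x₁ x₂ y₁ y₂ : K} (h₁ : W₁.Equation x₁ y₁)
    (h₂ : W₁.Equation x₂ y₂) (hxy : ¬(x₁ = x₂ ∧ y₁ = W₁.negY x₂ y₂)) :
    W₂.slope (x₁ - ρ) (x₂ - ρ) (y₁ + x₁ / 2) (y₂ + x₂ / 2) = W₁.slope x₁ x₂ y₁ y₂ + 1 / 2 := by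
  by_cases hx : x₁ = x₂
  · have hy : y₁ ≠ W₁.negY x₂ y₂ := fun hy => hxy ⟨hx, hy⟩
    have hy12 : y₁ = y₂ := Affine.Y_eq_of_Y_ne h₁ h₂ hx hy
    subst hx
    subst hy12
    have hy' : y₁ + x₁ / 2 ≠ W₂.negY (x₁ - ρ) (y₁ + x₁ / 2) := by
      rw [h.negY]
      intro e
      exact hy (by linear_combination e)
    rw [Affine.slope_of_Y_ne rfl hy, Affine.slope_of_Y_ne rfl hy', h.negY]
    rw [Affine.negY, h.a₁, h.a₃] at hy ⊢
    rw [h.b₁, h.b₂, h.b₄]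
    have hd : 2 * y₁ + x₁ ≠ 0 := by
      intro e
      exact hy (by linear_combination e)
    have hd1 : y₁ - (-y₁ - 1 * x₁ - 0) ≠ 0 := by
      intro e
      exact hd (by linear_combination e)
    have hd2 : y₁ + x₁ / 2 - (-y₁ - 1 * x₁ - 0 + x₁ / 2) ≠ 0 := by
      intro e
      exact hd (by linear_combination e)
    rw [div_add_div _ _ hd1 (two_ne_zero' K), div_eq_div_iff hd2 (mul_ne_zero hd1 (two_ne_zero' K))]
    ring
  · have hx' : x₁ - ρ ≠ x₂ - ρ := fun e => hx (by linear_combination e)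
    rw [Affine.slope_of_X_ne hx, Affine.slope_of_X_ne hx']
    have hd : x₁ - x₂ ≠ 0 := sub_ne_zero.mpr hx
    have hd' : x₁ - ρ - (x₂ - ρ) ≠ 0 := sub_ne_zero.mpr hx'
    rw [div_add_div _ _ hd (two_ne_zero' K), div_eq_div_iff hd' (mul_ne_zero hd (two_ne_zero' K))]
    ring

omit [DecidableEq K] in
theorem Rel.addX (h : Rel W₁ W₂ ρ) (x₁ x₂ ℓ : K) :
    W₂.addX (x₁ - ρ) (x₂ - ρ) (ℓ + 1 / 2) = W₁.addX x₁ x₂ ℓ - ρ := by
  rw [Affine.addX, Affine.addX, h.a₁, h.b₁, h.b₂]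
  ring

omit [DecidableEq K] in
theorem Rel.addY (h : Rel W₁ W₂ ρ) (x₁ x₂ y₁ ℓ : K) :
    W₂.addY (x₁ - ρ) (x₂ - ρ) (y₁ + x₁ / 2) (ℓ + 1 / 2)
      = W₁.addY x₁ x₂ y₁ ℓ + W₁.addX x₁ x₂ ℓ / 2 := by
  rw [Affine.addY, Affine.addY, Affine.negAddY, Affine.negAddY, h.addX, Affine.negY, Affine.negY,
    h.a₁, h.a₃, h.b₁, h.b₃]
  ring

omit [DecidableEq K] [CharZero K] in
theorem some_congr {W : Affine K} {x x' y y' : K} (h : W.Nonsingular x y)
    (h' : W.Nonsingular x' y') (hx : x = x') (hy : y = y') :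
    Point.some x y h = Point.some x' y' h' := by
  subst hx
  subst hy
  rfl

/-- the forward map -/
def fwd (h : Rel W₁ W₂ ρ) : W₁.Point → W₂.Point
  | .zero => .zero
  | .some x y hxy => .some (x - ρ) (y + x / 2) ((h.nonsingular_iff x y).mpr hxy)

omit [DecidableEq K] in
theorem Rel.nonsingular_inv (h : Rel W₁ W₂ ρ) {X Y : K} (hXY : W₂.Nonsingular X Y) :
    W₁.Nonsingular (X + ρ) (Y - (X + ρ) / 2) := by
  refine (h.nonsingular_iff _ _).mp ?_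
  have e1 : X + ρ - ρ = X := by ring
  have e2 : Y - (X + ρ) / 2 + (X + ρ) / 2 = Y := by ring
  rw [e1, e2]
  exact hXY

/-- the backward map -/
def bwd (h : Rel W₁ W₂ ρ) : W₂.Point → W₁.Point
  | .zero => .zero
  | .some X Y hXY => .some (X + ρ) (Y - (X + ρ) / 2) (h.nonsingular_inv hXY)

omit [DecidableEq K] in
theorem fwd_zero (h : Rel W₁ W₂ ρ) : fwd h (0 : W₁.Point) = 0 := rfl

omit [DecidableEq K] in
theorem fwd_some (h : Rel W₁ W₂ ρ) {x y : K} (hxy : W₁.Nonsingular x y) :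
    fwd h (Point.some x y hxy)
      = Point.some (x - ρ) (y + x / 2) ((h.nonsingular_iff x y).mpr hxy) := rfl

omit [DecidableEq K] in
theorem bwd_fwd (h : Rel W₁ W₂ ρ) (P : W₁.Point) : bwd h (fwd h P) = P := by
  rcases P with _ | ⟨x, y, hxy⟩
  · rfl
  · exact some_congr _ _ (by ring) (by ring)

omit [DecidableEq K] in
theorem fwd_bwd (h : Rel W₁ W₂ ρ) (P : W₂.Point) : fwd h (bwd h P) = P := by
  rcases P with _ | ⟨x, y, hxy⟩
  · rfl
  · exact some_congr _ _ (by ring) (by ring)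

theorem fwd_add (h : Rel W₁ W₂ ρ) (P Q : W₁.Point) : fwd h (P + Q) = fwd h P + fwd h Q := by
  rcases P with _ | ⟨x₁, y₁, h₁⟩
  · change fwd h (0 + Q) = 0 + fwd h Q
    rw [zero_add, zero_add]
  rcases Q with _ | ⟨x₂, y₂, h₂⟩
  · change fwd h (Point.some x₁ y₁ h₁ + 0) = fwd h (Point.some x₁ y₁ h₁) + 0
    rw [add_zero, add_zero]
  by_cases hxy : x₁ = x₂ ∧ y₁ = W₁.negY x₂ y₂
  · have hxy' := (h.cond_iff x₁ x₂ y₁ y₂).mpr hxy
    rw [Point.add_of_Y_eq hxy.1 hxy.2, fwd_some, fwd_some, Point.add_of_Y_eq hxy'.1 hxy'.2]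
    rfl
  · have hxy' : ¬(x₁ - ρ = x₂ - ρ ∧ y₁ + x₁ / 2 = W₂.negY (x₂ - ρ) (y₂ + x₂ / 2)) :=
      fun e => hxy ((h.cond_iff x₁ x₂ y₁ y₂).mp e)
    rw [Point.add_some hxy, fwd_some, fwd_some, fwd_some, Point.add_some hxy']
    refine some_congr _ _ ?_ ?_
    · rw [h.slope h₁.1 h₂.1 hxy, h.addX]
    · rw [h.slope h₁.1 h₂.1 hxy, h.addY]

/-- the isomorphism of groups of points -/
def pointEquiv (h : Rel W₁ W₂ ρ) : W₁.Point ≃+ W₂.Point where
  toFun := fwd h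
  invFun := bwd h
  left_inv := bwd_fwd h
  right_inv := fwd_bwd h
  map_add' := fwd_add h

theorem pointEquiv_zero (h : Rel W₁ W₂ ρ) : pointEquiv h (0 : W₁.Point) = 0 := rfl

theorem pointEquiv_some (h : Rel W₁ W₂ ρ) {x y : K} (hxy : W₁.Nonsingular x y) :
    pointEquiv h (Point.some x y hxy)
      = Point.some (x - ρ) (y + x / 2) ((h.nonsingular_iff x y).mpr hxy) := rfl

end General

section Rat

variable (K : Type*) [Field K] [DecidableEq K] [Algebra ℚ K]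

omit [DecidableEq K] in
theorem rel_legOf [CharZero K] (W : WeierstrassCurve ℚ) (h1 : W.a₁ = 1) (h3 : W.a₃ = 0)
    (h6 : W.a₆ = 0) (r : ℚ) (hr : r ^ 3 + (W.a₂ + 1 / 4) * r ^ 2 + W.a₄ * r = 0) :
    Rel (W⁄K) ((legOf W r)⁄K) (algebraMap ℚ K r) where
  a₁ := by
    show algebraMap ℚ K W.a₁ = 1
    rw [h1, map_one]
  a₃ := by
    show algebraMap ℚ K W.a₃ = 0
    rw [h3, map_zero]
  a₆ := by
    show algebraMap ℚ K W.a₆ = 0
    rw [h6, map_zero]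
  b₁ := by
    show algebraMap ℚ K (legOf W r).a₁ = 0
    exact map_zero _
  b₃ := by
    show algebraMap ℚ K (legOf W r).a₃ = 0
    exact map_zero _
  b₆ := by
    show algebraMap ℚ K (legOf W r).a₆ = 0
    exact map_zero _
  b₂ := by
    show algebraMap ℚ K (3 * r + W.a₂ + 1 / 4) = 3 * algebraMap ℚ K r + algebraMap ℚ K W.a₂ + 1 / 4
    simp only [map_add, map_mul, map_ofNat, map_div₀, map_one]
  b₄ := by
    show algebraMap ℚ K (3 * r ^ 2 + 2 * (W.a₂ + 1 / 4) * r + W.a₄)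
      = 3 * algebraMap ℚ K r ^ 2 + 2 * (algebraMap ℚ K W.a₂ + 1 / 4) * algebraMap ℚ K r
        + algebraMap ℚ K W.a₄
    simp only [map_add, map_mul, map_ofNat, map_div₀, map_one, map_pow]
  root := by
    have := congrArg (algebraMap ℚ K) hr
    simp only [map_add, map_mul, map_ofNat, map_div₀, map_one, map_pow, map_zero] at this
    exact this

end Rat

end Fermat.Agent.S05.Model

namespace Fermat.Agent.S05

open WeierstrassCurve WeierstrassCurve.Affine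

/-- MODEL: the Galois-equivariant isomorphism between the points of
`y² + xy = x³ + a₂ x² + a₄ x` and the points of the model `legOf W r`. -/
theorem exists_pointEquiv (K : Type*) [Field K] [DecidableEq K] [Algebra ℚ K]
    (W : WeierstrassCurve ℚ) (h1 : W.a₁ = 1) (h3 : W.a₃ = 0) (h6 : W.a₆ = 0) (r : ℚ)
    (hr : r ^ 3 + (W.a₂ + 1 / 4) * r ^ 2 + W.a₄ * r = 0) :
    ∃ e : (W⁄K).Point ≃+ ((legOf W r)⁄K).Point,
      ∀ (σ : K ≃ₐ[ℚ] K) (P : (W⁄K).Point), e (σ • P) = σ • e P := by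
  have : CharZero K := charZero_of_injective_algebraMap (algebraMap ℚ K).injective
  have hrel := Model.rel_legOf K W h1 h3 h6 r hr
  refine ⟨Model.pointEquiv hrel, fun σ P => ?_⟩
  rcases P with _ | ⟨x, y, hxy⟩
  · rfl
  · rw [Point.algEquiv_smul_def, Point.map_some, Model.pointEquiv_some, Model.pointEquiv_some,
      Point.algEquiv_smul_def, Point.map_some]
    refine Model.some_congr _ _ ?_ ?_
    · rw [map_sub, AlgHom.commutes]
    · rw [map_add, map_div₀, map_ofNat]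

end Fermat.Agent.S05
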