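/-
S05 piece ORDQBAR: the normalised rational-valued valuation `ordQ` attached to a valuation
subring `A` of a field `L` algebraic over `ℚ` whose maximal ideal contains the prime `q`.

Main results (namespace `Fermat.Agent.S05.OrdQbar`):
* `exists_pow_eq` : every algebraic `x ≠ 0` has `v x ^ n = v q ^ m` with `n > 0`.
* `ordQ A q x : ℚ`, with `ordQ_mul`, `mem_iff_ordQ_nonneg`, `mem_nonunits_iff_ordQ_pos`,
  `ordQ_add_ge`, `ordQ_prime`, `ordQ_ratCast`, `ordQ_apply_of_mem_decompositionSubgroup`.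
-/
import Fermat.Agent.S05.Defs

set_option autoImplicit false

namespace Fermat.Agent.S05.OrdQbar

open Polynomial
open scoped Pointwise

section General

variable {L : Type*} [Field L]

/-- In a vanishing finite sum with a nonzero term, the maximal valuation is attained twice. -/
lemma exists_ne_valuation_eq {Γ : Type*} [LinearOrderedCommGroupWithZero Γ] (v : Valuation L Γ)
    {ι : Type*} [DecidableEq ι] (s : Finset ι) (f : ι → L) (hsum : ∑ i ∈ s, f i = 0)
    (hne : ∃ i ∈ s, f i ≠ 0) :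
    ∃ i ∈ s, ∃ j ∈ s, i ≠ j ∧ f i ≠ 0 ∧ f j ≠ 0 ∧ v (f i) = v (f j) := by
  obtain ⟨i₁, hi₁, hfi₁⟩ := hne
  obtain ⟨i₀, hi₀, hmax⟩ := s.exists_max_image (fun i => v (f i)) ⟨i₁, hi₁⟩
  have hpos : v (f i₀) ≠ 0 := by
    intro h0
    have h1 := hmax i₁ hi₁
    simp only [h0, le_zero_iff] at h1
    exact hfi₁ ((map_eq_zero v).mp h1)
  have hfi₀ : f i₀ ≠ 0 := fun h => hpos (by rw [h, map_zero])
  have hsplit : f i₀ = -∑ i ∈ s.erase i₀, f i := by
    rw [← Finset.add_sum_erase s f hi₀] at hsum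
    exact eq_neg_of_add_eq_zero_left hsum
  by_contra hcon
  have hlt : ∀ i ∈ s.erase i₀, v (f i) < v (f i₀) := by
    intro i hi
    rcases Finset.mem_erase.mp hi with ⟨hii₀, his⟩
    refine lt_of_le_of_ne (hmax i his) fun heq => ?_
    by_cases hfi : f i = 0
    · rw [hfi, map_zero] at heq
      exact hpos heq.symm
    · exact hcon ⟨i₀, hi₀, i, his, fun h => hii₀ h.symm, hfi₀, hfi, heq.symm⟩
  have h2 : v (∑ i ∈ s.erase i₀, f i) < v (f i₀) := Valuation.map_sum_lt v hpos hlt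
  rw [hsplit, Valuation.map_neg] at h2
  exact lt_irrefl _ h2

variable [CharZero L]

/-- A prime number different from the residue characteristic is a unit of `A`. -/
lemma valuation_natCast_eq_one (A : ValuationSubring L) {q : ℕ} (hq : q.Prime)
    (hA : (q : L) ∈ A.nonunits) {c : ℕ} (hc : ¬ q ∣ c) : A.valuation (c : L) = 1 := by
  have hcA : (c : L) ∈ A := natCast_mem A c
  have hle : A.valuation (c : L) ≤ 1 := (A.valuation_le_one_iff _).mpr hcA
  refine le_antisymm hle (not_lt.mp fun hlt => ?_)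
  have hcn : (c : L) ∈ A.nonunits := (A.mem_nonunits_iff).mpr hlt
  have hcop : Nat.Coprime q c := (Nat.Prime.coprime_iff_not_dvd hq).mpr hc
  have hbez : (1 : L) = (q : L) * (Nat.gcdA q c : L) + (c : L) * (Nat.gcdB q c : L) := by
    have h := Nat.gcd_eq_gcd_ab q c
    rw [hcop.gcd_eq_one] at h
    have h' := congrArg (fun z : ℤ => (z : L)) h
    simp only [Int.cast_natCast, Int.cast_add, Int.cast_mul, Nat.cast_one, Int.cast_one] at h'
    exact_mod_cast h'
  have h1 : (1 : L) ∈ A.nonunits := by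
    rw [hbez, A.mem_nonunits_iff]
    have hq1 : A.valuation (q : L) < 1 := (A.mem_nonunits_iff).mp hA
    have ha : A.valuation ((Nat.gcdA q c : ℤ) : L) ≤ 1 :=
      (A.valuation_le_one_iff _).mpr (intCast_mem A _)
    have hb : A.valuation ((Nat.gcdB q c : ℤ) : L) ≤ 1 :=
      (A.valuation_le_one_iff _).mpr (intCast_mem A _)
    refine lt_of_le_of_lt (Valuation.map_add _ _ _) (max_lt ?_ ?_)
    · rw [map_mul]
      calc A.valuation (q : L) * A.valuation ((Nat.gcdA q c : ℤ) : L)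
          ≤ A.valuation (q : L) * 1 := by gcongr
        _ < 1 := by rwa [mul_one]
    · rw [map_mul]
      calc A.valuation (c : L) * A.valuation ((Nat.gcdB q c : ℤ) : L)
          ≤ A.valuation (c : L) * 1 := by gcongr
        _ < 1 := by rwa [mul_one]
  rw [A.mem_nonunits_iff, map_one] at h1
  exact lt_irrefl _ h1

/-- The valuation of a nonzero natural number is a power of the valuation of `q`. -/
lemma valuation_natCast (A : ValuationSubring L) {q : ℕ} (hq : q.Prime)
    (hA : (q : L) ∈ A.nonunits) {c : ℕ} (hc : c ≠ 0) :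
    A.valuation (c : L) = A.valuation (q : L) ^ (padicValNat q c) := by
  have : Fact q.Prime := ⟨hq⟩
  obtain ⟨k, c', hc', rfl⟩ : ∃ k c', ¬ q ∣ c' ∧ c = q ^ k * c' :=
    Nat.exists_eq_pow_mul_and_not_dvd hc q hq.ne_one
  have hc'0 : c' ≠ 0 := fun h => hc (by rw [h, mul_zero])
  have hpv : padicValNat q (q ^ k * c') = k := by
    rw [padicValNat.mul (pow_ne_zero k hq.ne_zero) hc'0, padicValNat.prime_pow,
      padicValNat.eq_zero_of_not_dvd hc', add_zero]
  rw [hpv]
  push_cast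
  rw [map_mul, map_pow, valuation_natCast_eq_one A hq hA hc', mul_one]

lemma valuation_prime_pos (A : ValuationSubring L) {q : ℕ} (hq : q.Prime) :
    0 < A.valuation (q : L) := by
  rw [zero_lt_iff, Valuation.ne_zero_iff]
  exact_mod_cast hq.ne_zero

omit [CharZero L] in
lemma valuation_prime_lt_one (A : ValuationSubring L) {q : ℕ}
    (hA : (q : L) ∈ A.nonunits) : A.valuation (q : L) < 1 :=
  (A.mem_nonunits_iff).mp hA

/-- The valuation of a nonzero integer is a power of the valuation of `q`. -/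
lemma valuation_intCast (A : ValuationSubring L) {q : ℕ} (hq : q.Prime)
    (hA : (q : L) ∈ A.nonunits) {c : ℤ} (hc : c ≠ 0) :
    A.valuation (c : L) = A.valuation (q : L) ^ (padicValInt q c) := by
  have h1 : A.valuation (c : L) = A.valuation ((c.natAbs : ℕ) : L) := by
    rcases Int.natAbs_eq c with h | h
    · conv_lhs => rw [h]
      simp
    · conv_lhs => rw [h]
      simp
  rw [h1, valuation_natCast A hq hA (Int.natAbs_ne_zero.mpr hc)]
  rfl

/-- **Key lemma**: a nonzero element algebraic over `ℤ` has a power whose valuation is an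
integral power of the valuation of `q`. -/
theorem exists_pow_eq (A : ValuationSubring L) {q : ℕ} (hq : q.Prime)
    (hA : (q : L) ∈ A.nonunits) {x : L} (hx : x ≠ 0) (hxalg : IsAlgebraic ℤ x) :
    ∃ (n : ℕ) (m : ℤ), 0 < n ∧ A.valuation x ^ n = A.valuation (q : L) ^ m := by
  obtain ⟨p, hp0, hpx⟩ := hxalg
  rw [aeval_def, eval₂_eq_sum, Polynomial.sum_def] at hpx
  have hne : ∃ i ∈ p.support, (algebraMap ℤ L) (p.coeff i) * x ^ i ≠ 0 := by
    obtain ⟨i, hi⟩ := Finset.nonempty_iff_ne_empty.mpr (fun h => hp0 (support_eq_empty.mp h))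
    refine ⟨i, hi, mul_ne_zero ?_ (pow_ne_zero _ hx)⟩
    rw [algebraMap_int_eq, eq_intCast]
    exact_mod_cast mem_support_iff.mp hi
  obtain ⟨i, hi, j, hj, hij, -, -, hv⟩ :=
    exists_ne_valuation_eq A.valuation p.support _ hpx hne
  have hvx : A.valuation x ≠ 0 := (Valuation.ne_zero_iff _).mpr hx
  have hvq : A.valuation (q : L) ≠ 0 := (valuation_prime_pos A hq).ne'
  have hci : p.coeff i ≠ 0 := mem_support_iff.mp hi
  have hcj : p.coeff j ≠ 0 := mem_support_iff.mp hj
  simp only [algebraMap_int_eq, eq_intCast, map_mul, map_pow] at hv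
  rw [valuation_intCast A hq hA hci, valuation_intCast A hq hA hcj] at hv
  -- wlog i < j
  have key : ∀ i j : ℕ, i < j → ∀ a b : ℕ,
      A.valuation (q : L) ^ a * A.valuation x ^ i = A.valuation (q : L) ^ b * A.valuation x ^ j →
      ∃ (n : ℕ) (m : ℤ), 0 < n ∧ A.valuation x ^ n = A.valuation (q : L) ^ m := by
    intro i j hlt a b h
    refine ⟨j - i, (a : ℤ) - b, Nat.sub_pos_of_lt hlt, ?_⟩
    have hj' : j = (j - i) + i := (Nat.sub_add_cancel hlt.le).symm
    rw [hj', pow_add, ← mul_assoc] at h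
    have h2 := mul_right_cancel₀ (pow_ne_zero i hvx) h
    rw [zpow_sub₀ hvq, zpow_natCast, zpow_natCast, h2]
    field_simp
  rcases lt_or_gt_of_ne hij with hlt | hlt
  · exact key i j hlt _ _ hv
  · exact key j i hlt _ _ hv.symm

end General

section Ord

variable {L : Type*} [Field L] [CharZero L]

open Classical in
/-- The normalised `q`-adic order of `x` with respect to the valuation subring `A`:
`ordQ A q x = m / n` whenever `v x ^ n = v q ^ m` with `n > 0` (and `0` if no such pair exists,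
e.g. for `x = 0`). -/
noncomputable def ordQ (A : ValuationSubring L) (q : ℕ) (x : L) : ℚ :=
  if h : ∃ (n : ℕ) (m : ℤ), 0 < n ∧ A.valuation x ^ n = A.valuation (q : L) ^ m then
    (h.choose_spec.choose : ℚ) / (h.choose : ℚ)
  else 0

variable (A : ValuationSubring L) {q : ℕ}

/-- Uniqueness of the slope. -/
lemma slope_unique (hq : q.Prime) (hA : (q : L) ∈ A.nonunits) {x : L} {n n' : ℕ} {m m' : ℤ}
    (hn : 0 < n) (hn' : 0 < n') (h : A.valuation x ^ n = A.valuation (q : L) ^ m)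
    (h' : A.valuation x ^ n' = A.valuation (q : L) ^ m') : (m : ℚ) / n = (m' : ℚ) / n' := by
  have hvq : A.valuation (q : L) ≠ 0 := (valuation_prime_pos A hq).ne'
  have h1 : A.valuation (q : L) ^ (m * n') = A.valuation (q : L) ^ (m' * n) := by
    rw [zpow_mul, zpow_mul, ← h, ← h', zpow_natCast, zpow_natCast, ← pow_mul, ← pow_mul, mul_comm]
  have h2 : m * n' = m' * n :=
    zpow_right_injective₀ (valuation_prime_pos A hq) (valuation_prime_lt_one A hA).ne h1
  have hn0 : (n : ℚ) ≠ 0 := by exact_mod_cast hn.ne'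
  have hn'0 : (n' : ℚ) ≠ 0 := by exact_mod_cast hn'.ne'
  rw [div_eq_div_iff hn0 hn'0]
  exact_mod_cast h2

/-- Characterisation of `ordQ`. -/
theorem ordQ_eq_of_pow_eq (hq : q.Prime) (hA : (q : L) ∈ A.nonunits) {x : L} {n : ℕ} {m : ℤ}
    (hn : 0 < n) (h : A.valuation x ^ n = A.valuation (q : L) ^ m) :
    ordQ A q x = (m : ℚ) / n := by
  have hex : ∃ (n : ℕ) (m : ℤ), 0 < n ∧ A.valuation x ^ n = A.valuation (q : L) ^ m :=
    ⟨n, m, hn, h⟩
  rw [ordQ, dif_pos hex]
  exact slope_unique A hq hA hex.choose_spec.choose_spec.1 hn hex.choose_spec.choose_spec.2 h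

@[simp] lemma ordQ_zero (hq : q.Prime) : ordQ A q (0 : L) = 0 := by
  rw [ordQ]
  split_ifs with h
  · obtain ⟨n, m, hn, h⟩ := h
    rw [map_zero, zero_pow hn.ne'] at h
    exact absurd h.symm (zpow_ne_zero _ (valuation_prime_pos A hq).ne')
  · rfl

/-- `ordQ` is additive on products of (algebraic) nonzero elements. -/
theorem ordQ_mul (hq : q.Prime) (hA : (q : L) ∈ A.nonunits) {x y : L} (hx : x ≠ 0) (hy : y ≠ 0)
    (hxalg : IsAlgebraic ℤ x) (hyalg : IsAlgebraic ℤ y) :
    ordQ A q (x * y) = ordQ A q x + ordQ A q y := by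
  obtain ⟨n, m, hn, h⟩ := exists_pow_eq A hq hA hx hxalg
  obtain ⟨n', m', hn', h'⟩ := exists_pow_eq A hq hA hy hyalg
  have hvq : A.valuation (q : L) ≠ 0 := (valuation_prime_pos A hq).ne'
  have h3 : A.valuation (x * y) ^ (n * n') = A.valuation (q : L) ^ (m * n' + m' * n) := by
    rw [map_mul, mul_pow, pow_mul, h, mul_comm n n', pow_mul, h', zpow_add₀ hvq, zpow_mul,
      zpow_mul, zpow_natCast, zpow_natCast]
  rw [ordQ_eq_of_pow_eq A hq hA hn h, ordQ_eq_of_pow_eq A hq hA hn' h',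
    ordQ_eq_of_pow_eq A hq hA (Nat.mul_pos hn hn') h3]
  have hn0 : (n : ℚ) ≠ 0 := by exact_mod_cast hn.ne'
  have hn'0 : (n' : ℚ) ≠ 0 := by exact_mod_cast hn'.ne'
  push_cast
  field_simp

/-- Membership in `A` is detected by `ordQ`. -/
theorem mem_iff_ordQ_nonneg (hq : q.Prime) (hA : (q : L) ∈ A.nonunits) {x : L} (hx : x ≠ 0)
    (hxalg : IsAlgebraic ℤ x) : x ∈ A ↔ 0 ≤ ordQ A q x := by
  obtain ⟨n, m, hn, h⟩ := exists_pow_eq A hq hA hx hxalg
  rw [ordQ_eq_of_pow_eq A hq hA hn h, ← A.valuation_le_one_iff, ← pow_le_one_iff hn.ne', h,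
    zpow_le_one_iff_right_of_lt_one₀ (valuation_prime_pos A hq) (valuation_prime_lt_one A hA)]
  have hn0 : (0 : ℚ) < n := by exact_mod_cast hn
  rw [le_div_iff₀ hn0, zero_mul]
  exact_mod_cast Iff.rfl

/-- Membership in the maximal ideal of `A` is detected by `ordQ`. -/
theorem mem_nonunits_iff_ordQ_pos (hq : q.Prime) (hA : (q : L) ∈ A.nonunits) {x : L}
    (hx : x ≠ 0) (hxalg : IsAlgebraic ℤ x) : x ∈ A.nonunits ↔ 0 < ordQ A q x := by
  obtain ⟨n, m, hn, h⟩ := exists_pow_eq A hq hA hx hxalg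
  rw [ordQ_eq_of_pow_eq A hq hA hn h, A.mem_nonunits_iff, ← pow_lt_one_iff hn.ne', h,
    zpow_lt_one_iff_right_of_lt_one₀ (valuation_prime_pos A hq) (valuation_prime_lt_one A hA)]
  have hn0 : (0 : ℚ) < n := by exact_mod_cast hn
  rw [lt_div_iff₀ hn0, zero_mul]
  exact_mod_cast Iff.rfl

/-- `ordQ` is monotone with respect to the valuation: `v x ≤ v y ↔ ordQ y ≤ ordQ x`. -/
theorem valuation_le_iff_ordQ_le (hq : q.Prime) (hA : (q : L) ∈ A.nonunits) {x y : L}
    (hx : x ≠ 0) (hy : y ≠ 0) (hxalg : IsAlgebraic ℤ x) (hyalg : IsAlgebraic ℤ y) :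
    A.valuation x ≤ A.valuation y ↔ ordQ A q y ≤ ordQ A q x := by
  have hyinv : IsAlgebraic ℤ y⁻¹ := hyalg.inv
  have h1 : A.valuation x ≤ A.valuation y ↔ x * y⁻¹ ∈ A := by
    rw [← A.valuation_le_one_iff, map_mul, map_inv₀,
      mul_inv_le_iff₀ (zero_lt_iff.mpr ((Valuation.ne_zero_iff _).mpr hy)), one_mul]
  have h2 : ordQ A q y + ordQ A q y⁻¹ = 0 := by
    rw [← ordQ_mul A hq hA hy (inv_ne_zero hy) hyalg hyinv, mul_inv_cancel₀ hy]
    have : A.valuation (1 : L) ^ 1 = A.valuation (q : L) ^ (0 : ℤ) := by simp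
    rw [ordQ_eq_of_pow_eq A hq hA one_pos this]
    simp
  rw [h1, mem_iff_ordQ_nonneg A hq hA (mul_ne_zero hx (inv_ne_zero hy)) (hxalg.mul hyinv),
    ordQ_mul A hq hA hx (inv_ne_zero hy) hxalg hyinv]
  constructor <;> intro h <;> linarith

/-- The ultrametric inequality for `ordQ`. -/
theorem ordQ_add_ge (hq : q.Prime) (hA : (q : L) ∈ A.nonunits) {x y : L}
    (hx : x ≠ 0) (hy : y ≠ 0) (hxy : x + y ≠ 0) (hxalg : IsAlgebraic ℤ x)
    (hyalg : IsAlgebraic ℤ y) :
    min (ordQ A q x) (ordQ A q y) ≤ ordQ A q (x + y) := by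
  have hsum : IsAlgebraic ℤ (x + y) := hxalg.add hyalg
  rcases le_total (A.valuation x) (A.valuation y) with hle | hle
  · have h1 : A.valuation (x + y) ≤ A.valuation y :=
      (Valuation.map_add _ _ _).trans (max_le hle le_rfl)
    exact (min_le_right _ _).trans
      ((valuation_le_iff_ordQ_le A hq hA hxy hy hsum hyalg).mp h1)
  · have h1 : A.valuation (x + y) ≤ A.valuation x :=
      (Valuation.map_add _ _ _).trans (max_le le_rfl hle)
    exact (min_le_left _ _).trans
      ((valuation_le_iff_ordQ_le A hq hA hxy hx hsum hxalg).mp h1)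

/-- Normalisation: `ordQ q = 1`. -/
theorem ordQ_prime (hq : q.Prime) (hA : (q : L) ∈ A.nonunits) : ordQ A q (q : L) = 1 := by
  have : A.valuation (q : L) ^ 1 = A.valuation (q : L) ^ (1 : ℤ) := by simp
  rw [ordQ_eq_of_pow_eq A hq hA one_pos this]
  simp

/-- On nonzero integers `ordQ` is the `q`-adic valuation. -/
theorem ordQ_intCast (hq : q.Prime) (hA : (q : L) ∈ A.nonunits) {c : ℤ} (hc : c ≠ 0) :
    ordQ A q (c : L) = padicValInt q c := by
  have : A.valuation (c : L) ^ 1 = A.valuation (q : L) ^ ((padicValInt q c : ℕ) : ℤ) := by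
    rw [pow_one, zpow_natCast, valuation_intCast A hq hA hc]
  rw [ordQ_eq_of_pow_eq A hq hA one_pos this]
  simp

/-- On nonzero rationals `ordQ` is the `q`-adic valuation. -/
theorem ordQ_ratCast (hq : q.Prime) (hA : (q : L) ∈ A.nonunits) {r : ℚ} (hr : r ≠ 0) :
    ordQ A q (r : L) = padicValRat q r := by
  have hnum : r.num ≠ 0 := Rat.num_ne_zero.mpr hr
  have hden : (r.den : ℤ) ≠ 0 := by exact_mod_cast r.den_nz
  have hvq : A.valuation (q : L) ≠ 0 := (valuation_prime_pos A hq).ne'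
  have hcast : (r : L) = (r.num : L) / (r.den : L) := by
    conv_lhs => rw [← Rat.num_div_den r]
    push_cast
    rfl
  have : A.valuation (r : L) ^ 1 =
      A.valuation (q : L) ^ ((padicValInt q r.num : ℤ) - (padicValNat q r.den : ℤ)) := by
    rw [pow_one, hcast, map_div₀, valuation_intCast A hq hA hnum,
      valuation_natCast A hq hA r.den_nz, zpow_sub₀ hvq, zpow_natCast, zpow_natCast]
  rw [ordQ_eq_of_pow_eq A hq hA one_pos this, padicValRat]
  simp

/-- `ordQ` is invariant under the decomposition group. -/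
theorem ordQ_apply_of_mem_decompositionSubgroup {K : Type*} [Field K] [Algebra K L]
    (hq : q.Prime) (hA : (q : L) ∈ A.nonunits) {σ : L ≃ₐ[K] L}
    (hσ : σ ∈ A.decompositionSubgroup K) {x : L} (hx : x ≠ 0) (hxalg : IsAlgebraic ℤ x) :
    ordQ A q (σ x) = ordQ A q x := by
  obtain ⟨n, m, hn, h⟩ := exists_pow_eq A hq hA hx hxalg
  have hvq : A.valuation (q : L) ≠ 0 := (valuation_prime_pos A hq).ne'
  have hq0 : (q : L) ≠ 0 := by exact_mod_cast hq.ne_zero
  have hmem : ∀ {τ : L ≃ₐ[K] L}, τ ∈ A.decompositionSubgroup K → ∀ {z : L}, z ∈ A → τ z ∈ A := by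
    intro τ hτ z hz
    have h1 : τ • A = A := MulAction.mem_stabilizer_iff.mp hτ
    have h2 : τ • z ∈ τ • A := ValuationSubring.smul_mem_pointwise_smul τ z A hz
    rw [h1] at h2
    exact h2
  -- `u = x ^ n / q ^ m` is a unit of `A`, hence so is `σ u = σ x ^ n / q ^ m`.
  have hσq : σ ((q : L) ^ m) = (q : L) ^ m := by
    rw [map_zpow₀, map_natCast]
  have hu : A.valuation (x ^ n * ((q : L) ^ m)⁻¹) = 1 := by
    rw [map_mul, map_pow, h, map_inv₀, map_zpow₀, mul_inv_cancel₀ (zpow_ne_zero _ hvq)]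
  have hu1 : x ^ n * ((q : L) ^ m)⁻¹ ∈ A := (A.valuation_le_one_iff _).mp hu.le
  have hu2 : (x ^ n * ((q : L) ^ m)⁻¹)⁻¹ ∈ A := by
    rw [← A.valuation_le_one_iff, map_inv₀, hu, inv_one]
  have hσu1 := hmem hσ hu1
  have hσu2 := hmem hσ hu2
  rw [map_inv₀] at hσu2
  have hσu : A.valuation (σ (x ^ n * ((q : L) ^ m)⁻¹)) = 1 := by
    refine le_antisymm ((A.valuation_le_one_iff _).mpr hσu1) ?_
    have := (A.valuation_le_one_iff _).mpr hσu2
    rw [map_inv₀] at this
    by_contra hlt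
    rw [not_le] at hlt
    have hne : A.valuation (σ (x ^ n * ((q : L) ^ m)⁻¹)) ≠ 0 := by
      rw [Valuation.ne_zero_iff]
      simp [hx, hq0, zpow_ne_zero]
    have h3 := (inv_le_one₀ (zero_lt_iff.mpr hne)).mp this
    exact absurd hlt (not_lt.mpr h3)
  rw [map_mul, map_inv₀, hσq, map_pow, map_mul, map_pow, map_inv₀, map_zpow₀] at hσu
  have h' : A.valuation (σ x) ^ n = A.valuation (q : L) ^ m := by
    have := congrArg (fun z => z * A.valuation (q : L) ^ m) hσu
    simp only [one_mul] at this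
    rw [mul_assoc, inv_mul_cancel₀ (zpow_ne_zero _ hvq), mul_one] at this
    exact this
  rw [ordQ_eq_of_pow_eq A hq hA hn h, ordQ_eq_of_pow_eq A hq hA hn h']

end Ord

end Fermat.Agent.S05.OrdQbar

namespace Fermat.Agent.S05

open WeierstrassCurve WeierstrassCurve.Affine

/-! ## ORDQBAR : file Fermat/Agent/S05/OrdQbar.lean -/
theorem exists_ord {q : ℕ} (hq : q.Prime) (A : ValuationSubring (AlgebraicClosure ℚ))
    (hA : A.LiesOverPrime q) :
    ∃ ord : AlgebraicClosure ℚ → ℚ, IsOrd A ord ∧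
      (∀ r : ℚ, r ≠ 0 → ord (algebraMap ℚ (AlgebraicClosure ℚ) r) = padicValRat q r) ∧
      (∀ σ : AlgebraicClosure ℚ ≃ₐ[ℚ] AlgebraicClosure ℚ, σ ∈ A.decompositionSubgroup ℚ →
        ∀ x, ord (σ x) = ord x) := by
  have hA' : ((q : ℕ) : AlgebraicClosure ℚ) ∈ A.nonunits := hA
  have hcl : IsAlgClosure ℚ (AlgebraicClosure ℚ) := AlgebraicClosure.instIsAlgClosure ℚ
  have halg : Algebra.IsAlgebraic ℚ (AlgebraicClosure ℚ) := IsAlgClosure.isAlgebraic
  have hint : ∀ x : AlgebraicClosure ℚ, IsAlgebraic ℤ x := fun x =>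
    (IsFractionRing.isAlgebraic_iff ℤ ℚ (AlgebraicClosure ℚ)).mpr (Algebra.IsAlgebraic.isAlgebraic x)
  refine ⟨OrdQbar.ordQ A q, ⟨?_, ?_⟩, ?_, ?_⟩
  · intro x y hx hy
    exact OrdQbar.ordQ_mul A hq hA' hx hy (hint x) (hint y)
  · intro x hx
    exact OrdQbar.mem_iff_ordQ_nonneg A hq hA' hx (hint x)
  · intro r hr
    rw [eq_ratCast]
    exact OrdQbar.ordQ_ratCast A hq hA' hr
  · intro σ hσ x
    by_cases hx : x = 0
    · rw [hx, map_zero]
    · exact OrdQbar.ordQ_apply_of_mem_decompositionSubgroup A hq hA' hσ hx (hint x)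

end Fermat.Agent.S05
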