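import Fermat.Agent.S05.Defs
import Fermat.Agent.S05.OrdLib
import Fermat.Agent.S05.OrdQbar
import Fermat.Agent.S05.Inertia
import Fermat.Agent.S05.Model
import Fermat.Agent.S05.Local

/-!
# S05: the Frey curve

Arithmetic of the Frey curve at an odd prime `q`, and the assembly of the local pieces: the
mod-`p` representation of the Frey curve is unramified at every odd prime `q ≠ p`.
-/

namespace Fermat.Agent.S05.Frey

open WeierstrassCurve WeierstrassCurve.Affine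

section arith

variable {q : ℕ}

theorem val_int_of_not_dvd {n : ℤ} (h : ¬ (q : ℤ) ∣ n) : padicValRat q (n : ℚ) = 0 := by
  rw [padicValRat.of_int, padicValInt.eq_zero_of_not_dvd h, Nat.cast_zero]

theorem val_int_pos [Fact q.Prime] {n : ℤ} (hn : n ≠ 0) (h : (q : ℤ) ∣ n) :
    0 < padicValRat q (n : ℚ) := by
  rw [padicValRat.of_int]
  have h1 : 1 ≤ padicValInt q n := by
    rcases (padicValInt_dvd_iff (p := q) 1 n).mp (by simpa using h) with h0 | h1
    · exact absurd h0 hn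
    · exact h1
  exact_mod_cast h1

theorem val_int_nonneg (n : ℤ) : 0 ≤ padicValRat q (n : ℚ) := by
  rw [padicValRat.of_int]
  exact_mod_cast Nat.zero_le _

theorem not_dvd_two (hq : q.Prime) (hq2 : q ≠ 2) : ¬ q ∣ 2 :=
  fun h => hq2 ((Nat.prime_dvd_prime_iff_eq hq Nat.prime_two).mp h)

theorem val_four (hq : q.Prime) (hq2 : q ≠ 2) : padicValRat q (4 : ℚ) = 0 := by
  have h4 : ¬ q ∣ 4 := fun h =>
    not_dvd_two hq hq2 ((hq.dvd_mul (m := 2) (n := 2)).mp h |>.elim id id)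
  have : (4 : ℚ) = ((4 : ℕ) : ℚ) := by norm_num
  rw [this, padicValRat.of_nat, padicValNat.eq_zero_of_not_dvd h4, Nat.cast_zero]

theorem val_sixteen (hq : q.Prime) (hq2 : q ≠ 2) : padicValRat q (16 : ℚ) = 0 := by
  have h4 : ¬ q ∣ 4 := fun h =>
    not_dvd_two hq hq2 ((hq.dvd_mul (m := 2) (n := 2)).mp h |>.elim id id)
  have h16 : ¬ q ∣ 16 := fun h => h4 ((hq.dvd_mul (m := 4) (n := 4)).mp h |>.elim id id)
  have : (16 : ℚ) = ((16 : ℕ) : ℚ) := by norm_num
  rw [this, padicValRat.of_nat, padicValNat.eq_zero_of_not_dvd h16, Nat.cast_zero]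

/-- valuation data in the nodal case -/
theorem mult_data (hq : q.Prime) (hq2 : q ≠ 2) {u v π : ℤ} {n : ℕ} (hn : 0 < n) (hπ0 : π ≠ 0)
    (hqπ : (q : ℤ) ∣ π) (hqu : ¬ (q : ℤ) ∣ u) (hqv : ¬ (q : ℤ) ∣ v) {a₂ a₄ : ℚ}
    (h₂ : a₂ = (u : ℚ) / 4) (h₄ : a₄ = (π : ℚ) ^ n * (v : ℚ) / 16) :
    a₂ ≠ 0 ∧ padicValRat q a₂ = 0 ∧ 0 < padicValRat q a₄ ∧
      ∃ π₀ : ℚ, π₀ ≠ 0 ∧ padicValRat q a₄ = n * padicValRat q π₀ := by
  have : Fact q.Prime := ⟨hq⟩
  have hu0 : (u : ℚ) ≠ 0 := by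
    intro h
    apply hqu
    have : u = 0 := by exact_mod_cast h
    rw [this]
    exact dvd_zero _
  have hv0 : (v : ℚ) ≠ 0 := by
    intro h
    apply hqv
    have : v = 0 := by exact_mod_cast h
    rw [this]
    exact dvd_zero _
  have hπQ : (π : ℚ) ≠ 0 := by exact_mod_cast hπ0
  have h4 := val_four hq hq2
  have h16 := val_sixteen hq hq2
  have hval : padicValRat q a₄ = n * padicValRat q (π : ℚ) := by
    rw [h₄, padicValRat.div (mul_ne_zero (pow_ne_zero _ hπQ) hv0) (by norm_num),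
      padicValRat.mul (pow_ne_zero _ hπQ) hv0, padicValRat.pow, val_int_of_not_dvd hqv, h16]
    ring
  refine ⟨by rw [h₂]; exact div_ne_zero hu0 (by norm_num), ?_, ?_, π, hπQ, hval⟩
  · rw [h₂, padicValRat.div hu0 (by norm_num), val_int_of_not_dvd hqu, h4]
    rfl
  · rw [hval]
    have h1 := val_int_pos hπ0 hqπ
    have h2 : (0 : ℤ) < (n : ℤ) := by exact_mod_cast hn
    exact mul_pos h2 h1

/-- valuation data in the good case -/
theorem good_data (hq : q.Prime) (hq2 : q ≠ 2) {u v w : ℤ} (hqv : ¬ (q : ℤ) ∣ v)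
    (hqw : ¬ (q : ℤ) ∣ w) {a₂ a₄ d : ℚ} (h₂ : a₂ = (u : ℚ) / 4) (h₄ : a₄ = (v : ℚ) / 16)
    (hd : d = (w : ℚ) / 16) :
    0 ≤ padicValRat q a₂ ∧ padicValRat q a₄ = 0 ∧ padicValRat q d = 0 := by
  have : Fact q.Prime := ⟨hq⟩
  have hv0 : (v : ℚ) ≠ 0 := by
    intro h
    apply hqv
    have : v = 0 := by exact_mod_cast h
    rw [this]
    exact dvd_zero _
  have hw0 : (w : ℚ) ≠ 0 := by
    intro h
    apply hqw
    have : w = 0 := by exact_mod_cast h
    rw [this]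
    exact dvd_zero _
  have h4 := val_four hq hq2
  have h16 := val_sixteen hq hq2
  refine ⟨?_, ?_, ?_⟩
  · by_cases hu : (u : ℚ) = 0
    · rw [h₂, hu, zero_div, padicValRat.zero]
    · rw [h₂, padicValRat.div hu (by norm_num), h4, sub_zero]
      exact val_int_nonneg u
  · rw [h₄, padicValRat.div hv0 (by norm_num), val_int_of_not_dvd hqv, h16]
    rfl
  · rw [hd, padicValRat.div hw0 (by norm_num), val_int_of_not_dvd hqw, h16]
    rfl

/-- **Arithmetic of the Frey curve at an odd prime `q`**: after a suitable translation of `x`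
the model `Y² = X³ + a₂ X² + a₄ X` has good or nodal reduction at `q`, and in the nodal case
the valuation of `a₄` is divisible by `p`. -/
theorem frey_arith (P : FreyPackage) (hq : q.Prime) (hq2 : q ≠ 2) :
    ∃ r : ℚ, r ^ 3 + (P.freyCurve.a₂ + 1 / 4) * r ^ 2 + P.freyCurve.a₄ * r = 0 ∧
      (legOf P.freyCurve r).a₄ ≠ 0 ∧
      (legOf P.freyCurve r).a₂ ^ 2 - 4 * (legOf P.freyCurve r).a₄ ≠ 0 ∧
      ((0 ≤ padicValRat q (legOf P.freyCurve r).a₂ ∧ padicValRat q (legOf P.freyCurve r).a₄ = 0 ∧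
          padicValRat q ((legOf P.freyCurve r).a₂ ^ 2 - 4 * (legOf P.freyCurve r).a₄) = 0) ∨
        ((legOf P.freyCurve r).a₂ ≠ 0 ∧ padicValRat q (legOf P.freyCurve r).a₂ = 0 ∧
          0 < padicValRat q (legOf P.freyCurve r).a₄ ∧
          ∃ π₀ : ℚ, π₀ ≠ 0 ∧
            padicValRat q (legOf P.freyCurve r).a₄ = P.p * padicValRat q π₀)) := by
  have hqZ : Prime (q : ℤ) := Nat.prime_iff_prime_int.mp hq
  have hFLT : (P.a : ℚ) ^ P.p + (P.b : ℚ) ^ P.p = (P.c : ℚ) ^ P.p := by exact_mod_cast P.hFLT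
  have ha0 : (P.a : ℚ) ^ P.p ≠ 0 := pow_ne_zero _ (by exact_mod_cast P.ha0)
  have hb0 : (P.b : ℚ) ^ P.p ≠ 0 := pow_ne_zero _ (by exact_mod_cast P.hb0)
  have hc0 : (P.c : ℚ) ^ P.p ≠ 0 := pow_ne_zero _ (by exact_mod_cast P.hc0)
  have hab : ¬ ((q : ℤ) ∣ P.a ∧ (q : ℤ) ∣ P.b) := fun ⟨h1, h2⟩ =>
    hqZ.not_dvd_one (P.hgcdab ▸ dvd_gcd h1 h2)
  have hac : ¬ ((q : ℤ) ∣ P.a ∧ (q : ℤ) ∣ P.c) := fun ⟨h1, h2⟩ =>
    hqZ.not_dvd_one (P.hgcdac ▸ dvd_gcd h1 h2)
  have hbc : ¬ ((q : ℤ) ∣ P.b ∧ (q : ℤ) ∣ P.c) := fun ⟨h1, h2⟩ =>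
    hqZ.not_dvd_one (P.hgcdbc ▸ dvd_gcd h1 h2)
  have hpow : ∀ {z : ℤ}, ¬ (q : ℤ) ∣ z → ¬ (q : ℤ) ∣ z ^ P.p := fun hz h =>
    hz (hqZ.dvd_of_dvd_pow h)
  by_cases hc : (q : ℤ) ∣ P.c
  · -- `q ∣ c`: translate by `r = a ^ p / 4`
    have hqa : ¬ (q : ℤ) ∣ P.a := fun h => hac ⟨h, hc⟩
    have h₂ : (legOf P.freyCurve ((P.a : ℚ) ^ P.p / 4)).a₂ =
        ((P.a ^ P.p + P.c ^ P.p : ℤ) : ℚ) / 4 := by
      simp only [legOf, FreyPackage.freyCurve]
      push_cast
      rw [← hFLT]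
      ring
    have h₄ : (legOf P.freyCurve ((P.a : ℚ) ^ P.p / 4)).a₄ =
        (P.c : ℚ) ^ P.p * ((P.a ^ P.p : ℤ) : ℚ) / 16 := by
      simp only [legOf, FreyPackage.freyCurve]
      push_cast
      rw [← hFLT]
      ring
    refine ⟨(P.a : ℚ) ^ P.p / 4, ?_, ?_, ?_, Or.inr ?_⟩
    · simp only [FreyPackage.freyCurve]
      ring
    · rw [h₄]
      push_cast
      exact div_ne_zero (mul_ne_zero hc0 ha0) (by norm_num)
    · have : (legOf P.freyCurve ((P.a : ℚ) ^ P.p / 4)).a₂ ^ 2 -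
          4 * (legOf P.freyCurve ((P.a : ℚ) ^ P.p / 4)).a₄ = ((P.b : ℚ) ^ P.p) ^ 2 / 16 := by
        rw [h₂, h₄]
        push_cast
        rw [← hFLT]
        ring
      rw [this]
      exact div_ne_zero (pow_ne_zero _ hb0) (by norm_num)
    · refine mult_data hq hq2 P.hppos P.hc0 hc ?_ (hpow hqa) h₂ h₄
      intro h
      exact hpow hqa ((dvd_add_left (dvd_pow hc P.hp0)).mp h)
  · -- `q ∤ c`: no translation
    have h₂ : (legOf P.freyCurve 0).a₂ = ((P.b ^ P.p - P.a ^ P.p : ℤ) : ℚ) / 4 := by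
      simp only [legOf, FreyPackage.freyCurve]
      push_cast
      ring
    have hdisc : (legOf P.freyCurve 0).a₂ ^ 2 - 4 * (legOf P.freyCurve 0).a₄ =
        (((P.c ^ P.p) ^ 2 : ℤ) : ℚ) / 16 := by
      simp only [legOf, FreyPackage.freyCurve]
      push_cast
      rw [← hFLT]
      ring
    have h₄0 : (legOf P.freyCurve 0).a₄ ≠ 0 := by
      have : (legOf P.freyCurve 0).a₄ = -((P.a : ℚ) ^ P.p * (P.b : ℚ) ^ P.p) / 16 := by
        simp only [legOf, FreyPackage.freyCurve]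
        ring
      rw [this]
      exact div_ne_zero (neg_ne_zero.mpr (mul_ne_zero ha0 hb0)) (by norm_num)
    refine ⟨0, by ring, h₄0, ?_, ?_⟩
    · rw [hdisc]
      push_cast
      exact div_ne_zero (pow_ne_zero _ hc0) (by norm_num)
    by_cases ha : (q : ℤ) ∣ P.a
    · -- `q ∣ a`
      have hqb : ¬ (q : ℤ) ∣ P.b := fun h => hab ⟨ha, h⟩
      have h₄ : (legOf P.freyCurve 0).a₄ =
          (P.a : ℚ) ^ P.p * ((-(P.b ^ P.p) : ℤ) : ℚ) / 16 := by
        simp only [legOf, FreyPackage.freyCurve]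
        push_cast
        ring
      refine Or.inr (mult_data hq hq2 P.hppos P.ha0 ha ?_ ?_ h₂ h₄)
      · intro h
        exact hpow hqb ((dvd_sub_left (dvd_pow ha P.hp0)).mp h)
      · intro h
        exact hpow hqb ((dvd_neg).mp h)
    by_cases hb : (q : ℤ) ∣ P.b
    · -- `q ∣ b`
      have h₄ : (legOf P.freyCurve 0).a₄ =
          (P.b : ℚ) ^ P.p * ((-(P.a ^ P.p) : ℤ) : ℚ) / 16 := by
        simp only [legOf, FreyPackage.freyCurve]
        push_cast
        ring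
      refine Or.inr (mult_data hq hq2 P.hppos P.hb0 hb ?_ ?_ h₂ h₄)
      · intro h
        exact hpow ha ((dvd_sub_right (dvd_pow hb P.hp0)).mp h)
      · intro h
        exact hpow ha ((dvd_neg).mp h)
    · -- good reduction
      have h₄ : (legOf P.freyCurve 0).a₄ = ((-(P.a ^ P.p * P.b ^ P.p) : ℤ) : ℚ) / 16 := by
        simp only [legOf, FreyPackage.freyCurve]
        push_cast
        ring
      refine Or.inl (good_data hq hq2 ?_ ?_ h₂ h₄ hdisc)
      · intro h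
        rcases hqZ.dvd_or_dvd ((dvd_neg).mp h) with h | h
        · exact hpow ha h
        · exact hpow hb h
      · intro h
        exact hpow hc (hqZ.dvd_of_dvd_pow h)

end arith

section assembly

/-- **The mod-`p` representation of the Frey curve is unramified at odd primes `q ≠ p`.** -/
theorem frey_unramified (P : FreyPackage) {q : ℕ} (hq : q.Prime) (hq2 : q ≠ 2) (hqp : q ≠ P.p) :
    P.GaloisRepUnramifiedAt q := by
  intro A hA σ hσ x
  obtain ⟨ord, hord, hordQ, -⟩ := exists_ord hq A hA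
  obtain ⟨-, hσI⟩ := isInertial_of_mem hσ
  have hfq : Fact q.Prime := ⟨hq⟩
  have hfp : Fact P.p.Prime := ⟨P.pp⟩
  have hp2 : P.p ≠ 2 := by have := P.hp5; omega
  have h2 : ord (2 : AlgebraicClosure ℚ) = 0 := by
    have h := hordQ 2 two_ne_zero
    rw [map_ofNat] at h
    have h' : (2 : ℚ) = ((2 : ℕ) : ℚ) := by norm_num
    rw [h, h', padicValRat.of_nat, padicValNat.eq_zero_of_not_dvd (not_dvd_two hq hq2)]
    simp
  have hp : ord ((P.p : ℕ) : AlgebraicClosure ℚ) = 0 := by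
    have h := hordQ (P.p : ℚ) (Nat.cast_ne_zero.mpr P.hp0)
    rw [map_natCast] at h
    rw [h, padicValRat.of_nat, padicValNat_primes hqp]
    simp
  obtain ⟨r, hr, ha₄0, hdisc0, hcase⟩ := frey_arith P hq hq2
  obtain ⟨e, he⟩ := exists_pointEquiv (AlgebraicClosure ℚ) P.freyCurve rfl rfl rfl r hr
  have hinj : Function.Injective (algebraMap ℚ (AlgebraicClosure ℚ)) :=
    (algebraMap ℚ (AlgebraicClosure ℚ)).injective
  have ha₂K : ((legOf P.freyCurve r).baseChange (AlgebraicClosure ℚ)).a₂ =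
      algebraMap ℚ (AlgebraicClosure ℚ) (legOf P.freyCurve r).a₂ := rfl
  have ha₄K : ((legOf P.freyCurve r).baseChange (AlgebraicClosure ℚ)).a₄ =
      algebraMap ℚ (AlgebraicClosure ℚ) (legOf P.freyCurve r).a₄ := rfl
  have hdiscK : ((legOf P.freyCurve r).baseChange (AlgebraicClosure ℚ)).a₂ ^ 2 -
      4 * ((legOf P.freyCurve r).baseChange (AlgebraicClosure ℚ)).a₄ =
      algebraMap ℚ (AlgebraicClosure ℚ)
        ((legOf P.freyCurve r).a₂ ^ 2 - 4 * (legOf P.freyCurve r).a₄) := by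
    rw [map_sub, map_pow, map_mul, map_ofNat, ha₂K, ha₄K]
  have hWK : IsLeg ((legOf P.freyCurve r).baseChange (AlgebraicClosure ℚ)) :=
    ⟨map_zero _, map_zero _, map_zero _⟩
  have hΦ : IsPointAction ((legOf P.freyCurve r).baseChange (AlgebraicClosure ℚ))
      ((σ : AlgebraicClosure ℚ ≃+* AlgebraicClosure ℚ) : AlgebraicClosure ℚ →+* AlgebraicClosure ℚ)
      (Point.map (W' := legOf P.freyCurve r) σ.toAlgHom) := by
    intro x y h
    exact ⟨_, Point.map_some (W' := legOf P.freyCurve r) σ.toAlgHom h⟩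
  have hx : P.p • e x.1 = 0 := by
    have h := (Submodule.mem_torsionBy_iff _ _).mp x.2
    rw [natCast_zsmul] at h
    exact (map_nsmul e P.p x.1).symm.trans ((congrArg e h).trans (map_zero e))
  have hcaseK : (((legOf P.freyCurve r).baseChange (AlgebraicClosure ℚ)).a₂ ∈ A ∧
        ord ((legOf P.freyCurve r).baseChange (AlgebraicClosure ℚ)).a₄ = 0 ∧
        ord (((legOf P.freyCurve r).baseChange (AlgebraicClosure ℚ)).a₂ ^ 2 -
          4 * ((legOf P.freyCurve r).baseChange (AlgebraicClosure ℚ)).a₄) = 0) ∨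
      (((legOf P.freyCurve r).baseChange (AlgebraicClosure ℚ)).a₂ ≠ 0 ∧
        ord ((legOf P.freyCurve r).baseChange (AlgebraicClosure ℚ)).a₂ = 0 ∧
        0 < ord ((legOf P.freyCurve r).baseChange (AlgebraicClosure ℚ)).a₄ ∧
        ∃ π₀ : AlgebraicClosure ℚ, π₀ ≠ 0 ∧
          ((σ : AlgebraicClosure ℚ ≃+* AlgebraicClosure ℚ) :
            AlgebraicClosure ℚ →+* AlgebraicClosure ℚ) π₀ = π₀ ∧
          ord ((legOf P.freyCurve r).baseChange (AlgebraicClosure ℚ)).a₄ = P.p * ord π₀) := by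
    rw [hdiscK, ha₂K, ha₄K]
    rcases hcase with ⟨h1, h2', h3⟩ | ⟨h1, h2', h3, π₀, hπ₀, h4⟩
    · left
      refine ⟨?_, ?_, ?_⟩
      · by_cases h0 : (legOf P.freyCurve r).a₂ = 0
        · rw [h0, map_zero]
          exact A.zero_mem
        · rw [hord.mem_iff _ ((map_ne_zero_iff _ hinj).mpr h0), hordQ _ h0]
          exact_mod_cast h1
      · rw [hordQ _ ha₄0, h2']
        simp
      · rw [hordQ _ hdisc0, h3]
        simp
    · right
      refine ⟨(map_ne_zero_iff _ hinj).mpr h1, ?_, ?_,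
        algebraMap ℚ (AlgebraicClosure ℚ) π₀, (map_ne_zero_iff _ hinj).mpr hπ₀, σ.commutes π₀, ?_⟩
      · rw [hordQ _ h1, h2']
        simp
      · rw [hordQ _ ha₄0]
        exact_mod_cast h3
      · rw [hordQ _ hπ₀, hordQ _ ha₄0, h4]
        push_cast
        ring
  have key := Local.local_fixed (W := (legOf P.freyCurve r).baseChange (AlgebraicClosure ℚ))
    A ord hord hWK h2 _ hσI _ hΦ P.pp hp2 hp
    ((map_ne_zero_iff _ hinj).mpr ha₄0)
    (by rw [hdiscK]; exact (map_ne_zero_iff _ hinj).mpr hdisc0) hcaseK (e x.1) hx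
  apply Subtype.ext
  apply e.injective
  exact (he σ x.1).trans key

end assembly

end Fermat.Agent.S05.Frey
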