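/-
S05 piece FAR: `p`-torsion points very close to the 2-torsion point `(0,0)` of a Legendre-type
model `Y² = X³ + a₂ X² + a₄ X` with `ord a₄ > 0`: their double has unit `x`-coordinate.
-/
import Mathlib
import Fermat.Agent.S05.Defs
import Fermat.Agent.S05.OrdLib
import Fermat.Agent.S05.XForm

set_option autoImplicit false

namespace Fermat.Agent.S05.Far

open WeierstrassCurve WeierstrassCurve.Affine

variable {K : Type*} [Field K] [DecidableEq K] [CharZero K] {W : WeierstrassCurve K}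

/-- points very close to the 2-torsion point `(0,0)`: their double has unit `x`. -/
theorem node_torsion_far (A : ValuationSubring K) (ord : K → ℚ) (hord : IsOrd A ord)
    (hW : IsLeg W) (ha₂0 : W.a₂ ≠ 0) (ha₂ : ord W.a₂ = 0) (ha₄0 : W.a₄ ≠ 0) (ha₄ : 0 < ord W.a₄)
    (h2 : ord (2 : K) = 0)
    {p : ℕ} (hp : p.Prime) (hp2 : p ≠ 2) (hpord : ord (p : K) = 0)
    (hA : ∀ (x y : K) (h : W.toAffine.Nonsingular x y), p • Point.some x y h = 0 → x ∈ A)
    {x y : K} (h : W.toAffine.Nonsingular x y) (hP : p • Point.some x y h = 0)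
    (hx : x = 0 ∨ ord W.a₄ ≤ ord x) :
    ∃ (x' y' : K) (h' : W.toAffine.Nonsingular x' y'),
      (2 : ℕ) • Point.some x y h = Point.some x' y' h' ∧ x' ≠ 0 ∧ ord x' = 0 := by
  have heq := eq_of_nonsingular hW h
  -- `y ≠ 0`: otherwise `2 • P = 0`, and `p • P = 0` with `p` odd gives `P = 0`
  have hy : y ≠ 0 := by
    intro hy0
    have h2P := two_nsmul_some_eq_zero hW h hy0
    have hcop : Nat.gcd p 2 = 1 := (Nat.coprime_primes hp Nat.prime_two).mpr hp2
    have h1 : addOrderOf (Point.some x y h) ∣ p := addOrderOf_dvd_of_nsmul_eq_zero hP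
    have h2' : addOrderOf (Point.some x y h) ∣ 2 := addOrderOf_dvd_of_nsmul_eq_zero h2P
    have h3 : addOrderOf (Point.some x y h) ∣ 1 := by
      rw [← hcop]; exact Nat.dvd_gcd h1 h2'
    have h4 : addOrderOf (Point.some x y h) = 1 := Nat.dvd_one.mp h3
    exact Point.some_ne_zero _ (AddMonoid.addOrderOf_eq_one_iff.mp h4)
  have hx0 : x ≠ 0 := by
    intro hx0
    apply hy
    have : y ^ 2 = 0 := by rw [heq, hx0]; ring
    exact (pow_eq_zero_iff two_ne_zero).mp this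
  have hκ : ord W.a₄ ≤ ord x := hx.resolve_left hx0
  obtain ⟨x', y', h', h2P, hform⟩ := two_nsmul_some hW h hy
  refine ⟨x', y', h', h2P, ?_⟩
  -- `ord (x² - a₄) = κ`
  have hx2 : x ^ 2 ≠ 0 := pow_ne_zero 2 hx0
  have hox2 : ord (x ^ 2) = 2 * ord x := by rw [hord.pow hx0 2]; norm_num
  have hsub := hord.sub_eq_of_gt hx2 ha₄0 (by rw [hox2]; linarith)
  -- `ord (a₂ + x) = 0`
  have hxa := hord.add_eq_of_lt ha₂0 hx0 (by rw [ha₂]; linarith)
  -- `c := x² + a₂ x + a₄` has `ord c ≥ κ`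
  have hyc : y ^ 2 = x * (x ^ 2 + W.a₂ * x + W.a₄) := by rw [heq]; ring
  have hc0 : x ^ 2 + W.a₂ * x + W.a₄ ≠ 0 := by
    intro hc0
    apply hy
    have : y ^ 2 = 0 := by rw [hyc, hc0, mul_zero]
    exact (pow_eq_zero_iff two_ne_zero).mp this
  have hu : x * (W.a₂ + x) ≠ 0 := mul_ne_zero hx0 hxa.1
  have hou : ord (x * (W.a₂ + x)) = ord x := by
    rw [hord.mul _ _ hx0 hxa.1, hxa.2, ha₂, add_zero]
  have hce : x ^ 2 + W.a₂ * x + W.a₄ = x * (W.a₂ + x) + W.a₄ := by ring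
  have hoc : ord W.a₄ ≤ ord (x ^ 2 + W.a₂ * x + W.a₄) := by
    have := hord.add_ge hu ha₄0 (by rw [← hce]; exact hc0)
    rw [← hce, hou] at this
    exact le_trans (le_min hκ le_rfl) this
  -- orders in the duplication formula
  have hy2 : y ^ 2 ≠ 0 := pow_ne_zero 2 hy
  have h4 : (4 : K) ≠ 0 := by norm_num
  have ho4 : ord (4 : K) = 0 := by
    have : (4 : K) = 2 * 2 := by norm_num
    rw [this, hord.mul _ _ two_ne_zero two_ne_zero, h2, add_zero]
  have hR : (x ^ 2 - W.a₄) ^ 2 ≠ 0 := pow_ne_zero 2 hsub.1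
  have hx'0 : x' ≠ 0 := by
    intro h0
    rw [h0, zero_mul] at hform
    exact hR hform.symm
  refine ⟨hx'0, ?_⟩
  have ho := congrArg ord hform
  rw [hord.mul _ _ hx'0 (mul_ne_zero h4 hy2), hord.mul _ _ h4 hy2, ho4, hyc,
    hord.mul _ _ hx0 hc0, hord.pow hsub.1 2, hsub.2] at ho
  have hle : ord x' ≤ 0 := by push_cast at ho; linarith
  have hge : 0 ≤ ord x' := by
    rw [← hord.mem_iff _ hx'0]
    apply hA x' y' h'
    rw [← h2P, ← mul_nsmul, mul_comm, mul_nsmul, hP, nsmul_zero]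
  linarith

end Fermat.Agent.S05.Far
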