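/-
S05, piece CLAIMA (helper10): the kernel of reduction of a Weierstrass curve with integral
coefficients over a valued field has no `n`-torsion for `n` a unit of the valuation ring.

Method: for points with non-integral `x` use the local parameter `z = -x / y` (and `w = -1 / y`,
which satisfies `w (1 - a₁ z - a₃ w - a₂ z² - a₄ z w - a₆ w²) = z³`).  For two such points the line
through them is `w = α z + β` with `v α ≤ c²`, `v β ≤ c³` (where `c` bounds `v z`), and Vieta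
gives `v (z (P + Q) - z P - z Q) ≤ c²`.  By induction `v (z (n • P) - n * z P) ≤ c²`, so
`n • P = 0` forces `v (n * z P) ≤ v (z P) ^ 2 < v (z P)`.
-/
import Mathlib

set_option autoImplicit false

namespace Fermat.Agent.S05.Kernel

open WeierstrassCurve WeierstrassCurve.Affine Polynomial

variable {K : Type*} [Field K] {Γ₀ : Type*} [LinearOrderedCommGroupWithZero Γ₀]
  (v : Valuation K Γ₀)

/-! ### A small filtration calculus -/

/-- `Le v c k x` : the valuation of `x` is at most `c ^ k` -/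
def Le (c : Γ₀) (k : ℕ) (x : K) : Prop := v x ≤ c ^ k

section Le

variable {v} {c : Γ₀} {k l : ℕ} {x y : K}

theorem Le.add (hx : Le v c k x) (hy : Le v c k y) : Le v c k (x + y) :=
  v.map_add_le hx hy

theorem Le.sub (hx : Le v c k x) (hy : Le v c k y) : Le v c k (x - y) :=
  v.map_sub_le hx hy

theorem Le.neg (hx : Le v c k x) : Le v c k (-x) := by
  unfold Le at *
  rwa [Valuation.map_neg]

theorem Le.mul (hx : Le v c k x) (hy : Le v c l y) : Le v c (k + l) (x * y) := by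
  unfold Le at *
  rw [map_mul, pow_add]
  exact mul_le_mul' hx hy

theorem Le.mono (hc : c ≤ 1) (h : k ≤ l) (hx : Le v c l x) : Le v c k x :=
  le_trans hx (pow_le_pow_of_le_one zero_le hc h)

theorem Le.pow (hx : Le v c k x) (n : ℕ) : Le v c (k * n) (x ^ n) := by
  unfold Le at *
  rw [map_pow, pow_mul]
  exact pow_le_pow_left₀ zero_le hx n

theorem Le.of_le_one (hx : v x ≤ 1) : Le v c 0 x := by
  unfold Le
  simpa using hx

theorem Le.int_mul (hx : v x ≤ 1) (hy : Le v c k y) : Le v c k (x * y) := by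
  have := (Le.of_le_one (c := c) hx).mul hy
  simpa using this

theorem Le.lt_one (hc : c < 1) (hk : 0 < k) (hx : Le v c k x) : v x < 1 :=
  lt_of_le_of_lt hx (pow_lt_one₀ zero_le hc hk.ne')

theorem Le.div_unit (hx : Le v c k x) (hy : v y = 1) : Le v c k (x / y) := by
  unfold Le at *
  rwa [map_div₀, hy, div_one]

end Le

/-! ### The curve in the `(z, w)`-chart -/

/-- all Weierstrass coefficients are integral -/
def Integral (W : WeierstrassCurve K) : Prop :=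
  v W.a₁ ≤ 1 ∧ v W.a₂ ≤ 1 ∧ v W.a₃ ≤ 1 ∧ v W.a₄ ≤ 1 ∧ v W.a₆ ≤ 1

/-- the Weierstrass equation in the coordinates `z = -x / y`, `w = -1 / y` -/
def ZW (W : WeierstrassCurve K) (z w : K) : Prop :=
  w * (1 - W.a₁ * z - W.a₃ * w - W.a₂ * z ^ 2 - W.a₄ * z * w - W.a₆ * w ^ 2) = z ^ 3

variable {v} {W : WeierstrassCurve K}

theorem zw_of_equation {x y : K} (h : W.toAffine.Equation x y) (hy : y ≠ 0) :
    ZW W (-x / y) (-1 / y) := by
  rw [Affine.equation_iff] at h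
  unfold ZW
  field_simp
  linear_combination -h

theorem val_unit_zw (hW : Integral v W) {c : Γ₀} (hc : c < 1) {z w : K} (hz : Le v c 1 z)
    (hw : Le v c 1 w) :
    v (1 - W.a₁ * z - W.a₃ * w - W.a₂ * z ^ 2 - W.a₄ * z * w - W.a₆ * w ^ 2) = 1 := by
  obtain ⟨h1, h2, h3, h4, h6⟩ := hW
  have hc1 : c ≤ 1 := hc.le
  have key : Le v c 1 (W.a₁ * z + W.a₃ * w + W.a₂ * z ^ 2 + W.a₄ * z * w + W.a₆ * w ^ 2) := by
    refine Le.add (Le.add (Le.add (Le.add ?_ ?_) ?_) ?_) ?_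
    · exact Le.int_mul h1 hz
    · exact Le.int_mul h3 hw
    · exact Le.int_mul h2 (Le.mono hc1 (by norm_num) (hz.pow 2))
    · rw [mul_assoc]
      exact Le.int_mul h4 (Le.mono hc1 (by norm_num) (hz.mul hw))
    · exact Le.int_mul h6 (Le.mono hc1 (by norm_num) (hw.pow 2))
  have := Valuation.map_one_sub_of_lt (v := v) (key.lt_one hc one_pos)
  rw [← this]
  congr 1
  ring

theorem val_w_eq (hW : Integral v W) {z w : K} (h : ZW W z w) (hz : v z < 1) (hw : v w < 1) :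
    v w = v z ^ 3 := by
  have hc : max (v z) (v w) < 1 := max_lt hz hw
  have hu := val_unit_zw hW hc (z := z) (w := w) (by simp [Le]) (by simp [Le])
  have := congrArg v h
  rwa [map_mul, hu, mul_one, map_pow] at this

theorem val_natCast_le_one (n : ℕ) : v (n : K) ≤ 1 := by
  induction n with
  | zero => simp
  | succ n ih =>
    rw [Nat.cast_succ]
    exact v.map_add_le ih (by simp)

/-- a point with non-integral `x` has `v x < v y` -/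
theorem val_x_lt_val_y (hW : Integral v W) {x y : K} (h : W.toAffine.Equation x y)
    (hx : 1 < v x) : v x < v y := by
  obtain ⟨h1, h2, h3, h4, h6⟩ := hW
  rw [Affine.equation_iff] at h
  by_contra hlt
  rw [not_lt] at hlt
  have hx1 : (1 : Γ₀) ≤ v x := hx.le
  have hxx : v x ≤ v x ^ 2 := le_self_pow₀ hx1 (by norm_num)
  have hR : v (W.a₂ * x ^ 2 + W.a₄ * x + W.a₆) ≤ v x ^ 2 := by
    refine v.map_add_le (v.map_add_le ?_ ?_) ?_
    · rw [map_mul, map_pow]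
      exact mul_le_of_le_one_left' h2
    · rw [map_mul]
      exact (mul_le_of_le_one_left' h4).trans hxx
    · exact h6.trans (hx1.trans hxx)
  have hR' : v (x ^ 3 + W.a₂ * x ^ 2 + W.a₄ * x + W.a₆) = v x ^ 3 := by
    have : v (W.a₂ * x ^ 2 + W.a₄ * x + W.a₆) < v (x ^ 3) := by
      rw [map_pow]
      exact lt_of_le_of_lt hR (pow_lt_pow_right₀ hx (by norm_num))
    have h' := Valuation.map_add_eq_of_lt_left (v := v) this
    rw [map_pow] at h'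
    rw [← h']
    congr 1
    ring
  have hL : v (y ^ 2 + W.a₁ * x * y + W.a₃ * y) ≤ v x ^ 2 := by
    refine v.map_add_le (v.map_add_le ?_ ?_) ?_
    · rw [map_pow]
      exact pow_le_pow_left₀ zero_le hlt 2
    · rw [map_mul, map_mul, pow_two, mul_assoc]
      exact (mul_le_of_le_one_left' h1).trans (mul_le_mul' le_rfl hlt)
    · rw [map_mul]
      exact (mul_le_of_le_one_left' h3).trans (hlt.trans hxx)
  rw [h, hR'] at hL
  exact absurd hL (not_le.mpr (pow_lt_pow_right₀ hx (by norm_num)))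

/-- secant estimate in the `(z, w)`-chart -/
theorem zw_chord (hW : Integral v W) {c : Γ₀} (hc : c < 1) {z₁ w₁ z₂ w₂ : K}
    (h₁ : ZW W z₁ w₁) (h₂ : ZW W z₂ w₂) (hz₁ : Le v c 1 z₁) (hz₂ : Le v c 1 z₂)
    (hw₁ : Le v c 3 w₁) (hw₂ : Le v c 3 w₂) :
    ∃ U N : K, v U = 1 ∧ Le v c 2 N ∧ (w₂ - w₁) * U = (z₂ - z₁) * N := by
  obtain ⟨a1, a2, a3, a4, a6⟩ := hW
  have hc1 : c ≤ 1 := hc.le
  refine ⟨1 - W.a₁ * z₂ - W.a₂ * z₂ ^ 2 - W.a₃ * (w₁ + w₂) - W.a₄ * z₂ * (w₁ + w₂)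
      - W.a₆ * (w₁ ^ 2 + w₁ * w₂ + w₂ ^ 2),
    z₁ ^ 2 + z₁ * z₂ + z₂ ^ 2 + W.a₁ * w₁ + W.a₂ * (z₁ + z₂) * w₁ + W.a₄ * w₁ ^ 2, ?_, ?_, ?_⟩
  · have key : Le v c 1 (W.a₁ * z₂ + W.a₂ * z₂ ^ 2 + W.a₃ * (w₁ + w₂) + W.a₄ * z₂ * (w₁ + w₂)
        + W.a₆ * (w₁ ^ 2 + w₁ * w₂ + w₂ ^ 2)) := by
      have hw₁' : Le v c 1 w₁ := Le.mono hc1 (by norm_num) hw₁
      have hw₂' : Le v c 1 w₂ := Le.mono hc1 (by norm_num) hw₂
      refine Le.add (Le.add (Le.add (Le.add ?_ ?_) ?_) ?_) ?_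
      · exact Le.int_mul a1 hz₂
      · exact Le.int_mul a2 (Le.mono hc1 (by norm_num) (hz₂.pow 2))
      · exact Le.int_mul a3 (hw₁'.add hw₂')
      · rw [mul_assoc]
        exact Le.int_mul a4 (Le.mono hc1 (by norm_num) (hz₂.mul (hw₁'.add hw₂')))
      · refine Le.int_mul a6 (Le.add (Le.add ?_ ?_) ?_)
        · exact Le.mono hc1 (by norm_num) (hw₁'.pow 2)
        · exact Le.mono hc1 (by norm_num) (hw₁'.mul hw₂')
        · exact Le.mono hc1 (by norm_num) (hw₂'.pow 2)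
    have := Valuation.map_one_sub_of_lt (v := v) (key.lt_one hc one_pos)
    rw [← this]
    congr 1
    ring
  · refine Le.add (Le.add (Le.add (Le.add (Le.add ?_ ?_) ?_) ?_) ?_) ?_
    · exact hz₁.pow 2
    · exact hz₁.mul hz₂
    · exact hz₂.pow 2
    · exact Le.int_mul a1 (Le.mono hc1 (by norm_num) hw₁)
    · rw [mul_assoc]
      exact Le.int_mul a2 (Le.mono hc1 (by norm_num) ((hz₁.add hz₂).mul hw₁))
    · exact Le.int_mul a4 (Le.mono hc1 (by norm_num) (hw₁.pow 2))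
  · unfold ZW at h₁ h₂
    linear_combination h₂ - h₁

/-- tangent estimate in the `(z, w)`-chart -/
theorem zw_tangent (hW : Integral v W) {c : Γ₀} (hc : c < 1) {z w : K}
    (hz : Le v c 1 z) (hw : Le v c 3 w) :
    v (1 - W.a₁ * z - W.a₂ * z ^ 2 - 2 * W.a₃ * w - 2 * W.a₄ * z * w - 3 * W.a₆ * w ^ 2) = 1 ∧
    Le v c 2 (3 * z ^ 2 + W.a₁ * w + 2 * W.a₂ * z * w + W.a₄ * w ^ 2) := by
  obtain ⟨a1, a2, a3, a4, a6⟩ := hW
  have hc1 : c ≤ 1 := hc.le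
  have v2 : v (2 : K) ≤ 1 := by simpa using val_natCast_le_one (v := v) 2
  have v3 : v (3 : K) ≤ 1 := by simpa using val_natCast_le_one (v := v) 3
  have hw' : Le v c 1 w := Le.mono hc1 (by norm_num) hw
  constructor
  · have key : Le v c 1 (W.a₁ * z + W.a₂ * z ^ 2 + 2 * W.a₃ * w + 2 * W.a₄ * z * w
        + 3 * W.a₆ * w ^ 2) := by
      refine Le.add (Le.add (Le.add (Le.add ?_ ?_) ?_) ?_) ?_
      · exact Le.int_mul a1 hz
      · exact Le.int_mul a2 (Le.mono hc1 (by norm_num) (hz.pow 2))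
      · rw [mul_assoc]
        exact Le.int_mul v2 (Le.int_mul a3 hw')
      · rw [mul_assoc, mul_assoc]
        exact Le.int_mul v2 (Le.int_mul a4 (Le.mono hc1 (by norm_num) (hz.mul hw')))
      · rw [mul_assoc]
        exact Le.int_mul v3 (Le.int_mul a6 (Le.mono hc1 (by norm_num) (hw'.pow 2)))
    have := Valuation.map_one_sub_of_lt (v := v) (key.lt_one hc one_pos)
    rw [← this]
    congr 1
    ring
  · refine Le.add (Le.add (Le.add ?_ ?_) ?_) ?_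
    · exact Le.int_mul v3 (hz.pow 2)
    · exact Le.int_mul a1 (Le.mono hc1 (by norm_num) hw)
    · rw [mul_assoc, mul_assoc]
      exact Le.int_mul v2 (Le.int_mul a2 (Le.mono hc1 (by norm_num) (hz.mul hw)))
    · exact Le.int_mul a4 (Le.mono hc1 (by norm_num) (hw.pow 2))

/-- basic data of a point in the kernel of reduction -/
theorem ker_data (hW : Integral v W) {x y : K} (h : W.toAffine.Equation x y) (hx : 1 < v x) :
    x ≠ 0 ∧ y ≠ 0 ∧ v (-x / y) < 1 ∧ v (-1 / y) < 1 ∧ ZW W (-x / y) (-1 / y) ∧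
      v (-1 / y) = v (-x / y) ^ 3 := by
  have hxy := val_x_lt_val_y hW h hx
  have hy1 : 1 < v y := hx.trans hxy
  have hx0 : x ≠ 0 := by
    rintro rfl
    simp at hx
  have hy0 : y ≠ 0 := by
    rintro rfl
    simp at hy1
  have hvy : 0 < v y := lt_trans zero_lt_one hy1
  have hz : v (-x / y) < 1 := by
    rw [map_div₀, Valuation.map_neg]
    exact (div_lt_one₀ hvy).mpr hxy
  have hw : v (-1 / y) < 1 := by
    rw [map_div₀, Valuation.map_neg, map_one]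
    exact (div_lt_one₀ hvy).mpr hy1
  have hzw := zw_of_equation h hy0
  exact ⟨hx0, hy0, hz, hw, hzw, val_w_eq hW hzw hz hw⟩

/-- the `w`-coordinate of a kernel point is bounded by the cube of the bound on `z` -/
theorem ker_w_le (hW : Integral v W) {x y : K} (h : W.toAffine.Equation x y) (hx : 1 < v x)
    {c : Γ₀} (hz : Le v c 1 (-x / y)) : Le v c 3 (-1 / y) := by
  obtain ⟨-, -, -, -, -, hw⟩ := ker_data hW h hx
  unfold Le at *
  rw [hw]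
  rw [pow_one] at hz
  exact pow_le_pow_left₀ zero_le hz 3

/-- algebra of the tangent line at a point, in both charts -/
theorem tangent_alg {K : Type*} [Field K] {a₁ a₂ a₃ a₄ a₆ x y : K}
    (h : y ^ 2 + a₁ * x * y + a₃ * y = x ^ 3 + a₂ * x ^ 2 + a₄ * x + a₆) (hy : y ≠ 0)
    (hD : y - (-y - a₁ * x - a₃) ≠ 0)
    (hU : 1 - a₁ * (-x / y) - a₂ * (-x / y) ^ 2 - 2 * a₃ * (-1 / y)
        - 2 * a₄ * (-x / y) * (-1 / y) - 3 * a₆ * (-1 / y) ^ 2 ≠ 0) :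
    y - (3 * x ^ 2 + 2 * a₂ * x + a₄ - a₁ * y) / (y - (-y - a₁ * x - a₃)) * x ≠ 0 ∧
    -((3 * x ^ 2 + 2 * a₂ * x + a₄ - a₁ * y) / (y - (-y - a₁ * x - a₃))) /
      (y - (3 * x ^ 2 + 2 * a₂ * x + a₄ - a₁ * y) / (y - (-y - a₁ * x - a₃)) * x) =
      (3 * (-x / y) ^ 2 + a₁ * (-1 / y) + 2 * a₂ * (-x / y) * (-1 / y) + a₄ * (-1 / y) ^ 2) /
      (1 - a₁ * (-x / y) - a₂ * (-x / y) ^ 2 - 2 * a₃ * (-1 / y)
        - 2 * a₄ * (-x / y) * (-1 / y) - 3 * a₆ * (-1 / y) ^ 2) := by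
  obtain ⟨D, hDdef⟩ : ∃ D, D = y - (-y - a₁ * x - a₃) := ⟨_, rfl⟩
  rw [← hDdef] at hD ⊢
  obtain ⟨n, hn⟩ : ∃ n, n = 3 * x ^ 2 + 2 * a₂ * x + a₄ - a₁ * y := ⟨_, rfl⟩
  rw [← hn]
  have hM : (x ^ 3 - a₄ * x - 2 * a₆ + a₃ * y) =
      (1 - a₁ * (-x / y) - a₂ * (-x / y) ^ 2 - 2 * a₃ * (-1 / y)
        - 2 * a₄ * (-x / y) * (-1 / y) - 3 * a₆ * (-1 / y) ^ 2) * y ^ 2 := by
    field_simp
    linear_combination -h
  have e1 : n = (3 * (-x / y) ^ 2 + a₁ * (-1 / y) + 2 * a₂ * (-x / y) * (-1 / y)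
      + a₄ * (-1 / y) ^ 2) * y ^ 2 := by
    rw [hn]
    field_simp
    ring
  obtain ⟨U, hUdef⟩ : ∃ U, U = 1 - a₁ * (-x / y) - a₂ * (-x / y) ^ 2 - 2 * a₃ * (-1 / y)
        - 2 * a₄ * (-x / y) * (-1 / y) - 3 * a₆ * (-1 / y) ^ 2 := ⟨_, rfl⟩
  obtain ⟨N, hNdef⟩ : ∃ N, N = 3 * (-x / y) ^ 2 + a₁ * (-1 / y) + 2 * a₂ * (-x / y) * (-1 / y)
      + a₄ * (-1 / y) ^ 2 := ⟨_, rfl⟩
  rw [← hUdef] at hU hM ⊢
  rw [← hNdef] at e1 ⊢
  have hM0 : (x ^ 3 - a₄ * x - 2 * a₆ + a₃ * y) ≠ 0 := by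
    rw [hM]
    exact mul_ne_zero hU (pow_ne_zero 2 hy)
  have hν : (y - n / D * x) * D = -(x ^ 3 - a₄ * x - 2 * a₆ + a₃ * y) := by
    field_simp
    linear_combination 2 * h + y * hDdef - x * hn
  have hν0 : y - n / D * x ≠ 0 := by
    intro h0
    rw [h0, zero_mul] at hν
    exact hM0 (neg_eq_zero.mp hν.symm)
  refine ⟨hν0, ?_⟩
  rw [div_eq_div_iff hν0 hU]
  have hℓ : n / D * D = n := div_mul_cancel₀ n hD
  apply mul_right_cancel₀ hD
  linear_combination (-U) * hℓ - N * hν - U * e1 + N * hM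

/-- algebra of the secant line through two points, in both charts -/
theorem chord_alg {K : Type*} [Field K] {x₁ y₁ x₂ y₂ : K} (hx : x₁ ≠ x₂) (hy₁ : y₁ ≠ 0) (hy₂ : y₂ ≠ 0)
    (hz : -x₁ / y₁ ≠ -x₂ / y₂) :
    y₁ - (y₁ - y₂) / (x₁ - x₂) * x₁ ≠ 0 ∧
    -((y₁ - y₂) / (x₁ - x₂)) / (y₁ - (y₁ - y₂) / (x₁ - x₂) * x₁) =
      (-1 / y₂ - -1 / y₁) / (-x₂ / y₂ - -x₁ / y₁) ∧
    y₂ = (y₁ - y₂) / (x₁ - x₂) * x₂ + (y₁ - (y₁ - y₂) / (x₁ - x₂) * x₁) := by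
  have hx' : x₁ - x₂ ≠ 0 := sub_ne_zero.mpr hx
  have hz' : -x₂ / y₂ - -x₁ / y₁ ≠ 0 := sub_ne_zero.mpr (Ne.symm hz)
  have hν : (y₁ - (y₁ - y₂) / (x₁ - x₂) * x₁) * (x₁ - x₂) =
      (-x₂ / y₂ - -x₁ / y₁) * (y₁ * y₂) := by
    field_simp
    ring
  have hν0 : y₁ - (y₁ - y₂) / (x₁ - x₂) * x₁ ≠ 0 := by
    intro h0
    rw [h0, zero_mul] at hν
    exact mul_ne_zero hz' (mul_ne_zero hy₁ hy₂) hν.symm
  refine ⟨hν0, ?_, ?_⟩
  · rw [div_eq_div_iff hν0 hz']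
    have hℓ : (y₁ - y₂) / (x₁ - x₂) * (x₁ - x₂) = y₁ - y₂ := div_mul_cancel₀ _ hx'
    have hw : (-1 / y₂ - -1 / y₁) * (y₁ * y₂) = y₂ - y₁ := by
      field_simp
      ring
    apply mul_right_cancel₀ hx'
    apply mul_right_cancel₀ (mul_ne_zero hy₁ hy₂)
    linear_combination (-(-x₂ / y₂ - -x₁ / y₁) * (y₁ * y₂)) * hℓ
      - (-1 / y₂ - -1 / y₁) * (y₁ * y₂) * hν - (-x₂ / y₂ - -x₁ / y₁) * (y₁ * y₂) * hw
  · field_simp
    ring


variable [DecidableEq K]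

/-- the line through two kernel points: `y = ℓ x + ν` with `ν ≠ 0` and `v (ℓ / ν) ≤ c ^ 2` -/
theorem line_params (hW : Integral v W) {c : Γ₀} (hc : c < 1) {x₁ y₁ x₂ y₂ : K}
    (h₁ : W.toAffine.Equation x₁ y₁) (h₂ : W.toAffine.Equation x₂ y₂)
    (hx₁ : 1 < v x₁) (hx₂ : 1 < v x₂) (hxy : ¬(x₁ = x₂ ∧ y₁ = W.toAffine.negY x₂ y₂))
    (hz₁ : Le v c 1 (-x₁ / y₁)) (hz₂ : Le v c 1 (-x₂ / y₂)) :
    y₁ - W.toAffine.slope x₁ x₂ y₁ y₂ * x₁ ≠ 0 ∧
    Le v c 2 (-W.toAffine.slope x₁ x₂ y₁ y₂ / (y₁ - W.toAffine.slope x₁ x₂ y₁ y₂ * x₁)) ∧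
    y₂ = W.toAffine.slope x₁ x₂ y₁ y₂ * x₂ + (y₁ - W.toAffine.slope x₁ x₂ y₁ y₂ * x₁) := by
  obtain ⟨hx₁0, hy₁0, hvz₁, hvw₁, hzw₁, -⟩ := ker_data hW h₁ hx₁
  obtain ⟨hx₂0, hy₂0, hvz₂, hvw₂, hzw₂, -⟩ := ker_data hW h₂ hx₂
  have hw₁ := ker_w_le hW h₁ hx₁ hz₁
  have hw₂ := ker_w_le hW h₂ hx₂ hz₂
  by_cases hx : x₁ = x₂
  · -- tangent
    have hy : y₁ ≠ W.toAffine.negY x₂ y₂ := fun h => hxy ⟨hx, h⟩
    have hyy : y₁ = y₂ := Affine.Y_eq_of_Y_ne h₁ h₂ hx hy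
    subst hx
    subst hyy
    rw [Affine.slope_of_Y_ne rfl hy]
    have hD : y₁ - W.toAffine.negY x₁ y₁ ≠ 0 := sub_ne_zero.mpr hy
    obtain ⟨hU, hN⟩ := zw_tangent hW hc hz₁ hw₁
    have hU0 : (1 - W.a₁ * (-x₁ / y₁) - W.a₂ * (-x₁ / y₁) ^ 2 - 2 * W.a₃ * (-1 / y₁)
        - 2 * W.a₄ * (-x₁ / y₁) * (-1 / y₁) - 3 * W.a₆ * (-1 / y₁) ^ 2) ≠ 0 := by
      intro h0
      rw [h0] at hU
      simp at hU
    rw [Affine.equation_iff] at h₁
    simp only [Affine.negY] at hD ⊢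
    obtain ⟨hν0, hα⟩ := tangent_alg h₁ hy₁0 hD hU0
    refine ⟨hν0, ?_, by ring⟩
    rw [hα]
    exact Le.div_unit hN hU
  · -- secant
    rw [Affine.slope_of_X_ne hx]
    obtain ⟨U, N, hU, hN, hUN⟩ := zw_chord hW hc hzw₁ hzw₂ hz₁ hz₂ hw₁ hw₂
    have hU0 : U ≠ 0 := by
      rintro rfl
      simp at hU
    have hz : -x₁ / y₁ ≠ -x₂ / y₂ := by
      intro hzz
      rw [hzz, sub_self, zero_mul] at hUN
      have hww : -1 / y₂ = -1 / y₁ := by
        rcases mul_eq_zero.mp hUN with h | h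
        · exact sub_eq_zero.mp h
        · exact absurd h hU0
      have hyy : y₁ = y₂ := by
        field_simp at hww
        exact neg_injective hww
      subst hyy
      apply hx
      field_simp at hzz
      exact neg_injective hzz
    obtain ⟨hν0, hα, hy₂⟩ := chord_alg hx hy₁0 hy₂0 hz
    refine ⟨hν0, ?_, hy₂⟩
    rw [hα]
    have : (-1 / y₂ - -1 / y₁) / (-x₂ / y₂ - -x₁ / y₁) = N / U := by
      rw [div_eq_div_iff (sub_ne_zero.mpr (Ne.symm hz)) hU0, hUN, mul_comm]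
    rw [this]
    exact Le.div_unit hN hU

/-- pure algebra: Vieta for the line `y = ℓ x + ν` in the `(z, w)`-chart -/
theorem vieta_alg {K : Type*} [Field K] {a₁ a₂ a₃ a₄ a₆ x₁ x₂ x₃ y₁ y₂ Y ℓ ν : K}
    (hν : ν ≠ 0) (hy₁ : y₁ = ℓ * x₁ + ν) (hy₂ : y₂ = ℓ * x₂ + ν) (hY : Y = ℓ * x₃ + ν)
    (hV1 : x₃ = ℓ ^ 2 + a₁ * ℓ - a₂ - x₁ - x₂)
    (hV2 : 2 * x₁ * ℓ ^ 2 + (a₁ * x₁ - 2 * y₁ - a₃) * ℓ + (-a₁ * y₁ + a₄) =
      x₁ * x₂ + x₁ * x₃ + x₂ * x₃)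
    (hV3 : -x₁ ^ 2 * ℓ ^ 2 + (2 * x₁ * y₁ + a₃ * x₁) * ℓ - (y₁ ^ 2 + a₃ * y₁ - a₆) =
      -(x₁ * x₂ * x₃)) :
    y₁ * y₂ * Y = ν ^ 3 * (1 + a₂ * (-ℓ / ν) + a₄ * (-ℓ / ν) ^ 2 + a₆ * (-ℓ / ν) ^ 3) ∧
    x₁ * y₂ * Y + x₂ * y₁ * Y + x₃ * y₁ * y₂ =
      ν ^ 3 * (a₁ * (-ℓ / ν) + a₂ * (-1 / ν) + a₃ * (-ℓ / ν) ^ 2 + 2 * a₄ * (-ℓ / ν) * (-1 / ν)
        + 3 * a₆ * (-ℓ / ν) ^ 2 * (-1 / ν)) := by
  have I1 : y₁ * y₂ * Y = ν ^ 3 - a₂ * ℓ * ν ^ 2 + a₄ * ℓ ^ 2 * ν - a₆ * ℓ ^ 3 := by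
    subst hy₂ hY hV1
    rw [hy₁] at hV2 hV3 ⊢
    linear_combination ℓ ^ 3 * hV3 - ℓ ^ 2 * ν * hV2
  have I2 : x₁ * y₂ * Y + x₂ * y₁ * Y + x₃ * y₁ * y₂ =
      -a₁ * ℓ * ν ^ 2 - a₂ * ν ^ 2 + a₃ * ℓ ^ 2 * ν + 2 * a₄ * ℓ * ν - 3 * a₆ * ℓ ^ 2 := by
    subst hy₂ hY hV1
    rw [hy₁] at hV2 hV3 ⊢
    linear_combination 3 * ℓ ^ 2 * hV3 - 2 * ℓ * ν * hV2
  constructor
  · rw [I1]
    field_simp
    ring
  · rw [I2]
    field_simp
    ring

/-- the third intersection point of the line through two kernel points is again a kernel point,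
and the three `z`-coordinates add up to zero modulo `c ^ 2` -/
theorem negAdd_ker (hW : Integral v W) {c : Γ₀} (hc : c < 1) {x₁ y₁ x₂ y₂ : K}
    (h₁ : W.toAffine.Equation x₁ y₁) (h₂ : W.toAffine.Equation x₂ y₂)
    (hx₁ : 1 < v x₁) (hx₂ : 1 < v x₂) (hxy : ¬(x₁ = x₂ ∧ y₁ = W.toAffine.negY x₂ y₂))
    (hz₁ : Le v c 1 (-x₁ / y₁)) (hz₂ : Le v c 1 (-x₂ / y₂)) :
    1 < v (W.toAffine.addX x₁ x₂ (W.toAffine.slope x₁ x₂ y₁ y₂)) ∧
    Le v c 2 (-x₁ / y₁ + -x₂ / y₂ + -(W.toAffine.addX x₁ x₂ (W.toAffine.slope x₁ x₂ y₁ y₂)) /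
      (W.toAffine.negAddY x₁ x₂ y₁ (W.toAffine.slope x₁ x₂ y₁ y₂))) := by
  have hc1 : c ≤ 1 := hc.le
  obtain ⟨hx₁0, hy₁0, -, -, -, -⟩ := ker_data hW h₁ hx₁
  obtain ⟨hx₂0, hy₂0, -, -, -, -⟩ := ker_data hW h₂ hx₂
  have hw₁ := ker_w_le hW h₁ hx₁ hz₁
  obtain ⟨hν0, hα, hy₂⟩ := line_params hW hc h₁ h₂ hx₁ hx₂ hxy hz₁ hz₂
  have hE := Affine.equation_negAdd h₁ h₂ hxy
  have hV := Affine.addPolynomial_slope h₁ h₂ hxy
  rw [Affine.addPolynomial_eq, neg_inj, Cubic.prod_X_sub_C_eq, Cubic.toPoly_injective] at hV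
  have hV2 := congrArg Cubic.c hV
  have hV3 := congrArg Cubic.d hV
  simp only at hV2 hV3
  generalize W.toAffine.slope x₁ x₂ y₁ y₂ = ℓ at *
  obtain ⟨x₃, hx₃⟩ : ∃ x₃, x₃ = W.toAffine.addX x₁ x₂ ℓ := ⟨_, rfl⟩
  obtain ⟨Y, hYdef⟩ : ∃ Y, Y = W.toAffine.negAddY x₁ x₂ y₁ ℓ := ⟨_, rfl⟩
  rw [← hx₃] at hV2 hV3 hE ⊢
  rw [← hYdef] at hE ⊢
  obtain ⟨ν, hνdef⟩ : ∃ ν, ν = y₁ - ℓ * x₁ := ⟨_, rfl⟩
  rw [← hνdef] at hν0 hα hy₂
  have hV1 : x₃ = ℓ ^ 2 + W.a₁ * ℓ - W.a₂ - x₁ - x₂ := by rw [hx₃]; rfl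
  have hy₁ : y₁ = ℓ * x₁ + ν := by rw [hνdef]; ring
  have hY : Y = ℓ * x₃ + ν := by
    rw [hYdef, hνdef, Affine.negAddY, ← hx₃]
    ring
  obtain ⟨I1, I2⟩ := vieta_alg (a₁ := W.a₁) (a₂ := W.a₂) (a₃ := W.a₃) (a₄ := W.a₄) (a₆ := W.a₆)
    hν0 hy₁ hy₂ hY hV1 hV2 hV3
  obtain ⟨a1, a2, a3, a4, a6⟩ := hW
  -- the parameters of the line in the `(z, w)`-chart
  obtain ⟨α, hαdef⟩ : ∃ α, α = -ℓ / ν := ⟨_, rfl⟩
  obtain ⟨β, hβdef⟩ : ∃ β, β = -1 / ν := ⟨_, rfl⟩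
  rw [← hαdef] at hα I1 I2
  rw [← hβdef] at I2
  have hβ : Le v c 3 β := by
    have : β = -1 / y₁ - α * (-x₁ / y₁) := by
      rw [hβdef, hαdef]
      field_simp
      linear_combination -hy₁
    rw [this]
    exact hw₁.sub (hα.mul hz₁)
  have hα1 : Le v c 1 α := Le.mono hc1 (by norm_num) hα
  have hβ1 : Le v c 1 β := Le.mono hc1 (by norm_num) hβ
  have hA3 : v (1 + W.a₂ * α + W.a₄ * α ^ 2 + W.a₆ * α ^ 3) = 1 := by
    have key : Le v c 1 (W.a₂ * α + W.a₄ * α ^ 2 + W.a₆ * α ^ 3) := by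
      refine Le.add (Le.add ?_ ?_) ?_
      · exact Le.int_mul a2 hα1
      · exact Le.int_mul a4 (Le.mono hc1 (by norm_num) (hα1.pow 2))
      · exact Le.int_mul a6 (Le.mono hc1 (by norm_num) (hα1.pow 3))
    have := Valuation.map_one_add_of_lt (v := v) (key.lt_one hc one_pos)
    rw [← this]
    congr 1
    ring
  have hA2 : Le v c 2 (W.a₁ * α + W.a₂ * β + W.a₃ * α ^ 2 + 2 * W.a₄ * α * β
      + 3 * W.a₆ * α ^ 2 * β) := by
    have v2 : v (2 : K) ≤ 1 := by simpa using val_natCast_le_one (v := v) 2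
    have v3 : v (3 : K) ≤ 1 := by simpa using val_natCast_le_one (v := v) 3
    refine Le.add (Le.add (Le.add (Le.add ?_ ?_) ?_) ?_) ?_
    · exact Le.int_mul a1 hα
    · exact Le.int_mul a2 (Le.mono hc1 (by norm_num) hβ)
    · exact Le.int_mul a3 (Le.mono hc1 (by norm_num) (hα.pow 2))
    · rw [mul_assoc, mul_assoc]
      exact Le.int_mul v2 (Le.int_mul a4 (Le.mono hc1 (by norm_num) (hα.mul hβ)))
    · rw [mul_assoc, mul_assoc]
      exact Le.int_mul v3 (Le.int_mul a6 (Le.mono hc1 (by norm_num) ((hα.pow 2).mul hβ)))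
  obtain ⟨A3, hA3def⟩ : ∃ A3, A3 = 1 + W.a₂ * α + W.a₄ * α ^ 2 + W.a₆ * α ^ 3 := ⟨_, rfl⟩
  obtain ⟨A2, hA2def⟩ : ∃ A2, A2 = W.a₁ * α + W.a₂ * β + W.a₃ * α ^ 2 + 2 * W.a₄ * α * β
      + 3 * W.a₆ * α ^ 2 * β := ⟨_, rfl⟩
  rw [← hA3def] at hA3 I1
  rw [← hA2def] at hA2 I2
  have hA30 : A3 ≠ 0 := by
    rintro rfl
    simp at hA3
  have hY0 : Y ≠ 0 := by
    rintro rfl
    rw [mul_zero] at I1
    exact mul_ne_zero (pow_ne_zero 3 hν0) hA30 I1.symm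
  -- the sum of the three `z`-coordinates
  have hsum : -x₁ / y₁ + -x₂ / y₂ + -x₃ / Y = -A2 / A3 := by
    rw [eq_div_iff hA30]
    have h3 : (-x₁ / y₁ + -x₂ / y₂ + -x₃ / Y) * (y₁ * y₂ * Y) =
        -(x₁ * y₂ * Y + x₂ * y₁ * Y + x₃ * y₁ * y₂) := by
      field_simp
      ring
    apply mul_left_cancel₀ (pow_ne_zero 3 hν0)
    linear_combination h3 + (-x₁ / y₁ + -x₂ / y₂ + -x₃ / Y) * (-I1) - I2
  have hS : Le v c 2 (-x₁ / y₁ + -x₂ / y₂ + -x₃ / Y) := by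
    rw [hsum]
    exact Le.div_unit hA2.neg hA3
  refine ⟨?_, hS⟩
  -- the third point lies in the kernel
  have hz₃ : Le v c 1 (-x₃ / Y) := by
    have : -x₃ / Y = (-x₁ / y₁ + -x₂ / y₂ + -x₃ / Y) - -x₁ / y₁ - -x₂ / y₂ := by ring
    rw [this]
    exact ((Le.mono hc1 (by norm_num) hS).sub hz₁).sub hz₂
  have hw₃ : Le v c 3 (-1 / Y) := by
    have : -1 / Y = α * (-x₃ / Y) + β := by
      rw [hαdef, hβdef]
      field_simp
      linear_combination hY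
    rw [this]
    exact (hα.mul hz₃).add hβ
  have hvz₃ : v (-x₃ / Y) < 1 := hz₃.lt_one hc one_pos
  have hvw₃ : v (-1 / Y) < 1 := hw₃.lt_one hc (by norm_num)
  have hval := val_w_eq ⟨a1, a2, a3, a4, a6⟩ (zw_of_equation hE hY0) hvz₃ hvw₃
  have hw0 : v (-1 / Y) ≠ 0 := by
    rw [Valuation.ne_zero_iff]
    exact div_ne_zero (neg_ne_zero.mpr one_ne_zero) hY0
  have hz0 : 0 < v (-x₃ / Y) := by
    rw [hval] at hw0
    exact lt_of_le_of_ne zero_le (Ne.symm (fun h => hw0 (by rw [h]; simp)))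
  have hx₃' : x₃ = (-x₃ / Y) / (-1 / Y) := by
    field_simp
  rw [hx₃', map_div₀, hval, one_lt_div₀ (pow_pos hz0 3)]
  exact pow_lt_self_of_lt_one₀ hz0 hvz₃ (by norm_num)

omit [DecidableEq K] in
/-- the `z`-coordinate of the negative of a kernel point -/
theorem neg_ker (hW : Integral v W) {c : Γ₀} (hc : c < 1) {x y : K}
    (h : W.toAffine.Equation x y) (hx : 1 < v x) (hz : Le v c 1 (-x / y)) :
    Le v c 2 (-x / W.toAffine.negY x y + -x / y) := by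
  obtain ⟨hx0, hy0, -, -, -, -⟩ := ker_data hW h hx
  have hw := ker_w_le hW h hx hz
  obtain ⟨a1, a2, a3, a4, a6⟩ := hW
  have hc1 := hc.le
  have key : Le v c 1 (W.a₁ * (-x / y) + W.a₃ * (-1 / y)) :=
    (Le.int_mul a1 hz).add (Le.int_mul a3 (Le.mono hc1 (by norm_num) hw))
  obtain ⟨k, hk⟩ : ∃ k, k = W.a₁ * (-x / y) + W.a₃ * (-1 / y) := ⟨_, rfl⟩
  rw [← hk] at key
  have hu : v (1 - k) = 1 := Valuation.map_one_sub_of_lt (v := v) (key.lt_one hc one_pos)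
  have hu0 : 1 - k ≠ 0 := by
    intro h0
    rw [h0] at hu
    simp at hu
  have hneg : W.toAffine.negY x y = -y * (1 - k) := by
    rw [hk]
    simp only [Affine.negY]
    field_simp
    ring
  have e : -x / W.toAffine.negY x y + -x / y = (-(-x / y) * k) / (1 - k) := by
    rw [hneg]
    field_simp
    ring
  rw [e]
  exact Le.div_unit ((hz.neg).mul key) hu

/-! ### The kernel of reduction as a set of points -/

variable (v) in
/-- the kernel of reduction: the point at infinity and the points with non-integral `x` -/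
def InKer : W.toAffine.Point → Prop
  | .zero => True
  | .some x _ _ => 1 < v x

/-- the local parameter `z = -x / y` at the origin, as a function on points -/
def zc : W.toAffine.Point → K
  | .zero => 0
  | .some x y _ => -x / y

omit [DecidableEq K] in
theorem Le.zero {c : Γ₀} {k : ℕ} : Le v c k (0 : K) := by
  unfold Le
  simp

omit [DecidableEq K] in
theorem neg_inKer (hW : Integral v W) {c : Γ₀} (hc : c < 1) {P : W.toAffine.Point}
    (hP : InKer v P) (hz : Le v c 1 (zc P)) : InKer v (-P) ∧ Le v c 2 (zc (-P) + zc P) := by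
  cases P with
  | zero =>
    refine ⟨trivial, ?_⟩
    change Le v c 2 ((0 : K) + 0)
    rw [add_zero]
    exact Le.zero
  | some x y h =>
    rw [Affine.Point.neg_some]
    exact ⟨hP, neg_ker hW hc h.1 hP hz⟩

theorem add_inKer (hW : Integral v W) {c : Γ₀} (hc : c < 1) {P Q : W.toAffine.Point}
    (hP : InKer v P) (hQ : InKer v Q) (hzP : Le v c 1 (zc P)) (hzQ : Le v c 1 (zc Q)) :
    InKer v (P + Q) ∧ Le v c 2 (zc (P + Q) - zc P - zc Q) := by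
  have hc1 := hc.le
  cases P with
  | zero =>
    change InKer v (0 + Q) ∧ Le v c 2 (zc (0 + Q) - 0 - zc Q)
    rw [zero_add, sub_zero, sub_self]
    exact ⟨hQ, Le.zero⟩
  | some x₁ y₁ h₁ =>
    cases Q with
    | zero =>
      change InKer v (Affine.Point.some x₁ y₁ h₁ + 0) ∧
        Le v c 2 (zc (Affine.Point.some x₁ y₁ h₁ + 0) - zc (Affine.Point.some x₁ y₁ h₁) - 0)
      rw [add_zero, sub_zero, sub_self]
      exact ⟨hP, Le.zero⟩
    | some x₂ y₂ h₂ =>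
      change 1 < v x₁ at hP
      change 1 < v x₂ at hQ
      change Le v c 1 (-x₁ / y₁) at hzP
      change Le v c 1 (-x₂ / y₂) at hzQ
      by_cases hxy : x₁ = x₂ ∧ y₁ = W.toAffine.negY x₂ y₂
      · rw [Affine.Point.add_of_Y_eq hxy.1 hxy.2]
        refine ⟨trivial, ?_⟩
        change Le v c 2 (0 - -x₁ / y₁ - -x₂ / y₂)
        have := neg_ker hW hc h₂.1 hQ hzQ
        rw [hxy.1, hxy.2]
        have e : 0 - -x₂ / W.toAffine.negY x₂ y₂ - -x₂ / y₂ =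
            -(-x₂ / W.toAffine.negY x₂ y₂ + -x₂ / y₂) := by ring
        rw [e]
        exact this.neg
      · rw [Affine.Point.add_some hxy]
        obtain ⟨hx₃, hS⟩ := negAdd_ker hW hc h₁.1 h₂.1 hP hQ hxy hzP hzQ
        refine ⟨hx₃, ?_⟩
        change Le v c 2 (-(W.toAffine.addX x₁ x₂ (W.toAffine.slope x₁ x₂ y₁ y₂)) /
          (W.toAffine.addY x₁ x₂ y₁ (W.toAffine.slope x₁ x₂ y₁ y₂)) - -x₁ / y₁ - -x₂ / y₂)
        have hE := Affine.equation_negAdd h₁.1 h₂.1 hxy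
        have hz₃ : Le v c 1 (-(W.toAffine.addX x₁ x₂ (W.toAffine.slope x₁ x₂ y₁ y₂)) /
            (W.toAffine.negAddY x₁ x₂ y₁ (W.toAffine.slope x₁ x₂ y₁ y₂))) := by
          have e : -(W.toAffine.addX x₁ x₂ (W.toAffine.slope x₁ x₂ y₁ y₂)) /
              (W.toAffine.negAddY x₁ x₂ y₁ (W.toAffine.slope x₁ x₂ y₁ y₂)) =
              (-x₁ / y₁ + -x₂ / y₂ + -(W.toAffine.addX x₁ x₂ (W.toAffine.slope x₁ x₂ y₁ y₂)) /
              (W.toAffine.negAddY x₁ x₂ y₁ (W.toAffine.slope x₁ x₂ y₁ y₂))) - -x₁ / y₁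
                - -x₂ / y₂ := by ring
          rw [e]
          exact ((Le.mono hc1 (by norm_num) hS).sub hzP).sub hzQ
        have hN := neg_ker hW hc hE hx₃ hz₃
        have e : -(W.toAffine.addX x₁ x₂ (W.toAffine.slope x₁ x₂ y₁ y₂)) /
            (W.toAffine.addY x₁ x₂ y₁ (W.toAffine.slope x₁ x₂ y₁ y₂)) - -x₁ / y₁ - -x₂ / y₂ =
            (-(W.toAffine.addX x₁ x₂ (W.toAffine.slope x₁ x₂ y₁ y₂)) /
              W.toAffine.negY (W.toAffine.addX x₁ x₂ (W.toAffine.slope x₁ x₂ y₁ y₂))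
                (W.toAffine.negAddY x₁ x₂ y₁ (W.toAffine.slope x₁ x₂ y₁ y₂)) +
             -(W.toAffine.addX x₁ x₂ (W.toAffine.slope x₁ x₂ y₁ y₂)) /
              (W.toAffine.negAddY x₁ x₂ y₁ (W.toAffine.slope x₁ x₂ y₁ y₂))) -
            (-x₁ / y₁ + -x₂ / y₂ + -(W.toAffine.addX x₁ x₂ (W.toAffine.slope x₁ x₂ y₁ y₂)) /
              (W.toAffine.negAddY x₁ x₂ y₁ (W.toAffine.slope x₁ x₂ y₁ y₂))) := by
          rw [Affine.addY]
          ring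
        rw [e]
        exact hN.sub hS

omit [DecidableEq K] in
theorem zc_lt_one (hW : Integral v W) {P : W.toAffine.Point} (hP : InKer v P) :
    v (zc P) < 1 := by
  cases P with
  | zero =>
    change v (0 : K) < 1
    simp
  | some x y h =>
    exact (ker_data hW h.1 hP).2.2.1

theorem nsmul_inKer (hW : Integral v W) {P : W.toAffine.Point} (hP : InKer v P) (n : ℕ) :
    InKer v (n • P) ∧ Le v (v (zc P)) 2 (zc (n • P) - n * zc P) := by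
  have hc := zc_lt_one hW hP
  have hzP : Le v (v (zc P)) 1 (zc P) := by simp [Le]
  induction n with
  | zero =>
    rw [zero_smul]
    refine ⟨trivial, ?_⟩
    change Le v (v (zc P)) 2 ((0 : K) - (0 : ℕ) * zc P)
    simp [Le.zero]
  | succ n ih =>
    obtain ⟨ih1, ih2⟩ := ih
    have hz : Le v (v (zc P)) 1 (zc (n • P)) := by
      have e : zc (n • P) = (zc (n • P) - n * zc P) + n * zc P := by ring
      rw [e]
      exact (Le.mono hc.le (by norm_num) ih2).add (Le.int_mul (val_natCast_le_one n) hzP)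
    obtain ⟨h1, h2⟩ := add_inKer hW hc ih1 hP hz hzP
    rw [succ_nsmul]
    refine ⟨h1, ?_⟩
    have e : zc (n • P + P) - ((n + 1 : ℕ) : K) * zc P =
        (zc (n • P + P) - zc (n • P) - zc P) + (zc (n • P) - n * zc P) := by
      push_cast
      ring
    rw [e]
    exact h2.add ih2

end Fermat.Agent.S05.Kernel

namespace Fermat.Agent.S05.Kernel

open WeierstrassCurve WeierstrassCurve.Affine

/-- **No torsion in the kernel of reduction.** On a Weierstrass curve with integral coefficients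
over a valued field, a point with non-integral `x`-coordinate is not killed by any natural number
`n` which is a unit for the valuation. -/
theorem no_torsion_of_val_gt_one {K : Type*} [Field K] [DecidableEq K] {Γ₀ : Type*}
    [LinearOrderedCommGroupWithZero Γ₀] (v : Valuation K Γ₀) (W : WeierstrassCurve.Affine K)
    (h1 : v W.a₁ ≤ 1) (h2 : v W.a₂ ≤ 1) (h3 : v W.a₃ ≤ 1) (h4 : v W.a₄ ≤ 1) (h6 : v W.a₆ ≤ 1)
    (n : ℕ) (hn : v (n : K) = 1) {x y : K} (h : W.Nonsingular x y) (hx : 1 < v x) :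
    n • (Point.some x y h) ≠ 0 := by
  intro h0
  have hW : Integral v W := ⟨h1, h2, h3, h4, h6⟩
  have hP : InKer v (W := W) (Point.some x y h) := hx
  obtain ⟨-, hle⟩ := nsmul_inKer hW hP n
  rw [h0] at hle
  obtain ⟨hx0, hy0, hz, -, -, -⟩ := ker_data hW h.1 hx
  change Le v (v (-x / y)) 2 ((0 : K) - n * (-x / y)) at hle
  unfold Le at hle
  rw [zero_sub, Valuation.map_neg, map_mul, hn, one_mul] at hle
  have hz0 : 0 < v (-x / y) := by
    rw [Valuation.pos_iff]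
    exact div_ne_zero (neg_ne_zero.mpr hx0) hy0
  exact absurd hle (not_le.mpr (pow_lt_self_of_lt_one₀ hz0 hz (by norm_num)))

end Fermat.Agent.S05.Kernel
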